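import Fermat.Agent.S13.Torsion

set_option autoImplicit false

namespace Fermat.Agent.S13

open WeierstrassCurve WeierstrassCurve.Affine WeierstrassCurve.Affine.Point

/-- a Galois element fixing both raw coordinates of a point fixes the point. -/
theorem smul_eq_self_of_coords (P : FreyPackage) (σ : GQ) (z : (P.freyCurve⁄Qb).Point)
    (hx : σ (Fermat.Agent.S05.xc z) = Fermat.Agent.S05.xc z) (hy : σ (yr z) = yr z) :
    σ • z = z := by
  cases z with
  | zero => rfl
  | some x y h =>
    have hx' : σ x = x := hx
    have hy' : σ y = y := hy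
    rw [algEquiv_smul_def]
    simp only [Point.map_some, Point.some.injEq]
    exact ⟨hx', hy'⟩

/-- TASK FL: the Galois action on `E[p]` factors through a finite level. -/
theorem frey_finite_level (P : FreyPackage) :
    ∃ F₀ : IntermediateField ℚ Qb, FiniteDimensional ℚ F₀ ∧
      ∀ σ : GQ, σ ∈ F₀.fixingSubgroup → ∀ z : FreyV P, σ • z = z := by
  have := freyV_finite P
  let S : Set Qb :=
    Set.range (fun z : FreyV P => Fermat.Agent.S05.xc (z : (P.freyCurve⁄Qb).Point)) ∪
      Set.range (fun z : FreyV P => yr (z : (P.freyCurve⁄Qb).Point))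
  have hSfin : S.Finite := (Set.finite_range _).union (Set.finite_range _)
  have : Finite S := hSfin.to_subtype
  refine ⟨IntermediateField.adjoin ℚ S, ?_, ?_⟩
  · have halg : Algebra.IsAlgebraic ℚ Qb := Ladder.isAlgClosure_Qbar.isAlgebraic
    exact IntermediateField.finiteDimensional_adjoin
      (fun x _ => (halg.isAlgebraic x).isIntegral)
  · intro σ hσ z
    have hfix : ∀ x ∈ S, σ x = x := fun x hx =>
      (IntermediateField.mem_fixingSubgroup_iff _ σ).mp hσ x
        (IntermediateField.subset_adjoin ℚ S hx)
    apply Subtype.ext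
    exact smul_eq_self_of_coords P σ z (hfix _ (Or.inl ⟨z, rfl⟩)) (hfix _ (Or.inr ⟨z, rfl⟩))

end Fermat.Agent.S13
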