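import Mathlib
import Fermat.Agent.S54.Frobenius
import Fermat.Agent.S05.Inertia

set_option autoImplicit false

open scoped Pointwise

namespace Fermat.Agent.S13

noncomputable section

open Fermat.Agent.S54

attribute [local instance] isAlgClosure_Qbar zbarAction zbarTop zbar_discrete zbar_continuousSMul
  zbar_isInvariant

local notation "Qbar" => AlgebraicClosure ℚ

/-- Lifting of "relative inertia": if `σ₀` acts trivially modulo `Q` on the `H`-invariant algebraic
integers, then some element of the coset `H σ₀` lies in the inertia group of `Q`. -/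
theorem Minkowski.exists_lift (H : Subgroup GQ) [H.Normal] (hH : IsClosed (H : Set GQ))
    (Q : Ideal Zbar) [Q.IsPrime] (σ₀ : GQ)
    (h0 : ∀ a : Zbar, (∀ h ∈ H, h • a = a) → σ₀ • a - a ∈ Q) :
    ∃ h ∈ H, (h * σ₀) • Q = Q ∧ ∀ b : Zbar, (h * σ₀) • b - b ∈ Q := by
  have : CompactSpace H := isCompact_iff_compactSpace.mp hH.isCompact
  let A := FixedPoints.subalgebra ℤ Zbar H
  have hcomm : SMulCommClass H A Zbar := ⟨fun h a b => by
    show h • ((a : Zbar) * b) = (a : Zbar) * (h • b)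
    rw [smul_mul', a.2 h]⟩
  have hinv : Algebra.IsInvariant A Zbar H := ⟨fun x h ↦ ⟨⟨x, h⟩, rfl⟩⟩
  have hAfix : ∀ a : A, ∀ h ∈ H, h • (a : Zbar) = a := fun a h hh => a.2 ⟨h, hh⟩
  -- `σ₀` and its inverse preserve `A`
  have hnorm : ∀ (g : GQ) (a : Zbar), (∀ h ∈ H, h • a = a) → ∀ h ∈ H, h • (g • a) = g • a := by
    intro g a ha h hh
    have h1 : (g⁻¹ * h * g) • a = a := ha _ (by
      have := Subgroup.Normal.conj_mem (inferInstance : H.Normal) h hh g⁻¹
      simpa using this)
    calc h • (g • a) = g • ((g⁻¹ * h * g) • a) := by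
          simp only [← mul_smul]
          congr 1
          group
      _ = g • a := by rw [h1]
  -- Step 1
  have hunder : (σ₀ • Q).under A = Q.under A := by
    ext a
    simp only [Ideal.under, Ideal.mem_comap]
    show (a : Zbar) ∈ σ₀ • Q ↔ (a : Zbar) ∈ Q
    rw [Ideal.mem_pointwise_smul_iff_inv_smul_mem]
    have h1 := h0 (σ₀⁻¹ • (a : Zbar)) (hnorm σ₀⁻¹ a (hAfix a))
    rw [smul_inv_smul] at h1
    constructor
    · intro h2
      have := Q.add_mem h1 h2
      simpa using this
    · intro h2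
      have := Q.sub_mem h2 h1
      simpa using this
  -- Step 2
  obtain ⟨h₁, hh₁⟩ := Algebra.IsInvariant.exists_smul_of_under_eq_of_profinite (A := A) (G := H)
    (σ₀ • Q) Q hunder
  have hσ₁ : ((h₁ : GQ) * σ₀) • Q = Q := by
    rw [mul_smul]
    exact hh₁.symm
  have hσ₁A : ∀ a : A, ((h₁ : GQ) * σ₀) • (a : Zbar) - a ∈ Q := by
    intro a
    rw [mul_smul, hnorm σ₀ a (hAfix a) h₁ h₁.2]
    exact h0 a (hAfix a)
  -- Step 3
  let P : Ideal A := Q.under A
  have hlies : Q.LiesOver P := ⟨rfl⟩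
  let e₀ : (Zbar ⧸ Q) ≃+* (Zbar ⧸ Q) :=
    Ideal.quotientEquiv Q Q (MulSemiringAction.toRingEquiv GQ Zbar ((h₁ : GQ) * σ₀)) (by
      conv_lhs => rw [← hσ₁]
      rfl)
  let e : (Zbar ⧸ Q) ≃ₐ[A ⧸ P] (Zbar ⧸ Q) := AlgEquiv.ofRingEquiv (f := e₀) (by
    intro r
    obtain ⟨a, rfl⟩ := Ideal.Quotient.mk_surjective r
    show Ideal.Quotient.mk Q (((h₁ : GQ) * σ₀) • (a : Zbar)) = Ideal.Quotient.mk Q (a : Zbar)
    rw [Ideal.Quotient.eq]
    exact hσ₁A a)
  -- Step 4
  obtain ⟨⟨h₂, hh₂⟩, he⟩ := Ideal.Quotient.stabilizerHom_surjective_of_profinite (G := H) P Q e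
  have hh₂' : (h₂ : GQ) • Q = Q := hh₂
  have hh₂inv : (h₂ : GQ)⁻¹ • Q = Q := by
    conv_lhs => rw [← hh₂']
    rw [inv_smul_smul]
  have key : ∀ b : Zbar, ((h₁ : GQ) * σ₀) • b - (h₂ : GQ) • b ∈ Q := by
    intro b
    have h2 := congrArg (fun t => t (Ideal.Quotient.mk Q b)) he
    simp only [Ideal.Quotient.stabilizerHom_apply] at h2
    rw [← Ideal.Quotient.eq]
    exact h2.symm
  refine ⟨(h₂ : GQ)⁻¹ * h₁, H.mul_mem (H.inv_mem h₂.2) h₁.2, ?_, ?_⟩
  · rw [mul_assoc, mul_smul, hσ₁, hh₂inv]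
  · intro b
    have h3 : (h₂ : GQ)⁻¹ • (((h₁ : GQ) * σ₀) • b - (h₂ : GQ) • b) ∈ (h₂ : GQ)⁻¹ • Q :=
      Ideal.smul_mem_pointwise_smul _ _ _ (key b)
    rw [hh₂inv, smul_sub, inv_smul_smul, ← mul_smul, ← mul_assoc] at h3
    exact h3

/-- An element of the inertia group of the centre of `A` on the algebraic integers lies in the
inertia group of `A`. -/
theorem Minkowski.mem_inertia (A : ValuationSubring Qbar) (σ : GQ)
    (hσ : σ • zbarCenter A = zbarCenter A) (h : ∀ b : Zbar, σ • b - b ∈ zbarCenter A) :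
    σ ∈ A.inertiaSubgroupIn ℚ := by
  have hdec := mem_decomposition_of_smul_center_eq A σ hσ
  refine Subgroup.mem_map.mpr ⟨⟨σ, hdec⟩, ?_, rfl⟩
  rw [ValuationSubring.inertiaSubgroup, MonoidHom.mem_ker]
  ext x
  show (⟨σ, hdec⟩ : A.decompositionSubgroup ℚ) • x = x
  obtain ⟨a, rfl⟩ := IsLocalRing.residue_surjective x
  obtain ⟨b, s, hs, hxs⟩ := exists_fraction A a.1 a.2
  have key : ∀ t : Zbar, (⟨σ, hdec⟩ : A.decompositionSubgroup ℚ) •
      IsLocalRing.residue A (zbarIncl A t) = IsLocalRing.residue A (zbarIncl A t) := by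
    intro t
    rw [← IsLocalRing.ResidueField.residue_smul, ← sub_eq_zero, ← map_sub,
      IsLocalRing.residue_eq_zero_iff, ← ValuationSubring.coe_mem_nonunits_iff]
    have := (mem_zbarCenter A _).mp (h t)
    exact this
  have h1 : a * zbarIncl A s = zbarIncl A b := Subtype.ext hxs
  have h2 : IsLocalRing.residue A a * IsLocalRing.residue A (zbarIncl A s) =
      IsLocalRing.residue A (zbarIncl A b) := by rw [← map_mul, h1]
  have h3 : IsLocalRing.residue A (zbarIncl A s) ≠ 0 := by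
    rw [Ne, IsLocalRing.residue_eq_zero_iff, ← ValuationSubring.coe_mem_nonunits_iff]
    exact hs
  have h4 := congrArg (fun y => (⟨σ, hdec⟩ : A.decompositionSubgroup ℚ) • y) h2
  simp only [smul_mul', key] at h4
  rw [← h2] at h4
  exact mul_right_cancel₀ h3 h4

/-- **Minkowski bridge**: an open normal subgroup of `G_ℚ` containing an inertia group at every
prime is everything. -/
theorem subgroup_eq_top_of_inertia
    (H : Subgroup (AlgebraicClosure ℚ ≃ₐ[ℚ] AlgebraicClosure ℚ)) [H.Normal]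
    (F₀ : IntermediateField ℚ (AlgebraicClosure ℚ)) [FiniteDimensional ℚ F₀]
    (hF₀ : F₀.fixingSubgroup ≤ H)
    (hin : ∀ ℓ : ℕ, ℓ.Prime → ∃ A : ValuationSubring (AlgebraicClosure ℚ),
      A.LiesOverPrime ℓ ∧ A.inertiaSubgroupIn ℚ ≤ H) : H = ⊤ := by
  have hopen : IsOpen (H : Set GQ) := Subgroup.isOpen_mono hF₀ F₀.fixingSubgroup_isOpen
  have hclosed : IsClosed (H : Set GQ) := H.isClosed_of_isOpen hopen
  let K : IntermediateField ℚ Qbar := IntermediateField.fixedField H
  have hKH : K.fixingSubgroup = H :=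
    InfiniteGalois.fixingSubgroup_fixedField (⟨H, hclosed⟩ : ClosedSubgroup GQ)
  have halg : (DivisionRing.toRatAlgebra : Algebra ℚ K) = IntermediateField.algebra' K :=
    Subsingleton.elim _ _
  have hfd : FiniteDimensional ℚ K := by
    have h1 := (InfiniteGalois.isOpen_iff_finite K).mp (by rw [hKH]; exact hopen)
    exact h1
  have hgal : IsGalois ℚ K := by
    have h1 := (InfiniteGalois.normal_iff_isGalois K).mp (by rw [hKH]; infer_instance)
    exact h1
  by_contra hne
  have hfin : 1 < Module.finrank ℚ K := by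
    by_contra hcon
    have h1 : Module.finrank ℚ K = 1 := by
      have : 0 < Module.finrank ℚ K := Module.finrank_pos
      omega
    have h2 : K = ⊥ := IntermediateField.finrank_eq_one_iff.mp h1
    apply hne
    rw [← hKH, h2, IntermediateField.fixingSubgroup_bot]
  have hnf : NumberField K := { to_charZero := inferInstance, to_finiteDimensional := hfd }
  obtain ⟨p, hp, hram⟩ :=
    NumberField.exists_not_isUnramifiedAt_int_of_isGalois (K := K) (𝒪 := NumberField.RingOfIntegers K) hfin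
  obtain ⟨A, hA, hI⟩ := hin p hp
  -- the inclusion of the integers of `K` in all algebraic integers
  let ι : NumberField.RingOfIntegers K →+* Zbar :=
    { toFun := fun x => ⟨((x : K) : Qbar), by
        have h1 : IsIntegral ℤ (x : K) := NumberField.RingOfIntegers.isIntegral_coe x
        exact h1.map (IsScalarTower.toAlgHom ℤ K Qbar)⟩
      map_one' := by ext; simp
      map_mul' := fun x y => by ext; simp
      map_zero' := by ext; simp
      map_add' := fun x y => by ext; simp }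
  have hι : ∀ x : NumberField.RingOfIntegers K, ((ι x : Zbar) : Qbar) = ((x : K) : Qbar) := fun _ => rfl
  let P : Ideal (NumberField.RingOfIntegers K) := (zbarCenter A).comap ι
  have hPprime : P.IsPrime := Ideal.comap_isPrime _ _
  have hpP : (p : NumberField.RingOfIntegers K) ∈ P := by
    show ι (p : NumberField.RingOfIntegers K) ∈ zbarCenter A
    rw [mem_zbarCenter, map_natCast]
    have h : (p : Qbar) ∈ A.nonunits := hA
    simpa using h
  apply hram P hPprime hpP
  let _ : MulSemiringAction Gal(K/ℚ) (NumberField.RingOfIntegers K) :=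
    IsIntegralClosure.MulSemiringAction ℤ ℚ K (NumberField.RingOfIntegers K)
  have hGG := IsGaloisGroup.of_isFractionRing Gal(K/ℚ) ℤ (NumberField.RingOfIntegers K) ℚ K
  rw [← Ideal.ramificationIdx_eq_one_iff,
    ← Ideal.ramificationIdxIn_eq_ramificationIdx (P.under ℤ) P Gal(K/ℚ),
    ← Ideal.card_inertia_eq_ramificationIdxIn (G := Gal(K/ℚ)) (P.under ℤ) P,
    Subgroup.card_eq_one, eq_bot_iff]
  intro τ hτ
  obtain ⟨σ₀, hσ₀⟩ := AlgEquiv.restrictNormalHom_surjective (F := ℚ) (K₁ := K) Qbar τ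
  have hσ₀K : ∀ x : K, σ₀ (x : Qbar) = ((τ x : K) : Qbar) := by
    intro x
    rw [← hσ₀]
    exact (AlgEquiv.restrictNormal_commutes σ₀ K x).symm
  have hτ' : ∀ x : NumberField.RingOfIntegers K, τ • x - x ∈ P := hτ
  have hsmul : ∀ x : NumberField.RingOfIntegers K, ((τ • x : NumberField.RingOfIntegers K) : K) = τ (x : K) := by
    intro x
    exact algebraMap_galRestrict_apply ℤ τ x
  -- the relative inertia condition
  have h0 : ∀ a : Zbar, (∀ h ∈ H, h • a = a) → σ₀ • a - a ∈ zbarCenter A := by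
    intro a ha
    have haK : (a : Qbar) ∈ K := by
      rw [IntermediateField.mem_fixedField_iff]
      intro h hh
      exact congrArg Subtype.val (ha h hh)
    have hint : IsIntegral ℤ (⟨(a : Qbar), haK⟩ : K) := by
      have h1 : IsIntegral ℤ (algebraMap K Qbar ⟨(a : Qbar), haK⟩) := a.2
      exact (isIntegral_algebraMap_iff (algebraMap K Qbar).injective).mp h1
    let x : NumberField.RingOfIntegers K := ⟨⟨(a : Qbar), haK⟩, hint⟩
    have hx : ι x = a := rfl
    have h2 : ι (τ • x - x) ∈ zbarCenter A := hτ' x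
    have h3 : ι (τ • x - x) = σ₀ • a - a := by
      apply Subtype.ext
      rw [map_sub, hx]
      show ((ι (τ • x) : Zbar) : Qbar) - (a : Qbar) = σ₀ (a : Qbar) - (a : Qbar)
      rw [hι, hsmul, ← hσ₀K]
      rfl
    rwa [h3] at h2
  obtain ⟨h, hh, hQ, hb⟩ := Minkowski.exists_lift H hclosed (zbarCenter A) σ₀ h0
  have hmem : h * σ₀ ∈ H := hI (Minkowski.mem_inertia A (h * σ₀) hQ hb)
  have hσ₀H : σ₀ ∈ H := by
    have := H.mul_mem (H.inv_mem hh) hmem
    simpa using this
  rw [Subgroup.mem_bot]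
  ext x
  rw [← hσ₀K]
  have hx : (x : Qbar) ∈ IntermediateField.fixedField H := x.2
  rw [IntermediateField.mem_fixedField_iff] at hx
  exact hx σ₀ hσ₀H

/-- (i) there is a valuation subring of `Qbar` over every prime. -/
theorem exists_valuationSubring_liesOver (ℓ : ℕ) (hℓ : ℓ.Prime) :
    ∃ A : ValuationSubring (AlgebraicClosure ℚ), A.LiesOverPrime ℓ :=
  exists_liesOverPrime ℓ hℓ

/-- (ii a) integers lie in every valuation subring. -/
theorem intCast_mem_valuationSubring (A : ValuationSubring (AlgebraicClosure ℚ)) (n : ℤ) :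
    (n : AlgebraicClosure ℚ) ∈ A :=
  intCast_mem A n

/-- (ii b) an integer is a non-unit of a valuation subring over `ℓ` iff it is divisible by `ℓ`. -/
theorem intCast_mem_nonunits_iff {ℓ : ℕ} (hℓ : ℓ.Prime) {A : ValuationSubring (AlgebraicClosure ℚ)}
    (hA : A.LiesOverPrime ℓ) (n : ℤ) :
    (n : AlgebraicClosure ℚ) ∈ A.nonunits ↔ (ℓ : ℤ) ∣ n := by
  rw [ValuationSubring.mem_nonunits_iff]
  exact (Fermat.Agent.S05.val_int A hℓ hA n).2

/-- (iii a) inertia preserves the valuation. -/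
theorem valuation_apply_of_mem_inertia {A : ValuationSubring (AlgebraicClosure ℚ)}
    {σ : AlgebraicClosure ℚ ≃ₐ[ℚ] AlgebraicClosure ℚ} (hσ : σ ∈ A.inertiaSubgroupIn ℚ)
    (z : AlgebraicClosure ℚ) : A.valuation (σ z) = A.valuation z :=
  Fermat.Agent.S05.val_sigma A σ hσ z

/-- (iii b) inertia acts trivially on the residue field. -/
theorem sub_mem_nonunits_of_mem_inertia {A : ValuationSubring (AlgebraicClosure ℚ)}
    {σ : AlgebraicClosure ℚ ≃ₐ[ℚ] AlgebraicClosure ℚ} (hσ : σ ∈ A.inertiaSubgroupIn ℚ)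
    {z : AlgebraicClosure ℚ} (hz : z ∈ A) : σ z - z ∈ A.nonunits := by
  rw [ValuationSubring.mem_nonunits_iff]
  exact (Fermat.Agent.S05.inertia_spec A σ hσ).2 z ((A.valuation_le_one_iff z).mpr hz)

end

end Fermat.Agent.S13
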