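import Mathlib
import Fermat.Prelude.Def_FLTPrelim_FreyPackage
import Fermat.Prelude.Def_FLTPrelim_GaloisRep
import Fermat.Prelude.Def_FLTPrelim_Ramification
import Fermat.Prelude.Def_FLTPrelim_CofixedLine
import Fermat.Agent.S05.Formulas

/-!
# Shared definitions for the S13 development
-/

set_option autoImplicit false

namespace Fermat.Agent.S13

open WeierstrassCurve WeierstrassCurve.Affine
open Fermat.Agent.S05 (xc yc)

/-- The algebraic closure of the rationals. -/
abbrev Qb : Type := AlgebraicClosure ℚ

/-- The absolute Galois group of the rationals
(with the `Algebra ℚ Qb` instance found under `import Mathlib`, the one of the S13 statement). -/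
abbrev GQ : Type := Qb ≃ₐ[ℚ] Qb

/-- The `p`-torsion of the Frey curve over `Qb`. -/
abbrev FreyV (P : FreyPackage) : Type :=
  Submodule.torsionBy ℤ (P.freyCurve⁄Qb).Point P.p

/-- "Kernel of reduction" at the valuation ring `A`:
the origin together with the points with non-integral `x`-coordinate. -/
def InE1 {K : Type*} [Field K] (A : ValuationSubring K) {W : Affine K} (P : W.Point) : Prop :=
  P = 0 ∨ xc P ∉ A

/-- raw `y`-coordinate of a point (junk value `0` at the origin). -/
def yr {K : Type*} [Field K] {W : Affine K} : W.Point → K
  | .zero => 0
  | .some _ y _ => y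

end Fermat.Agent.S13
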