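/-
S13, local theory: shared definitions (kernel of reduction `InE1`, identity component `InE0`,
`y`-coordinate `yy`, inertial pairs `Inert`).  Sorry-free.
-/
import Fermat.Agent.S05.Core

set_option autoImplicit false

namespace Fermat.Agent.S13.Loc

open WeierstrassCurve WeierstrassCurve.Affine Fermat.Agent.S05

variable {K : Type*} [Field K]

/-- `y`-coordinate of a point (junk value `0` at the origin). -/
def yy {W : Affine K} : W.Point → K
  | .zero => 0
  | .some _ y _ => y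

variable {W : Affine K}

@[simp] lemma yy_zero : yy (0 : W.Point) = 0 := rfl
@[simp] lemma yy_some {x y : K} (h : W.Nonsingular x y) : yy (Point.some x y h) = y := rfl

lemma yc_eq_yy (P : W.Point) (hP : P ≠ 0) : yc P = 2 * yy P + W.a₁ * xc P + W.a₃ := by
  rcases P with _ | ⟨x, y, h⟩
  · exact absurd rfl hP
  · rfl

lemma equation_yy (P : W.Point) (hP : P ≠ 0) :
    yy P ^ 2 + W.a₁ * xc P * yy P + W.a₃ * yy P =
      xc P ^ 3 + W.a₂ * xc P ^ 2 + W.a₄ * xc P + W.a₆ := by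
  rcases P with _ | ⟨x, y, h⟩
  · exact absurd rfl hP
  · exact (equation_iff ..).mp h.1

variable {Γ₀ : Type*} [LinearOrderedCommGroupWithZero Γ₀] (v : Valuation K Γ₀)

/-- The kernel of reduction: `0` and the points with non-integral `x`. -/
def InE1 (P : W.Point) : Prop := P = 0 ∨ 1 < v (xc P)

/-- Points not reducing to the point with `x = e` (the node, in the multiplicative case). -/
def InE0 (e : K) (P : W.Point) : Prop := P = 0 ∨ 1 ≤ v (xc P - e)

lemma inE1_zero : InE1 v (0 : W.Point) := Or.inl rfl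
lemma inE0_zero (e : K) : InE0 v e (0 : W.Point) := Or.inl rfl

variable [DecidableEq K]

lemma inE1_neg {P : W.Point} (h : InE1 v P) : InE1 v (-P) := by
  rcases h with h | h
  · left; rw [h, neg_zero]
  · right; rwa [xc_neg]

lemma inE0_neg {e : K} {P : W.Point} (h : InE0 v e P) : InE0 v e (-P) := by
  rcases h with h | h
  · left; rw [h, neg_zero]
  · right; rwa [xc_neg]

omit [DecidableEq K] in
lemma inE0_of_inE1 {e : K} (he : v e ≤ 1) {P : W.Point} (h : InE1 v P) : InE0 v e P := by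
  rcases h with h | h
  · exact Or.inl h
  · right
    rw [v.map_sub_eq_of_lt_left (lt_of_le_of_lt he h)]
    exact h.le

/-- A field automorphism `σ` with a compatible endomorphism `s` of the group of points, such that
`σ` preserves the valuation and acts trivially on the residue field. -/
structure Inert (v : Valuation K Γ₀) (W : Affine K) (σ : K →+* K) (s : W.Point →+ W.Point) :
    Prop where
  val : ∀ x : K, v (σ x) = v x
  close : ∀ x : K, v x ≤ 1 → v (σ x - x) < 1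
  ne_zero : ∀ P : W.Point, P ≠ 0 → s P ≠ 0
  xc_map : ∀ P : W.Point, xc (s P) = σ (xc P)
  yy_map : ∀ P : W.Point, yy (s P) = σ (yy P)
  fix_a₁ : σ W.a₁ = W.a₁
  fix_a₃ : σ W.a₃ = W.a₃

lemma Inert.yc_map {σ : K →+* K} {s : W.Point →+ W.Point} (h : Inert v W σ s) (P : W.Point) :
    yc (s P) = σ (yc P) := by
  by_cases hP : P = 0
  · subst hP; simp
  · rw [yc_eq_yy _ (h.ne_zero P hP), yc_eq_yy _ hP, h.xc_map, h.yy_map]
    simp only [map_add, map_mul, h.fix_a₁, h.fix_a₃, map_ofNat]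

lemma Inert.inE1 {σ : K →+* K} {s : W.Point →+ W.Point} (h : Inert v W σ s) {P : W.Point}
    (hP : InE1 v P) : InE1 v (s P) := by
  rcases hP with hP | hP
  · left; rw [hP, map_zero]
  · right; rwa [h.xc_map, h.val]

omit [DecidableEq K] in
/-- integrality of the `b`-invariants from the `a`-invariants -/
lemma v_b₂_le (ha₁ : v W.a₁ ≤ 1) (ha₂ : v W.a₂ ≤ 1) : v W.b₂ ≤ 1 := by
  have h4 : v (4 : K) ≤ 1 := by simpa using v_natCast_le_one v 4
  rw [WeierstrassCurve.b₂]
  refine v.map_add_le ?_ ?_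
  · rw [map_pow]; exact pow_le_one₀ zero_le ha₁
  · rw [map_mul]; exact mul_le_one' h4 ha₂

omit [DecidableEq K] in
lemma v_b₄_le (ha₁ : v W.a₁ ≤ 1) (ha₃ : v W.a₃ ≤ 1) (ha₄ : v W.a₄ ≤ 1) : v W.b₄ ≤ 1 := by
  have h2 : v (2 : K) ≤ 1 := by simpa using v_natCast_le_one v 2
  rw [WeierstrassCurve.b₄]
  refine v.map_add_le ?_ ?_
  · rw [map_mul]; exact mul_le_one' h2 ha₄
  · rw [map_mul]; exact mul_le_one' ha₁ ha₃

omit [DecidableEq K] in
lemma v_b₆_le (ha₃ : v W.a₃ ≤ 1) (ha₆ : v W.a₆ ≤ 1) : v W.b₆ ≤ 1 := by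
  have h4 : v (4 : K) ≤ 1 := by simpa using v_natCast_le_one v 4
  rw [WeierstrassCurve.b₆]
  refine v.map_add_le ?_ ?_
  · rw [map_pow]; exact pow_le_one₀ zero_le ha₃
  · rw [map_mul]; exact mul_le_one' h4 ha₆

omit [DecidableEq K] in
lemma v_b₈_le (ha₁ : v W.a₁ ≤ 1) (ha₂ : v W.a₂ ≤ 1) (ha₃ : v W.a₃ ≤ 1) (ha₄ : v W.a₄ ≤ 1)
    (ha₆ : v W.a₆ ≤ 1) : v W.b₈ ≤ 1 := by
  have h4 : v (4 : K) ≤ 1 := by simpa using v_natCast_le_one v 4
  rw [WeierstrassCurve.b₈]
  refine v.map_sub_le (v.map_add_le (v.map_sub_le (v.map_add_le ?_ ?_) ?_) ?_) ?_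
  · rw [map_mul, map_pow]; exact mul_le_one' (pow_le_one₀ zero_le ha₁) ha₆
  · rw [map_mul, map_mul]; exact mul_le_one' (mul_le_one' h4 ha₂) ha₆
  · rw [map_mul, map_mul]; exact mul_le_one' (mul_le_one' ha₁ ha₃) ha₄
  · rw [map_mul, map_pow]; exact mul_le_one' ha₂ (pow_le_one₀ zero_le ha₃)
  · rw [map_pow]; exact pow_le_one₀ zero_le ha₄

end Fermat.Agent.S13.Loc
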