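/-
S13, local theory, task Branch: multiplicative reduction; a point reducing to the node and its
conjugate under inertia lie on the same branch, hence differ by an element of `E0`.
Any residue characteristic (`K` of characteristic `≠ 2`).
-/
import Fermat.Agent.S13.LocDefs

set_option autoImplicit false

namespace Fermat.Agent.S13.Loc

open WeierstrassCurve WeierstrassCurve.Affine Fermat.Agent.S05

variable {K : Type*} [Field K] [DecidableEq K] {W : Affine K} {e κ β : K}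
variable {Γ₀ : Type*} [LinearOrderedCommGroupWithZero Γ₀] (v : Valuation K Γ₀)

/-- `4 ξ(P₂-P₁) ξ₁ ξ₂ (ξ₂-ξ₁)² = (Y₂ ξ₁ + Y₁ ξ₂)²`  (`ξ = x - e`, `Y = yc`).
Hint: from `four_xc_add` for `P₂, -P₁`, `yc_sq` and `Centre.D2_id`. -/
lemma Centre_xi_sub (hc : Centre W e κ β) {P₁ P₂ : W.Point} (h₁ : P₁ ≠ 0) (h₂ : P₂ ≠ 0)
    (hx : xc P₂ ≠ xc P₁) :
    4 * (xc (P₂ - P₁) - e) * ((xc P₁ - e) * (xc P₂ - e)) * (xc P₂ - xc P₁) ^ 2 =
      (yc P₂ * (xc P₁ - e) + yc P₁ * (xc P₂ - e)) ^ 2 := by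
  have hf := four_xc_add h₂ (neg_ne_zero.mpr h₁) (by rw [xc_neg]; exact hx)
  rw [xc_neg, yc_neg, ← sub_eq_add_neg, sub_neg_eq_add] at hf
  have e1 := yc_sq P₁ h₁
  have e2 := yc_sq P₂ h₂
  rw [hc.D2_id] at e1 e2
  linear_combination ((xc P₁ - e) * (xc P₂ - e)) * hf
    + (xc P₂ - xc P₁) * (xc P₁ - e) * e2 - (xc P₂ - xc P₁) * (xc P₂ - e) * e1
    + (xc P₁ - e) * (xc P₂ - e) * (xc P₂ - xc P₁) ^ 2 * hc.c1

/-- MATH. If `ξ₂ ≠ ξ₁`: `Centre_xi_sub` gives `v ξ(P₂-P₁) = v ξ₁ v ξ₂ / v(ξ₂-ξ₁)² ≥ 1`.  If `ξ₂ = ξ₁`: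
`P₂ = P₁` or `P₂ = -P₁`; in the latter case `Y₂ ξ₁ + Y₁ ξ₂ = 0`, contradicting `hτ`. -/
theorem same_branch (hc : Centre W e κ β) (h2 : (2 : K) ≠ 0) {P₁ P₂ : W.Point} (h₁ : P₁ ≠ 0)
    (h₂ : P₂ ≠ 0) (hξ0 : xc P₁ - e ≠ 0) (hξ : v (xc P₂ - e) = v (xc P₁ - e))
    (hτ : v (yc P₂ * (xc P₁ - e) + yc P₁ * (xc P₂ - e)) = v 2 * (v (xc P₁ - e) * v (xc P₂ - e))) :
    InE0 v e (P₂ - P₁) := by
  have hv2 : 0 < v (2 : K) := zero_lt_iff.mpr ((v.ne_zero_iff).mpr h2)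
  have hv1 : 0 < v (xc P₁ - e) := zero_lt_iff.mpr ((v.ne_zero_iff).mpr hξ0)
  by_cases hx : xc P₂ = xc P₁
  · rcases eq_or_eq_neg_of_xc_eq h₂ h₁ hx with h | h
    · left; rw [h, sub_self]
    · exfalso
      rw [h, yc_neg, xc_neg] at hτ
      have : -yc P₁ * (xc P₁ - e) + yc P₁ * (xc P₁ - e) = 0 := by ring
      rw [this, map_zero] at hτ
      exact (mul_pos hv2 (mul_pos hv1 hv1)).ne hτ
  · right
    have h := congrArg v (Centre_xi_sub hc h₁ h₂ hx)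
    have e4 : (4 : K) = 2 * 2 := by norm_num
    rw [map_pow, hτ, map_mul, map_mul, map_mul, e4, map_mul, map_mul, hξ, map_pow] at h
    have hle : v (xc P₂ - xc P₁) ≤ v (xc P₁ - e) := by
      have : xc P₂ - xc P₁ = (xc P₂ - e) - (xc P₁ - e) := by ring
      rw [this]
      exact v.map_sub_le hξ.le le_rfl
    set X := v (xc (P₂ - P₁) - e)
    set a := v (xc P₁ - e)
    set d := v (xc P₂ - xc P₁)
    set c := v (2 : K)
    by_contra hlt
    rw [not_le] at hlt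
    have hpos : 0 < c * c * (a * a) * a ^ 2 :=
      mul_pos (mul_pos (mul_pos hv2 hv2) (mul_pos hv1 hv1)) (pow_pos hv1 2)
    have : c * c * X * (a * a) * d ^ 2 < (c * (a * a)) ^ 2 := by
      calc c * c * X * (a * a) * d ^ 2 ≤ c * c * X * (a * a) * a ^ 2 :=
            mul_le_mul_right (pow_le_pow_left₀ zero_le hle 2) _
        _ = X * (c * c * (a * a) * a ^ 2) := by
            rw [mul_comm (c * c) X, mul_assoc X, mul_assoc X, mul_assoc (c * c)]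
        _ < 1 * (c * c * (a * a) * a ^ 2) := mul_lt_mul_of_pos_right hlt hpos
        _ = (c * (a * a)) ^ 2 := by
            rw [one_mul, sq, sq, mul_mul_mul_comm c (a * a) c (a * a), mul_assoc (c * c)]
    rw [h] at this
    exact lt_irrefl _ this

/-- MATH. `ξ = x(P) - e`, `τ = yc P / ξ`, `t = (τ - a₁)/2`.  From `yc² = ξ(4ξ²+βξ+4κ)` and
`β = a₁² + 4a₂ + 12 e`: `t² + a₁ t = a₂ + 3e + ξ + κ/ξ`, so `t` is integral, `v (σ t - t) < 1`;
`τ² = β + 4(ξ + κ/ξ)` so `v τ = 1`; `σ τ + τ = 2 (τ + (σ t - t))` has valuation `v 2`;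
`yc(sP) ξ + yc(P) σξ = ξ σξ (στ + τ)`.  Then apply `same_branch`. -/
theorem Inert.same_branch {σ : K →+* K} {s : W.Point →+ W.Point} (hI : Inert v W σ s)
    (hc : Centre W e κ β) (h2 : (2 : K) ≠ 0) (hσe : σ e = e)
    (ha₁ : v W.a₁ ≤ 1) (ha₂ : v W.a₂ ≤ 1) (he : v e ≤ 1) (hβ : v β = 1)
    {P : W.Point} (hP : P ≠ 0) (h1 : v κ < v (xc P - e)) (h3 : v (xc P - e) < 1) :
    InE0 v e (s P - P) := by
  set ξ := xc P - e with hξdef
  set Y := yc P with hYdef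
  have hvξ : 0 < v ξ := lt_of_le_of_lt zero_le h1
  have hξ0 : ξ ≠ 0 := (v.ne_zero_iff).mp hvξ.ne'
  have h4 : v (4 : K) ≤ 1 := by simpa using v_natCast_le_one v 4
  have h3' : v (3 : K) ≤ 1 := by simpa using v_natCast_le_one v 3
  have hY2 : Y ^ 2 = ξ * (4 * ξ ^ 2 + β * ξ + 4 * κ) := by
    rw [hYdef, yc_sq P hP, hc.D2_id]
  have hκξ : v (κ / ξ) < 1 := by
    rw [map_div₀]; exact (div_lt_one₀ hvξ).mpr h1
  have hsm : v (ξ + κ / ξ) < 1 := v.map_add_lt h3 hκξ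
  set τ := Y / ξ with hτdef
  set t := (τ - W.a₁) / 2 with htdef
  have hτ2 : τ ^ 2 = β + 4 * (ξ + κ / ξ) := by
    rw [hτdef, div_pow, hY2]; field_simp; ring
  have hvτ : v τ = 1 := by
    have : v (τ ^ 2) = 1 := by
      rw [hτ2, ← hβ]
      apply v.map_add_eq_of_lt_left
      rw [hβ, map_mul]
      exact lt_of_le_of_lt (mul_le_of_le_one_left' h4) hsm
    rw [map_pow] at this
    exact (pow_eq_one_iff_of_nonneg zero_le (by norm_num)).mp this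
  have ht2 : t ^ 2 + W.a₁ * t = W.a₂ + 3 * e + (ξ + κ / ξ) := by
    have hb : β = W.a₁ ^ 2 + 4 * W.a₂ + 12 * e := by rw [hc.c1, WeierstrassCurve.b₂]
    have e1 : 4 * (t ^ 2 + W.a₁ * t) = τ ^ 2 - W.a₁ ^ 2 := by
      rw [htdef]; field_simp; ring
    have h4' : (4 : K) ≠ 0 := by
      have : (4 : K) = 2 * 2 := by norm_num
      rw [this]; exact mul_ne_zero h2 h2
    apply mul_left_cancel₀ h4'
    rw [e1, hτ2, hb]; ring
  have hvt : v t ≤ 1 := by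
    by_contra hlt
    rw [not_le] at hlt
    have hR : v (W.a₂ + 3 * e + (ξ + κ / ξ)) ≤ 1 := by
      refine v.map_add_le (v.map_add_le ha₂ ?_) hsm.le
      rw [map_mul]; exact mul_le_one' h3' he
    have hlt2 : v (W.a₁ * t) < v (t ^ 2) := by
      rw [map_mul, map_pow, sq]
      exact mul_lt_mul_of_pos_right (lt_of_le_of_lt ha₁ hlt) (lt_trans zero_lt_one hlt)
    have : v (t ^ 2 + W.a₁ * t) = v (t ^ 2) := v.map_add_eq_of_lt_left hlt2
    rw [ht2, map_pow] at this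
    rw [this] at hR
    exact absurd (one_lt_pow₀ hlt (by norm_num)) (not_lt.mpr hR)
  have hclose : v (σ t - t) < 1 := hI.close t hvt
  have hσξ : xc (s P) - e = σ ξ := by rw [hI.xc_map, hξdef, map_sub, hσe]
  have hσξ0 : σ ξ ≠ 0 := by
    rw [← v.ne_zero_iff, hI.val]; exact hvξ.ne'
  have hσt : σ t - t = (σ τ - τ) / 2 := by
    rw [htdef, map_div₀, map_sub, hI.fix_a₁, map_ofNat]; ring
  have hσsum : σ τ + τ = 2 * (τ + (σ t - t)) := by
    rw [hσt]; field_simp; ring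
  have hvsum : v (σ τ + τ) = v 2 := by
    rw [hσsum, map_mul]
    have : v (τ + (σ t - t)) = 1 := by
      rw [← hvτ]; apply v.map_add_eq_of_lt_left; rw [hvτ]; exact hclose
    rw [this, mul_one]
  refine Loc.same_branch v hc h2 hP (hI.ne_zero P hP) hξ0 (by rw [hσξ, hI.val]) ?_
  rw [hσξ, hI.yc_map]
  have e5 : σ (yc P) * ξ + yc P * σ ξ = (σ τ + τ) * (ξ * σ ξ) := by
    rw [hτdef, map_div₀]; field_simp; ring
  rw [e5, map_mul, hvsum, map_mul]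

end Fermat.Agent.S13.Loc
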