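/-
S13, local theory, task Close: two integral points which are close to each other and do not reduce
to a 2-torsion point differ by an element of the kernel of reduction.  Any residue characteristic.
-/
import Fermat.Agent.S13.LocDefs

set_option autoImplicit false

namespace Fermat.Agent.S13.Loc

open WeierstrassCurve WeierstrassCurve.Affine Fermat.Agent.S05

variable {K : Type*} [Field K] [DecidableEq K] {W : Affine K}
variable {Γ₀ : Type*} [LinearOrderedCommGroupWithZero Γ₀] (v : Valuation K Γ₀)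

/-- `x(P₂ - P₁) (x₂-x₁)² = n² + a₁ n (x₂-x₁) - (a₂+x₁+x₂)(x₂-x₁)²`, `n = (y₂ - y₁) + yc P₁`. -/
lemma xc_sub_formula {P₁ P₂ : W.Point} (h₁ : P₁ ≠ 0) (h₂ : P₂ ≠ 0) (hx : xc P₂ ≠ xc P₁) :
    xc (P₂ - P₁) * (xc P₂ - xc P₁) ^ 2 =
      (yy P₂ - yy P₁ + yc P₁) ^ 2 + W.a₁ * (yy P₂ - yy P₁ + yc P₁) * (xc P₂ - xc P₁)
        - (W.a₂ + xc P₁ + xc P₂) * (xc P₂ - xc P₁) ^ 2 := by
  rcases P₁ with _ | ⟨x₁, y₁, k₁⟩
  · exact absurd rfl h₁
  rcases P₂ with _ | ⟨x₂, y₂, k₂⟩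
  · exact absurd rfl h₂
  simp only [xc_some] at hx
  rw [sub_eq_add_neg, Point.neg_some, Point.add_of_X_ne hx]
  simp only [xc_some, yc_some, yy_some, addX, slope_of_X_ne hx, negY]
  have : x₂ - x₁ ≠ 0 := sub_ne_zero.mpr hx
  field_simp
  ring

/-- MATH. If `x₂ ≠ x₁`: in `xc_sub_formula` `v n = 1`, the other two terms have `v < 1`, so
`v (x(P₂-P₁)) = 1 / v(x₂-x₁)² > 1`.  If `x₂ = x₁`: `P₂ = P₁` (fine) or `P₂ = -P₁`, and then
`y₂ - y₁ = - yc P₁` is a unit: contradiction. -/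
theorem close_unit (ha₁ : v W.a₁ ≤ 1) (ha₂ : v W.a₂ ≤ 1) {P₁ P₂ : W.Point} (h₁ : P₁ ≠ 0)
    (h₂ : P₂ ≠ 0) (hx₁ : v (xc P₁) ≤ 1) (hx : v (xc P₂ - xc P₁) < 1)
    (hy : v (yy P₂ - yy P₁) < 1) (hY : v (yc P₁) = 1) : InE1 v (P₂ - P₁) := by
  by_cases hxe : xc P₂ = xc P₁
  · rcases eq_or_eq_neg_of_xc_eq h₂ h₁ hxe with h | h
    · left; rw [h, sub_self]
    · exfalso
      have hyy : yy P₂ - yy P₁ = - yc P₁ := by
        subst h
        rcases P₁ with _ | ⟨x₁, y₁, k₁⟩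
        · exact absurd rfl h₁
        simp only [Point.neg_some, yy_some, yc_some, negY]
        ring
      rw [hyy, Valuation.map_neg, hY] at hy
      exact lt_irrefl _ hy
  · right
    set d := xc P₂ - xc P₁ with hd
    set n := yy P₂ - yy P₁ + yc P₁ with hn
    have hd0 : d ≠ 0 := sub_ne_zero.mpr hxe
    have hvd0 : v d ≠ 0 := (Valuation.ne_zero_iff v).mpr hd0
    have hvn : v n = 1 := by
      rw [hn, v.map_add_eq_of_lt_right (by rw [hY]; exact hy), hY]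
    have hx₂ : v (xc P₂) ≤ 1 := by
      have : xc P₂ = d + xc P₁ := by rw [hd]; ring
      rw [this]
      exact v.map_add_le hx.le hx₁
    have hf := xc_sub_formula h₁ h₂ hxe
    rw [← hd, ← hn] at hf
    have ht2 : v (W.a₁ * n * d) < 1 := by
      rw [map_mul, map_mul, hvn, mul_one]
      exact lt_of_le_of_lt (mul_le_of_le_one_left' ha₁) hx
    have hd2 : v (d ^ 2) < 1 := by
      rw [map_pow]; exact pow_lt_one₀ zero_le hx (by norm_num)
    have ht3 : v ((W.a₂ + xc P₁ + xc P₂) * d ^ 2) < 1 := by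
      rw [map_mul]
      have : v (W.a₂ + xc P₁ + xc P₂) ≤ 1 := v.map_add_le (v.map_add_le ha₂ hx₁) hx₂
      exact lt_of_le_of_lt (mul_le_of_le_one_left' this) hd2
    have hrhs : v (n ^ 2 + W.a₁ * n * d - (W.a₂ + xc P₁ + xc P₂) * d ^ 2) = 1 := by
      have h1 : v (n ^ 2) = 1 := by rw [map_pow, hvn, one_pow]
      have h2 : v (n ^ 2 + W.a₁ * n * d) = 1 := by
        rw [v.map_add_eq_of_lt_left (by rw [h1]; exact ht2), h1]
      rw [v.map_sub_eq_of_lt_left (by rw [h2]; exact ht3), h2]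
    rw [← hf, map_mul] at hrhs
    by_contra hcon
    push Not at hcon
    have : v (xc (P₂ - P₁)) * v (d ^ 2) < 1 :=
      lt_of_le_of_lt (mul_le_of_le_one_left' hcon) hd2
    rw [hrhs] at this
    exact lt_irrefl _ this

omit [DecidableEq K] in
/-- integrality of `y` (monic quadratic equation over the valuation ring) -/
theorem v_yy_le_one (ha₁ : v W.a₁ ≤ 1) (ha₂ : v W.a₂ ≤ 1) (ha₃ : v W.a₃ ≤ 1) (ha₄ : v W.a₄ ≤ 1)
    (ha₆ : v W.a₆ ≤ 1) {P : W.Point} (hx : v (xc P) ≤ 1) : v (yy P) ≤ 1 := by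
  by_cases hP : P = 0
  · subst hP; simp
  have he := equation_yy P hP
  by_contra hcon
  push Not at hcon
  set y := yy P with hy
  set x := xc P with hxd
  -- y^2 = rhs - (a₁ x + a₃) y
  have h1 : y ^ 2 = (x ^ 3 + W.a₂ * x ^ 2 + W.a₄ * x + W.a₆) - (W.a₁ * x + W.a₃) * y := by
    linear_combination he
  have hr : v (x ^ 3 + W.a₂ * x ^ 2 + W.a₄ * x + W.a₆) ≤ 1 := by
    refine v.map_add_le (v.map_add_le (v.map_add_le ?_ ?_) ?_) ha₆
    · rw [map_pow]; exact pow_le_one₀ zero_le hx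
    · rw [map_mul, map_pow]; exact mul_le_one' ha₂ (pow_le_one₀ zero_le hx)
    · rw [map_mul]; exact mul_le_one' ha₄ hx
  have hc : v (W.a₁ * x + W.a₃) ≤ 1 := by
    refine v.map_add_le ?_ ha₃
    rw [map_mul]; exact mul_le_one' ha₁ hx
  have h2 : v (y ^ 2) ≤ v y := by
    rw [h1]
    refine v.map_sub_le (hr.trans hcon.le) ?_
    rw [map_mul]
    exact mul_le_of_le_one_left' hc
  rw [map_pow, sq] at h2
  have hy0 : 0 < v y := lt_trans zero_lt_one hcon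
  have : v y * 1 < v y * v y := by
    exact (mul_lt_mul_iff_right₀ hy0).mpr hcon
  rw [mul_one] at this
  exact absurd h2 (not_le.mpr this)

/-- the version for an inertial pair -/
theorem Inert.close_unit {σ : K →+* K} {s : W.Point →+ W.Point} (hI : Inert v W σ s)
    (ha₁ : v W.a₁ ≤ 1) (ha₂ : v W.a₂ ≤ 1) (ha₃ : v W.a₃ ≤ 1) (ha₄ : v W.a₄ ≤ 1)
    (ha₆ : v W.a₆ ≤ 1) {P : W.Point} (hx : v (xc P) ≤ 1) (hY : v (yc P) = 1) :
    InE1 v (s P - P) := by
  have hP : P ≠ 0 := by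
    rintro rfl
    simp at hY
  refine Loc.close_unit v ha₁ ha₂ hP (hI.ne_zero P hP) hx ?_ ?_ hY
  · rw [hI.xc_map]; exact hI.close _ hx
  · rw [hI.yy_map]; exact hI.close _ (v_yy_le_one v ha₁ ha₂ ha₃ ha₄ ha₆ hx)

end Fermat.Agent.S13.Loc
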