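/-
S13, local theory, task E0: the points not reducing to the node form a subgroup.
-/
import Fermat.Agent.S13.LocDefs

set_option autoImplicit false

namespace Fermat.Agent.S13.Loc

open WeierstrassCurve WeierstrassCurve.Affine Fermat.Agent.S05

variable {K : Type*} [Field K] [DecidableEq K] {W : Affine K} {e κ β : K}
variable {Γ₀ : Type*} [LinearOrderedCommGroupWithZero Γ₀] (v : Valuation K Γ₀)

omit [DecidableEq K] in
/-- `F1` in centred coordinates. -/
lemma Centre_F1_id (h : Centre W e κ β) (s t : K) :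
    F1 W s t - 2 * e * (s - t) ^ 2 =
      2 * ((s - e) + (t - e)) * ((s - e) * (t - e)) + β * ((s - e) * (t - e))
        + 2 * κ * ((s - e) + (t - e)) := by
  simp only [F1]
  linear_combination (-((s - e) * (t - e))) * h.c1 - ((s - e) + (t - e)) * h.c2 + h.c3

/-- the sum formula in centred coordinates -/
lemma Centre_xi_add_add_sub (h : Centre W e κ β) {P Q : W.Point} (hP : P ≠ 0) (hQ : Q ≠ 0)
    (hx : xc P ≠ xc Q) :
    ((xc (P + Q) - e) + (xc (P - Q) - e)) * ((xc P - e) - (xc Q - e)) ^ 2 =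
      2 * ((xc P - e) + (xc Q - e)) * ((xc P - e) * (xc Q - e)) + β * ((xc P - e) * (xc Q - e))
        + 2 * κ * ((xc P - e) + (xc Q - e)) := by
  rw [← Centre_F1_id h, ← xc_add_add_xc_sub hP hQ hx]
  ring

/-- MATH. `s = ξ(P), t = ξ(Q)` (`ξ = x - e`), wlog `v s ≥ v t ≥ 1`.  If `s ≠ t`:
`ξ₊ ξ₋ (s-t)² = (st-κ)²` (`Centre.xi_add_mul_sub`), so `v(ξ₊ ξ₋) = (v s v t)²/v(s-t)² ≥ (v t)² ≥ 1`;
`(ξ₊+ξ₋)(s-t)² = 2(s+t)st + β st + 2κ(s+t) =: F`, `v F ≤ (v s)² v t ≤ (v s v t)²`.
If `v ξ₊ < 1` then `v ξ₋ > v(ξ₊ξ₋) ≥ 1 > v ξ₊`, so `v(ξ₊+ξ₋) = v ξ₋ > v (ξ₊ ξ₋)`, i.e.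
`v F > (v s v t)²`: contradiction.  If `s = t`: `Q = ±P`; doubling (`Centre.xi_dbl`):
`ξ(2P) · s(4s²+βs+4κ) = (s²-κ)²`, `v(4s²+βs+4κ) ≤ (v s)²`, so `v ξ(2P) ≥ v s ≥ 1`. -/
theorem inE0_add (hc : Centre W e κ β) (hκ : v κ < 1) (hβ : v β ≤ 1)
    {P Q : W.Point} (hP : InE0 v e P) (hQ : InE0 v e Q) : InE0 v e (P + Q) := by
  rcases hP with rfl | hP'
  · rwa [zero_add]
  rcases hQ with rfl | hQ'
  · rw [add_zero]; exact Or.inr hP'
  by_cases hP0 : P = 0
  · subst hP0; rw [zero_add]; exact Or.inr hQ'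
  by_cases hQ0 : Q = 0
  · subst hQ0; rw [add_zero]; exact Or.inr hP'
  have h2 : v (2 : K) ≤ 1 := by simpa using v_natCast_le_one v 2
  have h4 : v (4 : K) ≤ 1 := by simpa using v_natCast_le_one v 4
  by_cases hx : xc P = xc Q
  · rcases eq_or_eq_neg_of_xc_eq hP0 hQ0 hx with rfl | rfl
    · -- doubling
      by_cases h2P : P + P = 0
      · exact Or.inl h2P
      right
      have hd := hc.xi_dbl h2P
      set s := xc P - e with hs
      have hs0 : 0 < v s := lt_of_lt_of_le zero_lt_one hP'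
      have hss : 1 ≤ v s ^ 2 := one_le_pow₀ hP'
      have h1 : v (s ^ 2 - κ) = v s ^ 2 := by
        rw [← map_pow]; apply v.map_sub_eq_of_lt_left; rw [map_pow]; exact lt_of_lt_of_le hκ hss
      have h3 : v (4 * s ^ 2 + β * s + 4 * κ) ≤ v s ^ 2 := by
        refine v.map_add_le (v.map_add_le ?_ ?_) ?_
        · rw [map_mul, map_pow]; exact mul_le_of_le_one_left' h4
        · rw [map_mul, sq]
          exact mul_le_mul' (hβ.trans hP') le_rfl
        · rw [map_mul]; exact (mul_le_one' h4 hκ.le).trans hss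
      have hL := congrArg v hd
      rw [map_mul, map_mul, map_pow, h1] at hL
      by_contra hlt
      rw [not_le] at hlt
      have hpos : 0 < v s * v s ^ 2 := mul_pos hs0 (pow_pos hs0 2)
      have : v (xc (P + P) - e) * (v s * v (4 * s ^ 2 + β * s + 4 * κ)) < (v s ^ 2) ^ 2 := by
        calc _ ≤ v (xc (P + P) - e) * (v s * v s ^ 2) :=
              mul_le_mul_right (mul_le_mul_right h3 _) _
          _ < 1 * (v s * v s ^ 2) := mul_lt_mul_of_pos_right hlt hpos
          _ = v s * v s ^ 2 := one_mul _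
          _ ≤ v s ^ 2 * v s ^ 2 := mul_le_mul_left (by
              rw [sq]; exact le_mul_of_one_le_left' hP') _
          _ = (v s ^ 2) ^ 2 := (sq _).symm
      rw [hL] at this
      exact lt_irrefl _ this
    · exact Or.inl (neg_add_cancel _)
  · right
    have hm := hc.xi_add_mul_sub hP0 hQ0 hx
    have hs := Centre_xi_add_add_sub hc hP0 hQ0 hx
    set s := xc P - e with hsdef
    set t := xc Q - e with htdef
    set a := xc (P + Q) - e with hadef
    set b := xc (P - Q) - e with hbdef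
    have hst1 : 1 ≤ v (s * t) := by rw [map_mul]; exact one_le_mul hP' hQ'
    have hne : s - t ≠ 0 := by
      rw [hsdef, htdef]; intro h; apply hx; linear_combination h
    have hd0 : 0 < v ((s - t) ^ 2) := zero_lt_iff.mpr ((v.ne_zero_iff).mpr (pow_ne_zero _ hne))
    have h1 : v (s * t - κ) = v (s * t) := v.map_sub_eq_of_lt_left (lt_of_lt_of_le hκ hst1)
    have hsum : v (s + t) ≤ v (s * t) := by
      rw [map_mul]
      refine v.map_add_le ?_ ?_
      · exact le_mul_of_one_le_right' hQ'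
      · exact le_mul_of_one_le_left' hP'
    have hsq : v (s * t) ≤ v (s * t) ^ 2 := by
      rw [sq]; exact le_mul_of_one_le_left' hst1
    have hF : v (2 * (s + t) * (s * t) + β * (s * t) + 2 * κ * (s + t)) ≤ v (s * t) ^ 2 := by
      refine v.map_add_le (v.map_add_le ?_ ?_) ?_
      · rw [map_mul, map_mul, sq]
        exact mul_le_mul' ((mul_le_of_le_one_left' h2).trans hsum) le_rfl
      · rw [map_mul]; exact (mul_le_of_le_one_left' hβ).trans hsq
      · rw [map_mul, map_mul]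
        exact ((mul_le_of_le_one_left' (mul_le_one' h2 hκ.le)).trans hsum).trans hsq
    have hm' := congrArg v hm
    have hs' := congrArg v hs
    rw [map_mul, map_pow (v) (s * t - κ), h1] at hm'
    rw [map_mul] at hs'
    by_contra hlt
    rw [not_le] at hlt
    have hab0 : v (a * b) ≠ 0 := by
      intro h0
      rw [h0, zero_mul] at hm'
      exact absurd hm'.symm (pow_ne_zero _ (lt_of_lt_of_le zero_lt_one hst1).ne')
    have hb0 : 0 < v b := by
      rw [map_mul] at hab0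
      exact zero_lt_iff.mpr (right_ne_zero_of_mul hab0)
    have hab_lt : v (a * b) < v b := by
      rw [map_mul]
      calc v a * v b < 1 * v b := mul_lt_mul_of_pos_right hlt hb0
        _ = v b := one_mul _
    -- `1 ≤ v (a * b)`
    have hab1 : 1 ≤ v (a * b) := by
      have hd : v ((s - t) ^ 2) ≤ v (s * t) ^ 2 := by
        rw [map_pow]
        refine pow_le_pow_left₀ zero_le ?_ 2
        rw [map_mul]
        refine v.map_sub_le ?_ ?_
        · exact le_mul_of_one_le_right' hQ'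
        · exact le_mul_of_one_le_left' hP'
      rw [← hm'] at hd
      have : 1 * v ((s - t) ^ 2) ≤ v (a * b) * v ((s - t) ^ 2) := by rwa [one_mul]
      exact le_of_mul_le_mul_right this hd0
    have hab : v a < v b := lt_of_lt_of_le hlt (hab1.trans hab_lt.le)
    have hsumab : v (a + b) = v b := v.map_add_eq_of_lt_right hab
    rw [hsumab] at hs'
    have : v (a * b) * v ((s - t) ^ 2) < v b * v ((s - t) ^ 2) :=
      mul_lt_mul_of_pos_right hab_lt hd0
    rw [hm', hs'] at this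
    exact absurd hF (not_le.mpr this)

theorem inE0_sub (hc : Centre W e κ β) (hκ : v κ < 1) (hβ : v β ≤ 1)
    {P Q : W.Point} (hP : InE0 v e P) (hQ : InE0 v e Q) : InE0 v e (P - Q) := by
  rw [sub_eq_add_neg]
  exact inE0_add v hc hκ hβ hP (inE0_neg v hQ)

theorem inE0_nsmul (hc : Centre W e κ β) (hκ : v κ < 1) (hβ : v β ≤ 1)
    {P : W.Point} (hP : InE0 v e P) (n : ℕ) : InE0 v e (n • P) := by
  induction n with
  | zero => rw [zero_smul]; exact inE0_zero v e
  | succ n ih => rw [succ_nsmul]; exact inE0_add v hc hκ hβ ih hP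

theorem inE0_of_two_nsmul (hc : Centre W e κ β) (hκ : v κ < 1) (hβ : v β ≤ 1)
    {n : ℕ} (hn : Odd n) {P : W.Point} (hP : n • P = 0)
    (h2 : InE0 v e (P + P)) : InE0 v e P := by
  obtain ⟨k, rfl⟩ := hn
  have h := inE0_nsmul v hc hκ hβ h2 (k + 1)
  have e : (k + 1) • (P + P) = (2 * k + 1) • P + P := by
    rw [← two_nsmul, smul_smul, ← succ_nsmul]; congr 1; ring
  rwa [e, hP, zero_add] at h

/-- MATH. If `v ξ ≤ v κ` (`ξ = ξ(P)`; `ξ ≠ 0` because otherwise `yc P = 0`, `2P = 0`, `P = 0`) then by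
`Centre.xi_dbl`: `v((ξ²-κ)²) = (v κ)²`, `v(4ξ²+βξ+4κ) ≤ v κ`, so `v ξ(2P) ≥ (v κ)²/(v ξ v κ) ≥ 1`,
so `2P ∈ E0`, so `P ∈ E0` by `inE0_of_two_nsmul`. -/
theorem kappa_lt_of_not_inE0 (hc : Centre W e κ β) (hκ : v κ < 1) (hβ : v β ≤ 1)
    {n : ℕ} (hn : Odd n) {P : W.Point} (hP : n • P = 0) (h0 : ¬ InE0 v e P) :
    v κ < v (xc P - e) ∧ v (xc P - e) < 1 := by
  have hP0 : P ≠ 0 := fun h => h0 (Or.inl h)
  have hlt : v (xc P - e) < 1 := not_le.mp (fun h => h0 (Or.inr h))
  refine ⟨?_, hlt⟩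
  by_contra hle
  rw [not_lt] at hle
  apply h0
  apply inE0_of_two_nsmul v hc hκ hβ hn hP
  have h2P := add_self_ne_zero_of_tors hn hP hP0
  right
  have h4 : v (4 : K) ≤ 1 := by simpa using v_natCast_le_one v 4
  have hd := hc.xi_dbl h2P
  set s := xc P - e with hs
  have hs0 : s ≠ 0 := by
    intro h
    apply h2P
    apply add_self_eq_zero_of_yc
    have := yc_sq P hP0
    rw [hc.D2_id, ← hs, h, zero_mul] at this
    exact pow_eq_zero_iff (two_ne_zero) |>.mp this
  have hvs : 0 < v s := zero_lt_iff.mpr ((v.ne_zero_iff).mpr hs0)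
  have hvκ : 0 < v κ := lt_of_lt_of_le hvs hle
  have hss : v (s ^ 2) < v κ := by
    rw [map_pow, sq]
    calc v s * v s < 1 * v s := mul_lt_mul_of_pos_right hlt hvs
      _ = v s := one_mul _
      _ ≤ v κ := hle
  have h1 : v (s ^ 2 - κ) = v κ := v.map_sub_eq_of_lt_right hss
  have h3 : v (4 * s ^ 2 + β * s + 4 * κ) ≤ v κ := by
    refine v.map_add_le (v.map_add_le ?_ ?_) ?_
    · rw [map_mul]; exact (mul_le_of_le_one_left' h4).trans hss.le
    · rw [map_mul]; exact (mul_le_of_le_one_left' hβ).trans hle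
    · rw [map_mul]; exact mul_le_of_le_one_left' h4
  have hL := congrArg v hd
  rw [map_mul, map_mul, map_pow, h1] at hL
  by_contra hlt2
  rw [not_le] at hlt2
  have hpos : 0 < v s * v κ := mul_pos hvs hvκ
  have : v (xc (P + P) - e) * (v s * v (4 * s ^ 2 + β * s + 4 * κ)) < v κ ^ 2 := by
    calc _ ≤ v (xc (P + P) - e) * (v s * v κ) := mul_le_mul_right (mul_le_mul_right h3 _) _
      _ < 1 * (v s * v κ) := mul_lt_mul_of_pos_right hlt2 hpos
      _ = v s * v κ := one_mul _
      _ ≤ v κ * v κ := mul_le_mul_left hle _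
      _ = v κ ^ 2 := (sq _).symm
  rw [hL] at this
  exact lt_irrefl _ this

end Fermat.Agent.S13.Loc
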