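import Fermat.Agent.S13.Defs
import Fermat.Agent.S05.T1

/-!
# S13 / E1: the kernel of reduction is a subgroup

For a valuation `v` on `K` with `v bᵢ ≤ 1`, the set `{O} ∪ {P | 1 < v (x P)}` is a subgroup of
`W.Point` (any residue characteristic; x-only proof).
-/

set_option autoImplicit false

namespace Fermat.Agent.S13.Ker

open WeierstrassCurve WeierstrassCurve.Affine
open Fermat.Agent.S05

variable {K : Type*} [Field K] {W : Affine K}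
variable {Γ₀ : Type*} [LinearOrderedCommGroupWithZero Γ₀] (v : Valuation K Γ₀)

/-- membership in the kernel of reduction -/
def InE1 (P : W.Point) : Prop := P = 0 ∨ 1 < v (xc P)

lemma inE1_zero : InE1 v (0 : W.Point) := Or.inl rfl

lemma InE1.neg {P : W.Point} (h : InE1 v P) : InE1 v (-P) := by
  rcases h with rfl | h
  · exact Or.inl rfl
  · exact Or.inr (by rwa [xc_neg])

lemma not_inE1_iff {P : W.Point} : ¬ InE1 v P ↔ P ≠ 0 ∧ v (xc P) ≤ 1 := by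
  simp only [InE1, not_or, not_lt]

lemma v_U0_eq_one {s t : K} (hb₄ : v W.b₄ ≤ 1) (hb₆ : v W.b₆ ≤ 1) (hb₈ : v W.b₈ ≤ 1)
    (hs : v s < 1) (ht : v t < 1) : v (U0 W s t) = 1 := by
  have hst : v (s * t) < 1 := by rw [map_mul]; exact mul_lt_one_of_nonneg_of_lt_one_left zero_le hs ht.le
  have e : U0 W s t = 1 + (s * t) * (-(W.b₄ + W.b₆ * (s + t) + W.b₈ * (s * t))) := by
    simp only [U0]; ring
  rw [e]
  apply v.map_one_add_of_lt
  rw [map_mul, Valuation.map_neg]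
  have hc : v (W.b₄ + W.b₆ * (s + t) + W.b₈ * (s * t)) ≤ 1 := by
    refine v.map_add_le (v.map_add_le hb₄ ?_) ?_
    · rw [map_mul]; exact mul_le_one' hb₆ (v.map_add_le hs.le ht.le)
    · rw [map_mul]; exact mul_le_one' hb₈ hst.le
  calc v (s * t) * v (W.b₄ + W.b₆ * (s + t) + W.b₈ * (s * t)) ≤ v (s * t) * 1 :=
        mul_le_mul_right hc _
    _ = v (s * t) := mul_one _
    _ < 1 := hst

lemma v_G1_lt_one {s t : K} (hb₂ : v W.b₂ ≤ 1) (hb₄ : v W.b₄ ≤ 1) (hb₆ : v W.b₆ ≤ 1)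
    (hs : v s < 1) (ht : v t < 1) : v (G1 W s t) < 1 := by
  have hst : v (s * t) < 1 := by rw [map_mul]; exact mul_lt_one_of_nonneg_of_lt_one_left zero_le hs ht.le
  have hsum : v (s + t) < 1 := v.map_add_lt hs ht
  have h2 : v (2 : K) ≤ 1 := by simpa using v_natCast_le_one v 2
  have hmul : ∀ a b : K, v a ≤ 1 → v b < 1 → v (a * b) < 1 := by
    intro a b ha hb
    rw [map_mul]
    calc v a * v b ≤ 1 * v b := mul_le_mul_left ha _
      _ = v b := one_mul _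
      _ < 1 := hb
  simp only [G1]
  refine v.map_add_lt (v.map_add_lt (v.map_add_lt (hmul _ _ h2 hsum) (hmul _ _ hb₂ hst)) ?_) ?_
  · refine hmul _ _ ?_ hst
    rw [map_mul]; exact mul_le_one' hb₄ hsum.le
  · refine hmul _ _ hb₆ ?_
    rw [map_pow]; exact pow_lt_one₀ zero_le hst (by norm_num)

private lemma wc_lt {P : W.Point} (h : 1 < v (xc P)) : xc P ≠ 0 ∧ v (xc P)⁻¹ < 1 := by
  have hx0 : xc P ≠ 0 := by
    intro h0; rw [h0, map_zero] at h; exact not_lt.mpr zero_le h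
  exact ⟨hx0, by rw [map_inv₀]; exact inv_lt_one_of_one_lt₀ h⟩

variable [DecidableEq K]

lemma InE1.add_self (hb₂ : v W.b₂ ≤ 1) (hb₄ : v W.b₄ ≤ 1) (hb₆ : v W.b₆ ≤ 1) (hb₈ : v W.b₈ ≤ 1)
    {P : W.Point} (h : InE1 v P) : InE1 v (P + P) := by
  rcases h with rfl | h
  · exact Or.inl (add_zero _)
  by_cases h2 : P + P = 0
  · exact Or.inl h2
  right
  obtain ⟨hx0, hw⟩ := wc_lt v h
  have h3 := xc_add_self h2
  rw [F0_eq hx0 hx0, D2_eq hx0] at h3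
  have hU := v_U0_eq_one (W := W) v hb₄ hb₆ hb₈ hw hw
  have hG := v_G1_lt_one (W := W) v hb₂ hb₄ hb₆ hw hw
  have h4 : xc (P + P) * G1 W (xc P)⁻¹ (xc P)⁻¹ = U0 W (xc P)⁻¹ (xc P)⁻¹ := by
    have h5 : xc P ^ 4 ≠ 0 := pow_ne_zero _ hx0
    apply mul_left_cancel₀ h5
    linear_combination h3
  have h6 := congrArg v h4
  rw [map_mul, hU] at h6
  by_contra hle
  rw [not_lt] at hle
  have : v (xc (P + P)) * v (G1 W (xc P)⁻¹ (xc P)⁻¹) < 1 := by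
    calc _ ≤ 1 * v (G1 W (xc P)⁻¹ (xc P)⁻¹) := mul_le_mul_left hle _
      _ = _ := one_mul _
      _ < 1 := hG
  rw [h6] at this
  exact lt_irrefl _ this

/-- for `P, Q` in the kernel of reduction with different x-coordinates, `P + Q` is in it -/
private lemma add_aux (hb₂ : v W.b₂ ≤ 1) (hb₄ : v W.b₄ ≤ 1) (hb₆ : v W.b₆ ≤ 1)
    (hb₈ : v W.b₈ ≤ 1) {P Q : W.Point} (hP0 : P ≠ 0) (hQ0 : Q ≠ 0) (hP : 1 < v (xc P))
    (hQ : 1 < v (xc Q)) (hx : xc P ≠ xc Q) : 1 < v (xc (P + Q)) := by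
  obtain ⟨hx1, hw1⟩ := wc_lt v hP
  obtain ⟨hx2, hw2⟩ := wc_lt v hQ
  have hs := xc_add_add_xc_sub hP0 hQ0 hx
  have hm := xc_add_mul_xc_sub hP0 hQ0 hx
  rw [F1_eq hx1 hx2] at hs
  rw [F0_eq hx1 hx2] at hm
  have hU := v_U0_eq_one (W := W) v hb₄ hb₆ hb₈ hw1 hw2
  have hG := v_G1_lt_one (W := W) v hb₂ hb₄ hb₆ hw1 hw2
  set a := xc (P + Q)
  set b := xc (P - Q)
  have hd : xc P - xc Q ≠ 0 := sub_ne_zero.mpr hx
  have hvd : 0 < v ((xc P - xc Q) ^ 2) := zero_lt_iff.mpr ((v.ne_zero_iff).mpr (pow_ne_zero _ hd))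
  have hM0 : 0 < v (xc P ^ 2 * xc Q ^ 2) :=
    zero_lt_iff.mpr ((v.ne_zero_iff).mpr (mul_ne_zero (pow_ne_zero _ hx1) (pow_ne_zero _ hx2)))
  have hs' := congrArg v hs
  have hm' := congrArg v hm
  rw [map_mul, map_mul (v) (xc P ^ 2 * xc Q ^ 2)] at hs' hm'
  rw [hU, mul_one] at hm'
  -- `v (a + b) < v (a * b)`
  have h1 : v (a + b) < v (a * b) := by
    have : v (a + b) * v ((xc P - xc Q) ^ 2) < v (a * b) * v ((xc P - xc Q) ^ 2) := by
      rw [hs', hm']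
      calc _ < v (xc P ^ 2 * xc Q ^ 2) * 1 := mul_lt_mul_of_pos_left hG hM0
        _ = _ := mul_one _
    exact lt_of_mul_lt_mul_right' this
  -- `1 < v (a * b)`
  have h2 : 1 < v (a * b) := by
    have h3 : v ((xc P - xc Q) ^ 2) < v (xc P ^ 2 * xc Q ^ 2) := by
      have h4 : v (xc P - xc Q) < v (xc P * xc Q) := by
        rw [map_mul]
        refine lt_of_le_of_lt (v.map_sub _ _) (max_lt ?_ ?_)
        · calc v (xc P) = v (xc P) * 1 := (mul_one _).symm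
            _ < v (xc P) * v (xc Q) := mul_lt_mul_of_pos_left hQ (lt_trans zero_lt_one hP)
        · calc v (xc Q) = 1 * v (xc Q) := (one_mul _).symm
            _ < v (xc P) * v (xc Q) := mul_lt_mul_of_pos_right hP (lt_trans zero_lt_one hQ)
      rw [← mul_pow, map_pow, map_pow]
      exact pow_lt_pow_left₀ h4 zero_le (by norm_num)
    rw [← hm'] at h3
    have : 1 * v ((xc P - xc Q) ^ 2) < v (a * b) * v ((xc P - xc Q) ^ 2) := by rwa [one_mul]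
    exact lt_of_mul_lt_mul_right' this
  by_contra hle
  rw [not_lt] at hle
  have h5 : v (a * b) ≤ v b := by
    rw [map_mul]
    calc v a * v b ≤ 1 * v b := mul_le_mul_left hle _
      _ = v b := one_mul _
  have h6 : v a < v b := lt_of_le_of_lt hle (lt_of_lt_of_le h2 h5)
  have h7 : v (a + b) = v b := v.map_add_eq_of_lt_right h6
  rw [h7] at h1
  exact absurd h5 (not_le.mpr h1)

theorem InE1.add (hb₂ : v W.b₂ ≤ 1) (hb₄ : v W.b₄ ≤ 1) (hb₆ : v W.b₆ ≤ 1) (hb₈ : v W.b₈ ≤ 1)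
    {P Q : W.Point} (hP : InE1 v P) (hQ : InE1 v Q) : InE1 v (P + Q) := by
  rcases hP with rfl | hP'
  · rwa [zero_add]
  rcases hQ with rfl | hQ'
  · rw [add_zero]; exact Or.inr hP'
  have hP0 : P ≠ 0 := by
    rintro rfl; rw [xc_zero, map_zero] at hP'; exact not_lt.mpr zero_le hP'
  have hQ0 : Q ≠ 0 := by
    rintro rfl; rw [xc_zero, map_zero] at hQ'; exact not_lt.mpr zero_le hQ'
  by_cases hx : xc P = xc Q
  · rcases eq_or_eq_neg_of_xc_eq hP0 hQ0 hx with rfl | rfl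
    · exact InE1.add_self v hb₂ hb₄ hb₆ hb₈ (Or.inr hP')
    · exact Or.inl (neg_add_cancel _)
  · exact Or.inr (add_aux v hb₂ hb₄ hb₆ hb₈ hP0 hQ0 hP' hQ' hx)

/-- the kernel of reduction as a subgroup -/
def E1 (hb₂ : v W.b₂ ≤ 1) (hb₄ : v W.b₄ ≤ 1) (hb₆ : v W.b₆ ≤ 1) (hb₈ : v W.b₈ ≤ 1) :
    AddSubgroup W.Point where
  carrier := {P | InE1 v P}
  zero_mem' := inE1_zero v
  add_mem' := fun hP hQ => InE1.add v hb₂ hb₄ hb₆ hb₈ hP hQ
  neg_mem' := fun hP => InE1.neg v hP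

lemma mem_E1 (hb₂ : v W.b₂ ≤ 1) (hb₄ : v W.b₄ ≤ 1) (hb₆ : v W.b₆ ≤ 1) (hb₈ : v W.b₈ ≤ 1)
    {P : W.Point} : P ∈ E1 v hb₂ hb₄ hb₆ hb₈ ↔ InE1 v P := Iff.rfl

theorem InE1.sub (hb₂ : v W.b₂ ≤ 1) (hb₄ : v W.b₄ ≤ 1) (hb₆ : v W.b₆ ≤ 1) (hb₈ : v W.b₈ ≤ 1)
    {P Q : W.Point} (hP : InE1 v P) (hQ : InE1 v Q) : InE1 v (P - Q) :=
  (E1 v hb₂ hb₄ hb₆ hb₈).sub_mem hP hQ

theorem InE1.nsmul (hb₂ : v W.b₂ ≤ 1) (hb₄ : v W.b₄ ≤ 1) (hb₆ : v W.b₆ ≤ 1) (hb₈ : v W.b₈ ≤ 1)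
    {P : W.Point} (hP : InE1 v P) (n : ℕ) : InE1 v (n • P) :=
  (E1 v hb₂ hb₄ hb₆ hb₈).nsmul_mem hP n

/-- if `P` has odd order `p` and `2P` lies in the kernel of reduction, so does `P` -/
theorem InE1.of_add_self (hb₂ : v W.b₂ ≤ 1) (hb₄ : v W.b₄ ≤ 1) (hb₆ : v W.b₆ ≤ 1)
    (hb₈ : v W.b₈ ≤ 1) {p : ℕ} (hp : Odd p) {P : W.Point} (hP : p • P = 0)
    (h : InE1 v (P + P)) : InE1 v P := by
  obtain ⟨k, rfl⟩ := hp
  have e : P = (k + 1) • (P + P) := by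
    have : (k + 1) • (P + P) = (2 * k + 1) • P + P := by
      rw [← two_nsmul, ← mul_smul, ← succ_nsmul]; congr 1; ring
    rw [this, hP, zero_add]
  rw [e]
  exact InE1.nsmul v hb₂ hb₄ hb₆ hb₈ h _

/-- multiples of a `p`-torsion point outside the kernel of reduction stay outside -/
theorem not_inE1_nsmul (hb₂ : v W.b₂ ≤ 1) (hb₄ : v W.b₄ ≤ 1) (hb₆ : v W.b₆ ≤ 1)
    (hb₈ : v W.b₈ ≤ 1) {p : ℕ} (hp : p.Prime) {P : W.Point} (hP : p • P = 0)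
    (h : ¬ InE1 v P) {k : ℕ} (hk : ¬ p ∣ k) : ¬ InE1 v (k • P) := by
  intro hkP
  apply h
  have hcop : Nat.Coprime k p := ((Nat.Prime.coprime_iff_not_dvd hp).mpr hk).symm
  -- `∃ a, a * k ≡ 1 mod p`
  obtain ⟨a, -, ha⟩ := Nat.exists_mul_mod_eq_one_of_coprime hcop hp.one_lt
  have e : P = a • (k • P) := by
    rw [← mul_smul, mul_comm a k]
    conv_rhs => rw [← Nat.div_add_mod (k * a) p, ha, add_smul, mul_smul, one_smul]
    rw [smul_comm, hP, smul_zero, zero_add]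
  rw [e]
  exact InE1.nsmul v hb₂ hb₄ hb₆ hb₈ hkP _

end Fermat.Agent.S13.Ker

namespace Fermat.Agent.S13

open WeierstrassCurve WeierstrassCurve.Affine
open Fermat.Agent.S05 (xc yc)

variable {K : Type*} [Field K] [DecidableEq K] {W : Affine K}
variable {Γ₀ : Type*} [LinearOrderedCommGroupWithZero Γ₀] (v : Valuation K Γ₀)

/-- TASK E1 (generic): the kernel of reduction `{0} ∪ {v (x) > 1}` is closed under addition. -/
theorem e1_add (hb₂ : v W.b₂ ≤ 1) (hb₄ : v W.b₄ ≤ 1) (hb₆ : v W.b₆ ≤ 1) (hb₈ : v W.b₈ ≤ 1)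
    {P Q : W.Point} (hP : P = 0 ∨ 1 < v (xc P)) (hQ : Q = 0 ∨ 1 < v (xc Q)) :
    P + Q = 0 ∨ 1 < v (xc (P + Q)) :=
  Ker.InE1.add v hb₂ hb₄ hb₆ hb₈ hP hQ

end Fermat.Agent.S13
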