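/-
S13, local theory, task E1: the kernel of reduction is a subgroup.
-/
import Fermat.Agent.S13.LocDefs
import Fermat.Agent.S13.E1

set_option autoImplicit false

namespace Fermat.Agent.S13.Loc

open WeierstrassCurve WeierstrassCurve.Affine Fermat.Agent.S05

variable {K : Type*} [Field K] [DecidableEq K] {W : Affine K}
variable {Γ₀ : Type*} [LinearOrderedCommGroupWithZero Γ₀] (v : Valuation K Γ₀)

/-- MATH. `s = x(P), t = x(Q)`, wlog `v s ≥ v t > 1`.  If `s ≠ t`: `x₊ x₋ (s-t)² = F0 s t`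
(`xc_add_mul_xc_sub`), `(x₊ + x₋)(s-t)² = F1 s t` (`xc_add_add_xc_sub`), `v (F0 s t) = (v s v t)²`,
`v (F1 s t) ≤ (v s)² v t`.  If `v x₊ ≤ 1` then `v x₋ ≥ v(F0)/v(s-t)² ≥ (v t)² > 1 ≥ v x₊`, so
`v (x₊ + x₋) = v x₋`, hence `v F1 ≥ v F0`, i.e. `v t ≤ 1`: contradiction.  If `s = t`: `Q = ± P`
(`eq_or_eq_neg_of_xc_eq`); doubling: `x(2P) D2(s) = F0 s s` (`xc_add_self`),
`v (D2 s) ≤ (v s)³`, `v (F0 s s) = (v s)⁴`. -/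
theorem inE1_add (hb₂ : v W.b₂ ≤ 1) (hb₄ : v W.b₄ ≤ 1) (hb₆ : v W.b₆ ≤ 1) (hb₈ : v W.b₈ ≤ 1)
    {P Q : W.Point} (hP : InE1 v P) (hQ : InE1 v Q) : InE1 v (P + Q) :=
  e1_add v hb₂ hb₄ hb₆ hb₈ hP hQ

theorem inE1_sub (hb₂ : v W.b₂ ≤ 1) (hb₄ : v W.b₄ ≤ 1) (hb₆ : v W.b₆ ≤ 1) (hb₈ : v W.b₈ ≤ 1)
    {P Q : W.Point} (hP : InE1 v P) (hQ : InE1 v Q) : InE1 v (P - Q) := by
  rw [sub_eq_add_neg]
  exact inE1_add v hb₂ hb₄ hb₆ hb₈ hP (inE1_neg v hQ)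

theorem inE1_nsmul (hb₂ : v W.b₂ ≤ 1) (hb₄ : v W.b₄ ≤ 1) (hb₆ : v W.b₆ ≤ 1) (hb₈ : v W.b₈ ≤ 1)
    {P : W.Point} (hP : InE1 v P) (n : ℕ) : InE1 v (n • P) := by
  induction n with
  | zero => rw [zero_smul]; exact inE1_zero v
  | succ n ih => rw [succ_nsmul]; exact inE1_add v hb₂ hb₄ hb₆ hb₈ ih hP

/-- The kernel of reduction as a subgroup. -/
def E1 (hb₂ : v W.b₂ ≤ 1) (hb₄ : v W.b₄ ≤ 1) (hb₆ : v W.b₆ ≤ 1) (hb₈ : v W.b₈ ≤ 1) :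
    AddSubgroup W.Point where
  carrier := {P | InE1 v P}
  zero_mem' := inE1_zero v
  add_mem' := fun hP hQ => inE1_add v hb₂ hb₄ hb₆ hb₈ hP hQ
  neg_mem' := fun hP => inE1_neg v hP

/-- If `2P ∈ E1` and `P` has odd order then `P ∈ E1`. -/
theorem inE1_of_two_nsmul (hb₂ : v W.b₂ ≤ 1) (hb₄ : v W.b₄ ≤ 1) (hb₆ : v W.b₆ ≤ 1)
    (hb₈ : v W.b₈ ≤ 1) {n : ℕ} (hn : Odd n) {P : W.Point} (hP : n • P = 0)
    (h2 : InE1 v (P + P)) : InE1 v P := by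
  obtain ⟨k, rfl⟩ := hn
  have h := inE1_nsmul v hb₂ hb₄ hb₆ hb₈ h2 (k + 1)
  have e : (k + 1) • (P + P) = (2 * k + 1) • P + P := by
    rw [← two_nsmul, smul_smul, ← succ_nsmul]; congr 1; ring
  rwa [e, hP, zero_add] at h

end Fermat.Agent.S13.Loc
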