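/-
S13, local theory, task Main: for an inertial pair `(σ, s)` and a torsion point `Q` of odd order,
`(s-1)² Q ∈ E1` (multiplicative reduction), `(s-1) Q ∈ E1` (good reduction, odd residue char).
-/
import Fermat.Agent.S13.LocE1
import Fermat.Agent.S13.LocE0
import Fermat.Agent.S13.LocClose
import Fermat.Agent.S13.LocBranch
import Fermat.Agent.S05.Fixes

set_option autoImplicit false

namespace Fermat.Agent.S13.Loc

open WeierstrassCurve WeierstrassCurve.Affine Fermat.Agent.S05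

variable {K : Type*} [Field K] [DecidableEq K] {W : Affine K} {e κ β : K}
variable {Γ₀ : Type*} [LinearOrderedCommGroupWithZero Γ₀] (v : Valuation K Γ₀)

/-- if `yc R` is small and `ξ² - κ` is a unit then `2R` is in the kernel of reduction -/
lemma dbl_inE1 (hc : Centre W e κ β) (he : v e ≤ 1) {R : W.Point} (hR0 : R ≠ 0)
    (hlt : v (yc R) < 1) (hu : v ((xc R - e) ^ 2 - κ) = 1) : InE1 v (R + R) := by
  by_cases h2 : R + R = 0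
  · exact Or.inl h2
  right
  have hd := hc.xi_dbl h2
  rw [← hc.D2_id, ← yc_sq R hR0] at hd
  have hL := congrArg v hd
  rw [map_mul, map_pow, map_pow, hu, one_pow] at hL
  have h6 : v (yc R) ^ 2 < 1 := pow_lt_one₀ zero_le hlt (by norm_num)
  have h7 : 1 < v (xc (R + R) - e) := by
    by_contra hle
    rw [not_lt] at hle
    have : v (xc (R + R) - e) * v (yc R) ^ 2 < 1 := by
      calc v (xc (R + R) - e) * v (yc R) ^ 2 ≤ 1 * v (yc R) ^ 2 := mul_le_mul_left hle _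
        _ = v (yc R) ^ 2 := one_mul _
        _ < 1 := h6
    rw [hL] at this
    exact lt_irrefl _ this
  by_contra hle
  rw [not_lt] at hle
  exact absurd (v.map_sub_le hle he) (not_le.mpr h7)

/-- MATH. `R ∈ E0`, odd order.  If `R ∈ E1`: `sR ∈ E1` (`Inert.inE1`), `inE1_sub`.  Otherwise
`v (x R) ≤ 1`, so `v ξ = 1`.  Claim `v (yc R) = 1` (it is `≤ 1`): otherwise by `Centre.xi_dbl`
(`= ξ(2R) yc² = (ξ²-κ)²`, a unit) `v ξ(2R) > 1` so `2R ∈ E1`, so `R ∈ E1` (`inE1_of_two_nsmul`).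
Then `Inert.close_unit`. -/
theorem Inert.sub_inE1_of_inE0 {σ : K →+* K} {s : W.Point →+ W.Point} (hI : Inert v W σ s)
    (hc : Centre W e κ β)
    (ha₁ : v W.a₁ ≤ 1) (ha₂ : v W.a₂ ≤ 1) (ha₃ : v W.a₃ ≤ 1) (ha₄ : v W.a₄ ≤ 1)
    (ha₆ : v W.a₆ ≤ 1) (he : v e ≤ 1) (hκ : v κ < 1)
    {n : ℕ} (hn : Odd n) {R : W.Point} (hR : n • R = 0) (h0 : InE0 v e R) :
    InE1 v (s R - R) := by
  have hb₂ := v_b₂_le v ha₁ ha₂
  have hb₄ := v_b₄_le v ha₁ ha₃ ha₄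
  have hb₆ := v_b₆_le v ha₃ ha₆
  have hb₈ := v_b₈_le v ha₁ ha₂ ha₃ ha₄ ha₆
  by_cases h1 : InE1 v R
  · exact inE1_sub v hb₂ hb₄ hb₆ hb₈ (hI.inE1 v h1) h1
  have hR0 : R ≠ 0 := fun h => h1 (Or.inl h)
  have hx : v (xc R) ≤ 1 := not_lt.mp (fun h => h1 (Or.inr h))
  have hξ : v (xc R - e) = 1 := le_antisymm (v.map_sub_le hx he) (h0.resolve_left hR0)
  have hY1 : v (yc R) ≤ 1 := v_yc_le_one v hb₂ hb₄ hb₆ hx
  have hY : v (yc R) = 1 := by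
    by_contra hne
    have hlt : v (yc R) < 1 := lt_of_le_of_ne hY1 hne
    apply h1
    apply inE1_of_two_nsmul v hb₂ hb₄ hb₆ hb₈ hn hR
    apply dbl_inE1 v hc he hR0 hlt
    have : v ((xc R - e) ^ 2) = 1 := by rw [map_pow, hξ, one_pow]
    rw [← this]; apply v.map_sub_eq_of_lt_left; rw [this]; exact hκ
  exact hI.close_unit v ha₁ ha₂ ha₃ ha₄ ha₆ hx hY

/-- MATH. If `Q ∈ E0` then `R := sQ - Q ∈ E1` by the previous lemma, and `sR - R ∈ E1`.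
Otherwise `v κ < v ξ(Q) < 1` (`kappa_lt_of_not_inE0`), `R := sQ - Q ∈ E0` (`Inert.same_branch`),
`n R = 0`, and the previous lemma applies to `R`. -/
theorem Inert.sq_mult {σ : K →+* K} {s : W.Point →+ W.Point} (hI : Inert v W σ s)
    (hc : Centre W e κ β) (h2 : (2 : K) ≠ 0) (hσe : σ e = e)
    (ha₁ : v W.a₁ ≤ 1) (ha₂ : v W.a₂ ≤ 1) (ha₃ : v W.a₃ ≤ 1) (ha₄ : v W.a₄ ≤ 1)
    (ha₆ : v W.a₆ ≤ 1) (he : v e ≤ 1) (hκ : v κ < 1) (hβ : v β = 1)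
    {n : ℕ} (hn : Odd n) {Q : W.Point} (hQ : n • Q = 0) :
    InE1 v (s (s Q - Q) - (s Q - Q)) := by
  have hb₂ := v_b₂_le v ha₁ ha₂
  have hb₄ := v_b₄_le v ha₁ ha₃ ha₄
  have hb₆ := v_b₆_le v ha₃ ha₆
  have hb₈ := v_b₈_le v ha₁ ha₂ ha₃ ha₄ ha₆
  by_cases h0 : InE0 v e Q
  · have h1 := hI.sub_inE1_of_inE0 v hc ha₁ ha₂ ha₃ ha₄ ha₆ he hκ hn hQ h0
    exact inE1_sub v hb₂ hb₄ hb₆ hb₈ (hI.inE1 v h1) h1
  · obtain ⟨h1, h3⟩ := kappa_lt_of_not_inE0 v hc hκ hβ.le hn hQ h0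
    have hQ0 : Q ≠ 0 := fun h => h0 (Or.inl h)
    have hR := hI.same_branch v hc h2 hσe ha₁ ha₂ he hβ hQ0 h1 h3
    have hnR : n • (s Q - Q) = 0 := by rw [smul_sub, ← map_nsmul, hQ, map_zero, sub_zero]
    exact hI.sub_inE1_of_inE0 v hc ha₁ ha₂ ha₃ ha₄ ha₆ he hκ hn hnR hR

/-- MATH. If `Q ∈ E1` fine.  Otherwise `v (x Q) ≤ 1`; claim `v (yc Q) = 1`: otherwise
`v (ξ(4ξ²+βξ+4κ)) < 1`, so `v (ξ²-κ) = 1` by `good_aux`, so by `Centre.xi_dbl` `2Q ∈ E1`, so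
`Q ∈ E1`.  Then `Inert.close_unit`. -/
theorem Inert.sub_good {σ : K →+* K} {s : W.Point →+ W.Point} (hI : Inert v W σ s)
    (hc : Centre W e κ β)
    (ha₁ : v W.a₁ ≤ 1) (ha₂ : v W.a₂ ≤ 1) (ha₃ : v W.a₃ ≤ 1) (ha₄ : v W.a₄ ≤ 1)
    (ha₆ : v W.a₆ ≤ 1) (he : v e ≤ 1) (hκ : v κ = 1) (hβ : v β ≤ 1)
    (hd : v (β ^ 2 - 64 * κ) = 1)
    {n : ℕ} (hn : Odd n) {Q : W.Point} (hQ : n • Q = 0) :
    InE1 v (s Q - Q) := by
  have hb₂ := v_b₂_le v ha₁ ha₂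
  have hb₄ := v_b₄_le v ha₁ ha₃ ha₄
  have hb₆ := v_b₆_le v ha₃ ha₆
  have hb₈ := v_b₈_le v ha₁ ha₂ ha₃ ha₄ ha₆
  by_cases h1 : InE1 v Q
  · exact inE1_sub v hb₂ hb₄ hb₆ hb₈ (hI.inE1 v h1) h1
  have hQ0 : Q ≠ 0 := fun h => h1 (Or.inl h)
  have hx : v (xc Q) ≤ 1 := not_lt.mp (fun h => h1 (Or.inr h))
  have hξ : v (xc Q - e) ≤ 1 := v.map_sub_le hx he
  have hY1 : v (yc Q) ≤ 1 := v_yc_le_one v hb₂ hb₄ hb₆ hx
  have hY : v (yc Q) = 1 := by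
    by_contra hne
    have hlt : v (yc Q) < 1 := lt_of_le_of_ne hY1 hne
    apply h1
    apply inE1_of_two_nsmul v hb₂ hb₄ hb₆ hb₈ hn hQ
    apply dbl_inE1 v hc he hQ0 hlt
    have h3 : v ((xc Q - e) * (4 * (xc Q - e) ^ 2 + β * (xc Q - e) + 4 * κ)) < 1 := by
      rw [← hc.D2_id, ← yc_sq Q hQ0, map_pow]
      exact pow_lt_one₀ zero_le hlt (by norm_num)
    have hle : v ((xc Q - e) ^ 2 - κ) ≤ 1 := by
      apply v.map_sub_le _ hκ.le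
      rw [map_pow]; exact pow_le_one₀ zero_le hξ
    by_contra hne2
    have := good_aux v hκ hβ (lt_of_le_of_ne hle hne2) h3
    rw [hd] at this
    exact lt_irrefl _ this
  exact hI.close_unit v ha₁ ha₂ ha₃ ha₄ ha₆ hx hY

end Fermat.Agent.S13.Loc
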