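import Fermat.Agent.S13.Ladder
import Fermat.Agent.S05.Fixes

/-!
# S13 / LadderApp: consequences of the ladder for the Prelude types

* finiteness, cardinality bound and nontriviality of `torsionBy ℤ W.Point p`;
* "supersingular exclusion": if `E[p]` has a proper nonzero Galois-stable submodule then `E[p]`
  is not contained in the kernel of reduction at a place over `p`.
-/

set_option autoImplicit false

namespace Fermat.Agent.S13.Ladder

open WeierstrassCurve WeierstrassCurve.Affine WeierstrassCurve.Affine.Point Polynomial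
open Fermat.Agent.S05

section General

variable {K : Type*} [Field K] [DecidableEq K] {W : Affine K}

lemma mem_torsionBy_iff_nsmul {p : ℕ} {P : W.Point} :
    P ∈ Submodule.torsionBy ℤ W.Point (p : ℤ) ↔ p • P = 0 := by
  rw [Submodule.mem_torsionBy_iff, natCast_zsmul]

theorem finite_torsionBy_set (hΔ : W.Δ ≠ 0) {p : ℕ} (hodd : Odd p) (h3 : 3 ≤ p)
    (hpK : (p : K) ≠ 0) :
    (Submodule.torsionBy ℤ W.Point (p : ℤ) : Set W.Point).Finite ∧
      (Submodule.torsionBy ℤ W.Point (p : ℤ) : Set W.Point).ncard ≤ p ^ 2 := by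
  obtain ⟨m, rfl⟩ := hodd
  obtain ⟨s, hs, hmem⟩ := exists_finset_torsion (W := W) hΔ (m := m) (by omega) hpK
  have hsub : (Submodule.torsionBy ℤ W.Point ((2 * m + 1 : ℕ) : ℤ) : Set W.Point) ⊆ (s : Set W.Point) := by
    intro P hP
    exact hmem P (mem_torsionBy_iff_nsmul.mp hP)
  refine ⟨s.finite_toSet.subset hsub, ?_⟩
  calc _ ≤ (s : Set W.Point).ncard := Set.ncard_le_ncard hsub s.finite_toSet
    _ = s.card := Set.ncard_coe_finset s
    _ ≤ _ := hs

theorem finite_torsionBy (hΔ : W.Δ ≠ 0) {p : ℕ} (hodd : Odd p) (h3 : 3 ≤ p)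
    (hpK : (p : K) ≠ 0) : Finite (Submodule.torsionBy ℤ W.Point (p : ℤ)) :=
  (finite_torsionBy_set hΔ hodd h3 hpK).1.to_subtype

theorem card_torsionBy_le (hΔ : W.Δ ≠ 0) {p : ℕ} (hodd : Odd p) (h3 : 3 ≤ p)
    (hpK : (p : K) ≠ 0) : Nat.card (Submodule.torsionBy ℤ W.Point (p : ℤ)) ≤ p ^ 2 :=
  (finite_torsionBy_set hΔ hodd h3 hpK).2

theorem nontrivial_torsionBy [IsAlgClosed K] (hΔ : W.Δ ≠ 0) {p : ℕ} (hodd : Odd p) (h3 : 3 ≤ p)
    (hpK : (p : K) ≠ 0) : Nontrivial (Submodule.torsionBy ℤ W.Point (p : ℤ)) := by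
  obtain ⟨m, rfl⟩ := hodd
  obtain ⟨P, hP0, hP⟩ := exists_torsion_point (W := W) hΔ (m := m) (by omega) hpK
  refine ⟨⟨⟨P, mem_torsionBy_iff_nsmul.mpr hP⟩, 0, ?_⟩⟩
  intro h
  exact hP0 (congrArg Subtype.val h)

end General

section Val

variable {K : Type*} [Field K] {Γ₀ : Type*} [LinearOrderedCommGroupWithZero Γ₀]
  (v : Valuation K Γ₀)

/-- product-of-roots inequality -/
lemma one_lt_val_eval_zero [IsAlgClosed K] [DecidableEq K] (f : K[X])
    (hroots : ∀ r, f.IsRoot r → 1 < v r) (s : Finset K) (hs : ∀ r ∈ s, r ∈ f.roots) (r₀ : K)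
    (hr₀ : r₀ ∈ f.roots) (hr₀s : r₀ ∉ s) (hprod : 1 ≤ v f.leadingCoeff * v (∏ r ∈ s, r)) :
    1 < v (f.eval 0) := by
  have hsplit : f.Splits := IsAlgClosed.splits f
  rw [hsplit.eval_eq_prod_roots]
  have hle : (insert r₀ s).val ≤ f.roots := by
    rw [Finset.val_le_iff_val_subset]
    intro r hr
    rw [Finset.mem_val, Finset.mem_insert] at hr
    rcases hr with rfl | hr
    · exact hr₀
    · exact hs r hr
  obtain ⟨u, hu⟩ := Multiset.le_iff_exists_add.mp hle
  have hu1 : 1 ≤ (u.map (fun r => v r)).prod := by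
    apply Multiset.one_le_prod_of_one_le
    intro x hx
    obtain ⟨r, hr, rfl⟩ := Multiset.mem_map.mp hx
    have : r ∈ f.roots := by rw [hu]; exact Multiset.mem_add.mpr (Or.inr hr)
    exact (hroots r (isRoot_of_mem_roots this)).le
  have e1 : v ((f.roots.map (fun r => (0 : K) - r)).prod) = (f.roots.map (fun r => v r)).prod := by
    rw [map_multiset_prod, Multiset.map_map]
    congr 1
    apply Multiset.map_congr rfl
    intro r _
    simp
  rw [map_mul, e1, hu, Multiset.map_add, Multiset.prod_add]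
  have e2 : ((insert r₀ s).val.map (fun r => v r)).prod = v r₀ * v (∏ r ∈ s, r) := by
    change ∏ r ∈ insert r₀ s, v r = _
    rw [Finset.prod_insert hr₀s, map_prod]
  rw [e2]
  have h0 : 1 < v r₀ := hroots r₀ (isRoot_of_mem_roots hr₀)
  calc 1 < v r₀ := h0
    _ ≤ v r₀ * (v f.leadingCoeff * v (∏ r ∈ s, r)) := le_mul_of_one_le_right' hprod
    _ ≤ v r₀ * (v f.leadingCoeff * v (∏ r ∈ s, r)) * (u.map (fun r => v r)).prod :=
        le_mul_of_one_le_right' hu1
    _ = _ := by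
        rw [mul_left_comm (v r₀) (v f.leadingCoeff), mul_assoc (v f.leadingCoeff)]

end Val


section Rat

variable {K : Type*} [Field K] [Algebra ℚ K]

/-- a Galois-stable finite set has rational product -/
lemma prod_mem_range_of_stable [IsAlgClosure ℚ K] [DecidableEq K] (s : Finset K)
    (hs : ∀ σ : K ≃ₐ[ℚ] K, ∀ r ∈ s, σ r ∈ s) : ∏ r ∈ s, r ∈ Set.range (algebraMap ℚ K) := by
  rw [InfiniteGalois.mem_range_algebraMap_iff_fixed]
  intro σ
  rw [map_prod]
  have himg : s.image σ = s := by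
    apply Finset.eq_of_subset_of_card_le
    · intro r hr
      obtain ⟨r', hr', rfl⟩ := Finset.mem_image.mp hr
      exact hs σ r' hr'
    · rw [Finset.card_image_of_injective _ σ.injective]
  conv_rhs => rw [← himg]
  rw [Finset.prod_image (fun a _ b _ h => σ.injective h)]

/-- the value group of `ℚ` at `p` is generated by `v p` -/
lemma one_le_val_mul_of_one_lt (A : ValuationSubring K) {p : ℕ} (hp : p.Prime)
    (hA : A.LiesOverPrime p) (q : ℚ) (hq : 1 < A.valuation (algebraMap ℚ K q)) :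
    1 ≤ A.valuation (p : K) * A.valuation (algebraMap ℚ K q) := by
  have hq' : algebraMap ℚ K q = (q.num : K) / (q.den : K) := by
    conv_lhs => rw [← Rat.num_div_den q]
    rw [map_div₀, map_intCast, map_natCast]
  have hden0 : (q.den : K) ≠ 0 := by
    have : (q.den : ℚ) ≠ 0 := by exact_mod_cast q.den_ne_zero
    have h2 : algebraMap ℚ K (q.den : ℚ) ≠ 0 := by
      rwa [Ne, map_eq_zero]
    rwa [map_natCast] at h2
  have hvden0 : A.valuation (q.den : K) ≠ 0 := (Valuation.ne_zero_iff _).mpr hden0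
  obtain ⟨hn1, hn2⟩ := val_int A hp hA q.num
  obtain ⟨hd1, hd2⟩ := val_int A hp hA (q.den : ℤ)
  rw [Int.cast_natCast] at hd1 hd2
  rw [hq', map_div₀] at hq ⊢
  -- `v den < 1`
  have hdlt : A.valuation (q.den : K) < 1 := by
    by_contra h
    have h1 : A.valuation (q.den : K) = 1 := le_antisymm hd1 (not_lt.mp h)
    rw [h1, div_one] at hq
    exact absurd hq (not_lt.mpr hn1)
  have hpd : (p : ℤ) ∣ (q.den : ℤ) := hd2.mp hdlt
  have hpn : ¬ (p : ℤ) ∣ q.num := by
    intro h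
    have h1 : p ∣ q.num.natAbs := Int.natCast_dvd.mp h
    have h2 : p ∣ q.den := by exact_mod_cast hpd
    have := Nat.dvd_gcd h1 h2
    rw [q.reduced.gcd_eq_one] at this
    exact hp.one_lt.ne' (Nat.dvd_one.mp this)
  have hnum : A.valuation (q.num : K) = 1 :=
    le_antisymm hn1 (not_lt.mp (fun h => hpn (hn2.mp h)))
  obtain ⟨d, hd⟩ := hpd
  have hle : A.valuation (q.den : K) ≤ A.valuation (p : K) := by
    have e : (q.den : K) = (p : K) * (d : K) := by exact_mod_cast congrArg (Int.cast : ℤ → K) hd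
    rw [e, map_mul]
    exact mul_le_of_le_one_right' (val_int A hp hA d).1
  rw [hnum, one_div]
  calc 1 = A.valuation (q.den : K) * (A.valuation (q.den : K))⁻¹ := (mul_inv_cancel₀ hvden0).symm
    _ ≤ _ := mul_le_mul_left hle _

end Rat

section Main

variable {K : Type*} [Field K] [DecidableEq K] [Algebra ℚ K] [IsAlgClosure ℚ K]

/-- **Supersingular exclusion.** If `E[p]` has a proper nonzero Galois-stable submodule, then at
every place `A` over `p` (where the `bᵢ` are integral) some nonzero `p`-torsion point has integral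
x-coordinate, i.e. `E[p]` is not contained in the kernel of reduction. -/
theorem exists_integral_torsion (W' : WeierstrassCurve ℚ) (hΔ : (W'⁄K).Δ ≠ 0) {p : ℕ}
    (hp : p.Prime) (hp2 : p ≠ 2) (A : ValuationSubring K) (hA : A.LiesOverPrime p)
    (hb₂ : (W'⁄K).b₂ ∈ A) (hb₄ : (W'⁄K).b₄ ∈ A) (hb₆ : (W'⁄K).b₆ ∈ A) (hb₈ : (W'⁄K).b₈ ∈ A)
    (N : Submodule (ZMod p) (Submodule.torsionBy ℤ (W'⁄K).Point p))
    (hN : IsGaloisStable ℚ N) (hbot : N ≠ ⊥) (htop : N ≠ ⊤) :
    ∃ Q : Submodule.torsionBy ℤ (W'⁄K).Point p, Q ≠ 0 ∧ xc (Q : (W'⁄K).Point) ∈ A := by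
  classical
  by_contra hcon
  push_neg at hcon
  haveI : IsAlgClosed K := IsAlgClosure.isAlgClosed ℚ
  haveI : CharZero K := charZero_of_injective_algebraMap (algebraMap ℚ K).injective
  have hodd : Odd p := hp.odd_of_ne_two hp2
  have h3 : 3 ≤ p := by
    have := hp.two_le
    omega
  have hpK : (p : K) ≠ 0 := Nat.cast_ne_zero.mpr hp.ne_zero
  haveI : Finite (Submodule.torsionBy ℤ (W'⁄K).Point p) := finite_torsionBy hΔ hodd h3 hpK
  obtain ⟨m, hm⟩ := hodd
  have hm1 : 1 ≤ m := by omega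
  have hpK' : ((2 * m + 1 : ℕ) : K) ≠ 0 := by rw [← hm]; exact hpK
  set f : K[X] := divD (W'⁄K) m with hf
  have hf0 : f ≠ 0 := divD_ne_zero hm1 hpK'
  have hval : ∀ x : Submodule.torsionBy ℤ (W'⁄K).Point p, x ≠ 0 →
      1 < A.valuation (xc (x : (W'⁄K).Point)) := fun x hx =>
    not_le.mp (fun h => hcon x hx ((A.valuation_le_one_iff _).mp h))
  have hne : ∀ x : Submodule.torsionBy ℤ (W'⁄K).Point p, x ≠ 0 → (x : (W'⁄K).Point) ≠ 0 :=
    fun x hx h => hx (Subtype.ext h)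
  have hroot : ∀ x : Submodule.torsionBy ℤ (W'⁄K).Point p, x ≠ 0 →
      xc (x : (W'⁄K).Point) ∈ f.roots := by
    intro x hx
    refine (mem_roots hf0).mpr ((divD_eval_eq_zero_iff hΔ hm1 (hne x hx)).mpr ?_)
    rw [← hm]
    exact mem_torsionBy_iff_nsmul.mp x.2
  have hroots : ∀ r, f.IsRoot r → 1 < A.valuation r := by
    intro r hr
    obtain ⟨P, hP0, rfl⟩ := exists_point_xc hΔ r
    have hP : (2 * m + 1) • P = 0 := (divD_eval_eq_zero_iff hΔ hm1 hP0).mp hr
    rw [← hm] at hP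
    exact hval ⟨P, mem_torsionBy_iff_nsmul.mpr hP⟩ (fun h => hP0 (congrArg Subtype.val h))
  -- the finite set of x-coordinates of `N \ 0`
  let Sset : Set K := (fun x : Submodule.torsionBy ℤ (W'⁄K).Point p => xc (x : (W'⁄K).Point)) ''
    {x | x ∈ N ∧ x ≠ 0}
  let s : Finset K := (Set.toFinite Sset).toFinset
  have mem_s : ∀ r, r ∈ s ↔ ∃ x : Submodule.torsionBy ℤ (W'⁄K).Point p,
      (x ∈ N ∧ x ≠ 0) ∧ xc (x : (W'⁄K).Point) = r := by
    intro r
    simp only [s, Set.Finite.mem_toFinset, Sset, Set.mem_image, Set.mem_setOf_eq]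
  have hs : ∀ r ∈ s, r ∈ f.roots := by
    intro r hr
    obtain ⟨x, ⟨-, hx0⟩, rfl⟩ := (mem_s r).mp hr
    exact hroot x hx0
  have hstable : ∀ σ : K ≃ₐ[ℚ] K, ∀ r ∈ s, σ r ∈ s := by
    intro σ r hr
    obtain ⟨x, ⟨hxN, hx0⟩, rfl⟩ := (mem_s r).mp hr
    refine (mem_s _).mpr ⟨σ • x, ⟨hN σ x hxN, ?_⟩, ?_⟩
    · exact fun h => map_ne_zero' W' σ x.1 (hne x hx0) (congrArg Subtype.val h)
    · exact xc_map W' σ x.1
  obtain ⟨Q, hQ⟩ : ∃ Q, Q ∉ N := by
    by_contra h
    push_neg at h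
    exact htop ((Submodule.eq_top_iff').mpr h)
  have hQ0 : Q ≠ 0 := fun h => hQ (h ▸ N.zero_mem)
  have hQs : xc (Q : (W'⁄K).Point) ∉ s := by
    intro h
    obtain ⟨x, ⟨hxN, hx0⟩, hx⟩ := (mem_s _).mp h
    rcases eq_or_eq_neg_of_xc_eq (hne x hx0) (hne Q hQ0) hx with h1 | h1
    · exact hQ ((Subtype.ext h1 : x = Q) ▸ hxN)
    · have : Q = -x := by
        apply Subtype.ext
        rw [Submodule.coe_neg, h1, neg_neg]
      exact hQ (this ▸ N.neg_mem hxN)
  obtain ⟨x₁, hx₁N, hx₁0⟩ := (Submodule.ne_bot_iff N).mp hbot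
  have hr₁ : xc (x₁ : (W'⁄K).Point) ∈ s := (mem_s _).mpr ⟨x₁, ⟨hx₁N, hx₁0⟩, rfl⟩
  have hR : 1 < A.valuation (∏ r ∈ s, r) := by
    rw [map_prod, ← Finset.mul_prod_erase s _ hr₁]
    refine lt_of_lt_of_le (hval x₁ hx₁0) (le_mul_of_one_le_right' ?_)
    apply Finset.one_le_prod'
    intro r hr
    exact (hroots r (isRoot_of_mem_roots (hs r (Finset.mem_of_mem_erase hr)))).le
  obtain ⟨q, hq⟩ := prod_mem_range_of_stable s hstable
  have hprod : 1 ≤ A.valuation f.leadingCoeff * A.valuation (∏ r ∈ s, r) := by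
    rw [hf, leadingCoeff_divD hm1 hpK', Valuation.map_neg, ← hm, ← hq]
    exact one_le_val_mul_of_one_lt A hp hA q (hq ▸ hR)
  have hfin := one_lt_val_eval_zero A.valuation f hroots s hs _ (hroot Q hQ0) hQs hprod
  rw [← coeff_zero_eq_eval_zero] at hfin
  have hmem : f.coeff 0 ∈ A.toSubring := coeff_divD_mem (W'⁄K) A.toSubring hb₂ hb₄ hb₆ hb₈ m 0
  exact absurd hfin (not_lt.mpr ((A.valuation_le_one_iff _).mpr hmem))

end Main

/-- `IsAlgClosure ℚ (AlgebraicClosure ℚ)` for the `Algebra ℚ _` instance that instance search finds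
first (`DivisionRing.toRatAlgebra`), which is the one used in the frozen statements. Use with
`haveI := isAlgClosure_Qbar`. -/
theorem isAlgClosure_Qbar : IsAlgClosure ℚ (AlgebraicClosure ℚ) :=
  (inferInstance : @IsAlgClosure ℚ (AlgebraicClosure ℚ) _ _ (AlgebraicClosure.instAlgebra ℚ) _)

end Fermat.Agent.S13.Ladder
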