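import Fermat.Agent.S13.Defs
import Fermat.Agent.S13.LadderApp

set_option autoImplicit false

namespace Fermat.Agent.S13

open WeierstrassCurve WeierstrassCurve.Affine WeierstrassCurve.Affine.Point

/-! ### Arithmetic of the coefficients of the Frey curve -/

theorem frey_32_dvd (P : FreyPackage) : (32 : ℤ) ∣ P.b ^ P.p := by
  have h2 : (2 : ℤ) ∣ P.b := (ZMod.intCast_zmod_eq_zero_iff_dvd P.b 2).1 P.hb2
  have h5 : (2 : ℤ) ^ 5 ∣ P.b ^ P.p :=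
    (pow_dvd_pow_of_dvd h2 5).trans (pow_dvd_pow _ P.hp5)
  simpa using h5

theorem frey_4_dvd (P : FreyPackage) : (4 : ℤ) ∣ P.b ^ P.p - 1 - P.a ^ P.p := by
  have hb : (4 : ℤ) ∣ P.b ^ P.p := (by norm_num : (4 : ℤ) ∣ 32).trans (frey_32_dvd P)
  have ha : (4 : ℤ) ∣ 1 + P.a ^ P.p := by
    apply (ZMod.intCast_zmod_eq_zero_iff_dvd _ 4).1
    push_cast
    rw [P.ha4]
    obtain ⟨k, hk⟩ := P.hp_odd
    rw [hk, pow_succ, pow_mul]
    have : (3 : ZMod 4) ^ 2 = 1 := by decide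
    rw [this, one_pow]
    decide
  have := dvd_sub hb ha
  have e : P.b ^ P.p - 1 - P.a ^ P.p = P.b ^ P.p - (1 + P.a ^ P.p) := by ring
  rw [e]; exact this

theorem frey_a₂_int (P : FreyPackage) : ∃ k : ℤ, P.freyCurve.a₂ = (k : ℚ) := by
  obtain ⟨k, hk⟩ := frey_4_dvd P
  refine ⟨k, ?_⟩
  have : ((P.b : ℚ) ^ P.p - 1 - (P.a : ℚ) ^ P.p) = 4 * (k : ℚ) := by exact_mod_cast hk
  simp only [FreyPackage.freyCurve]
  rw [this]; ring

theorem frey_a₄_int (P : FreyPackage) : ∃ k : ℤ, P.freyCurve.a₄ = (k : ℚ) := by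
  obtain ⟨m, hm⟩ := frey_32_dvd P
  refine ⟨-(P.a ^ P.p) * (2 * m), ?_⟩
  have : ((P.b : ℚ) ^ P.p) = 32 * (m : ℚ) := by exact_mod_cast hm
  simp only [FreyPackage.freyCurve]
  rw [this]; push_cast; ring

theorem frey_Δ (P : FreyPackage) :
    P.freyCurve.Δ = ((P.a : ℚ) ^ P.p * (P.b : ℚ) ^ P.p * (P.c : ℚ) ^ P.p) ^ 2 / 256 := by
  have hFLT : ((P.a : ℚ) ^ P.p + (P.b : ℚ) ^ P.p = (P.c : ℚ) ^ P.p) := by exact_mod_cast P.hFLT
  rw [← hFLT]
  simp only [FreyPackage.freyCurve, WeierstrassCurve.Δ, WeierstrassCurve.b₂, WeierstrassCurve.b₄,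
    WeierstrassCurve.b₆, WeierstrassCurve.b₈]
  ring

theorem frey_Δ_ne_zero (P : FreyPackage) : P.freyCurve.Δ ≠ 0 := by
  rw [frey_Δ]
  have ha : (P.a : ℚ) ≠ 0 := by exact_mod_cast P.ha0
  have hb : (P.b : ℚ) ≠ 0 := by exact_mod_cast P.hb0
  have hc : (P.c : ℚ) ≠ 0 := by exact_mod_cast P.hc0
  positivity

section generic

variable {K : Type*} [Field K] [Algebra ℚ K]

theorem frey_Δ_ne_zero' (P : FreyPackage) : (P.freyCurve⁄K).Δ ≠ 0 := by
  have : (P.freyCurve⁄K).Δ = algebraMap ℚ K P.freyCurve.Δ := WeierstrassCurve.map_Δ ..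
  rw [this]
  exact (map_ne_zero _).mpr (frey_Δ_ne_zero P)

/-- the `aᵢ` of the Frey curve lie in every valuation subring -/
theorem frey_a_mem (P : FreyPackage) (A : ValuationSubring K) :
    (P.freyCurve⁄K).a₁ ∈ A ∧ (P.freyCurve⁄K).a₂ ∈ A ∧ (P.freyCurve⁄K).a₃ ∈ A ∧
      (P.freyCurve⁄K).a₄ ∈ A ∧ (P.freyCurve⁄K).a₆ ∈ A := by
  obtain ⟨k₂, hk₂⟩ := frey_a₂_int P
  obtain ⟨k₄, hk₄⟩ := frey_a₄_int P
  have e1 : (P.freyCurve⁄K).a₁ = algebraMap ℚ K P.freyCurve.a₁ := rfl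
  have e2 : (P.freyCurve⁄K).a₂ = algebraMap ℚ K P.freyCurve.a₂ := rfl
  have e3 : (P.freyCurve⁄K).a₃ = algebraMap ℚ K P.freyCurve.a₃ := rfl
  have e4 : (P.freyCurve⁄K).a₄ = algebraMap ℚ K P.freyCurve.a₄ := rfl
  have e6 : (P.freyCurve⁄K).a₆ = algebraMap ℚ K P.freyCurve.a₆ := rfl
  refine ⟨?_, ?_, ?_, ?_, ?_⟩
  · rw [e1]; simp only [FreyPackage.freyCurve, map_one]; exact A.one_mem
  · rw [e2, hk₂, map_intCast]; exact intCast_mem A k₂
  · rw [e3]; simp only [FreyPackage.freyCurve, _root_.map_zero]; exact A.zero_mem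
  · rw [e4, hk₄, map_intCast]; exact intCast_mem A k₄
  · rw [e6]; simp only [FreyPackage.freyCurve, _root_.map_zero]; exact A.zero_mem

/-- the `bᵢ` of the Frey curve lie in every valuation subring -/
theorem frey_b_mem (P : FreyPackage) (A : ValuationSubring K) :
    (P.freyCurve⁄K).b₂ ∈ A ∧ (P.freyCurve⁄K).b₄ ∈ A ∧ (P.freyCurve⁄K).b₆ ∈ A ∧
      (P.freyCurve⁄K).b₈ ∈ A := by
  obtain ⟨h1, h2, h3, h4, h6⟩ := frey_a_mem P A
  have n2 : (2 : K) ∈ A := ofNat_mem A 2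
  have n4 : (4 : K) ∈ A := ofNat_mem A 4
  refine ⟨?_, ?_, ?_, ?_⟩
  · rw [WeierstrassCurve.b₂]
    exact A.add_mem _ _ (pow_mem h1 2) (A.mul_mem _ _ n4 h2)
  · rw [WeierstrassCurve.b₄]
    exact A.add_mem _ _ (A.mul_mem _ _ n2 h4) (A.mul_mem _ _ h1 h3)
  · rw [WeierstrassCurve.b₆]
    exact A.add_mem _ _ (pow_mem h3 2) (A.mul_mem _ _ n4 h6)
  · rw [WeierstrassCurve.b₈]
    exact sub_mem (A.add_mem _ _ (sub_mem (A.add_mem _ _ (A.mul_mem _ _ (pow_mem h1 2) h6)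
      (A.mul_mem _ _ (A.mul_mem _ _ n4 h2) h6)) (A.mul_mem _ _ (A.mul_mem _ _ h1 h3) h4))
      (A.mul_mem _ _ h2 (pow_mem h3 2))) (pow_mem h4 2)

end generic

/-! ### The torsion module -/

theorem frey_p_cast_ne_zero (P : FreyPackage) : (P.p : Qb) ≠ 0 :=
  Nat.cast_ne_zero.mpr P.hp0

theorem frey_three_le (P : FreyPackage) : 3 ≤ P.p := le_trans (by norm_num) P.hp5

/-- TASK T (helper71, from the Ladder). -/
theorem freyV_nontrivial (P : FreyPackage) : Nontrivial (FreyV P) :=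
  Ladder.nontrivial_torsionBy (frey_Δ_ne_zero' P) P.hp_odd (frey_three_le P)
    (frey_p_cast_ne_zero P)

theorem freyV_finite (P : FreyPackage) : Finite (FreyV P) :=
  Ladder.finite_torsionBy (frey_Δ_ne_zero' P) P.hp_odd (frey_three_le P) (frey_p_cast_ne_zero P)

theorem freyV_card_le (P : FreyPackage) : Nat.card (FreyV P) ≤ P.p ^ 2 :=
  Ladder.card_torsionBy_le (frey_Δ_ne_zero' P) P.hp_odd (frey_three_le P) (frey_p_cast_ne_zero P)

/-- At a place over `p`, the `p`-torsion is not contained in the kernel of reduction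
as soon as there is a Galois-stable line. -/
theorem freyV_exists_not_inE1 (P : FreyPackage) (A : ValuationSubring Qb)
    (hA : A.LiesOverPrime P.p) (N : Submodule (ZMod P.p) (FreyV P))
    (hN : IsGaloisStable ℚ N) (hbot : N ≠ ⊥) (htop : N ≠ ⊤) :
    ∃ z : FreyV P, ¬ InE1 A (z : (P.freyCurve⁄Qb).Point) := by
  have := Ladder.isAlgClosure_Qbar
  obtain ⟨h2, h4, h6, h8⟩ := frey_b_mem (K := Qb) P A
  have hp2 : P.p ≠ 2 := by have := P.hp5; omega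
  obtain ⟨Q, hQ0, hQ⟩ := Ladder.exists_integral_torsion P.freyCurve (frey_Δ_ne_zero' P) P.pp hp2
    A hA h2 h4 h6 h8 N hN hbot htop
  refine ⟨Q, ?_⟩
  rintro (h | h)
  · exact hQ0 (Subtype.ext h)
  · exact h hQ

end Fermat.Agent.S13
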