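/-
S13, local theory, task Frey: instantiation of the local theory for the Frey curve, at EVERY prime.
-/
import Fermat.Agent.S13.LocMain
import Fermat.Agent.S05.Frey
import Fermat.Agent.S13.Defs
import Fermat.Agent.S13.Torsion

set_option autoImplicit false

namespace Fermat.Agent.S13.Loc

open WeierstrassCurve WeierstrassCurve.Affine WeierstrassCurve.Affine.Point Fermat.Agent.S05
open FreyPackage

/-- the Galois action as an additive endomorphism -/
noncomputable def galHom (W' : WeierstrassCurve ℚ) (σ : GQ) :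
    (W'⁄Qb).Point →+ (W'⁄Qb).Point :=
  Point.map (W' := W') σ.toAlgHom

lemma yy_map (W' : WeierstrassCurve ℚ) (σ : GQ) (P : (W'⁄Qb).Point) :
    yy (Point.map (W' := W') σ.toAlgHom P) = σ (yy P) := by
  rcases P with _ | ⟨x, y, h⟩
  · exact (_root_.map_zero σ).symm
  · rfl

/-- inertia elements give inertial pairs (use `S05.inertia_spec`, `S05.val_sigma`, `S05.xc_map`) -/
theorem inert_of_mem_inertia (W' : WeierstrassCurve ℚ) (A : ValuationSubring Qb)
    (σ : GQ) (hσ : σ ∈ A.inertiaSubgroupIn ℚ) :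
    Inert A.valuation (W'⁄Qb) (σ : Qb →+* Qb)
      (galHom W' σ) where
  val := fun x => by
    have := Ladder.isAlgClosure_Qbar
    have : Algebra.IsAlgebraic ℚ Qb := IsAlgClosure.isAlgebraic
    exact val_sigma A σ hσ x
  close := fun x hx => (inertia_spec A σ hσ).2 x hx
  ne_zero := fun P hP => map_ne_zero' W' σ P hP
  xc_map := fun P => xc_map W' σ P
  yy_map := fun P => yy_map W' σ P
  fix_a₁ := σ.commutes W'.a₁
  fix_a₃ := σ.commutes W'.a₃

/-- integrality of the coefficients of the Frey curve at every place -/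
theorem frey_integral (P : FreyPackage) {ℓ : ℕ} (_hℓ : ℓ.Prime)
    (A : ValuationSubring Qb) (_hA : A.LiesOverPrime ℓ) :
    A.valuation (P.freyCurve⁄Qb).a₁ ≤ 1 ∧
    A.valuation (P.freyCurve⁄Qb).a₂ ≤ 1 ∧
    A.valuation (P.freyCurve⁄Qb).a₃ ≤ 1 ∧
    A.valuation (P.freyCurve⁄Qb).a₄ ≤ 1 ∧
    A.valuation (P.freyCurve⁄Qb).a₆ ≤ 1 := by
  obtain ⟨h1, h2, h3, h4, h6⟩ := frey_a_mem (K := Qb) P A
  exact ⟨(A.valuation_le_one_iff _).mpr h1, (A.valuation_le_one_iff _).mpr h2,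
    (A.valuation_le_one_iff _).mpr h3, (A.valuation_le_one_iff _).mpr h4,
    (A.valuation_le_one_iff _).mpr h6⟩

theorem frey_integral_b (P : FreyPackage) {ℓ : ℕ} (hℓ : ℓ.Prime)
    (A : ValuationSubring Qb) (hA : A.LiesOverPrime ℓ) :
    A.valuation (P.freyCurve⁄Qb).b₂ ≤ 1 ∧
    A.valuation (P.freyCurve⁄Qb).b₄ ≤ 1 ∧
    A.valuation (P.freyCurve⁄Qb).b₆ ≤ 1 ∧
    A.valuation (P.freyCurve⁄Qb).b₈ ≤ 1 := by
  obtain ⟨h1, h2, h3, h4, h6⟩ := frey_integral P hℓ A hA
  exact ⟨v_b₂_le _ h1 h2, v_b₄_le _ h1 h3 h4, v_b₆_le _ h3 h6, v_b₈_le _ h1 h2 h3 h4 h6⟩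

/-- A centre over `ℚ` gives a centre over `Qb`. -/
lemma centre_map (W' : WeierstrassCurve ℚ) {e κ β : ℚ}
    (c1 : β = W'.b₂ + 12 * e) (c2 : 2 * κ = W'.b₄ + e * W'.b₂ + 6 * e ^ 2)
    (c3 : 4 * e ^ 3 + W'.b₂ * e ^ 2 + 2 * W'.b₄ * e + W'.b₆ = 0)
    (c4 : W'.b₈ + 3 * e * W'.b₆ + 3 * e ^ 2 * W'.b₄ + e ^ 3 * W'.b₂ + 3 * e ^ 4 = - κ ^ 2) :
    Centre (W'⁄Qb) (algebraMap ℚ Qb e) (algebraMap ℚ Qb κ) (algebraMap ℚ Qb β) := by
  have e2 : (W'⁄Qb).b₂ = algebraMap ℚ Qb W'.b₂ := WeierstrassCurve.map_b₂ ..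
  have e4 : (W'⁄Qb).b₄ = algebraMap ℚ Qb W'.b₄ := WeierstrassCurve.map_b₄ ..
  have e6 : (W'⁄Qb).b₆ = algebraMap ℚ Qb W'.b₆ := WeierstrassCurve.map_b₆ ..
  have e8 : (W'⁄Qb).b₈ = algebraMap ℚ Qb W'.b₈ := WeierstrassCurve.map_b₈ ..
  refine ⟨?_, ?_, ?_, ?_⟩
  · rw [e2, c1]; simp only [map_add, map_mul, map_ofNat]
  · rw [e2, e4]
    have := congrArg (algebraMap ℚ Qb) c2
    simpa only [map_add, map_mul, map_pow, map_ofNat] using this
  · rw [e2, e4, e6]
    have := congrArg (algebraMap ℚ Qb) c3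
    simpa only [map_add, map_mul, map_pow, map_ofNat, _root_.map_zero] using this
  · rw [e2, e4, e6, e8]
    have := congrArg (algebraMap ℚ Qb) c4
    simpa only [map_add, map_mul, map_pow, map_ofNat, map_neg] using this

/-- **Main local theorem for the Frey curve** (every prime `ℓ`, including `2` and `p`).
MATH. `A = a^p, B = b^p, C = c^p`.  Centres `(e, κ, β)`: `(0, -AB/16, B-A)` if `ℓ ∣ ab` (this includes
`ℓ = 2`; `B - A` is prime to `ℓ`), `(A/4, AC/16, A+C)` if `ℓ ∣ c` (then `ℓ` is odd): `Inert.sq_mult`.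
Otherwise (`ℓ ∤ abc`, `ℓ` odd) `(0, -AB/16, B-A)`, `β² - 64κ = C²`... : `Inert.sub_good` (+ `Inert.inE1`,
`inE1_sub`).  The divisibility computations are in `S05.frey_main`. -/
theorem frey_inertia_sq (P : FreyPackage) {ℓ : ℕ} (hℓ : ℓ.Prime)
    (A : ValuationSubring Qb) (hA : A.LiesOverPrime ℓ)
    (σ : GQ) (hσ : σ ∈ A.inertiaSubgroupIn ℚ)
    (Q : (P.freyCurve⁄Qb).Point) (hQ : P.p • Q = 0) :
    InE1 A.valuation (σ • (σ • Q - Q) - (σ • Q - Q)) := by
  change InE1 A.valuation (galHom P.freyCurve σ (galHom P.freyCurve σ Q - Q) -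
    (galHom P.freyCurve σ Q - Q))
  have hI := inert_of_mem_inertia P.freyCurve A σ hσ
  obtain ⟨ha1, ha2, ha3, ha4, ha6⟩ := frey_integral P hℓ A hA
  obtain ⟨hb2, hb4, hb6, hb8⟩ := frey_integral_b P hℓ A hA
  have hqZ : Prime (ℓ : ℤ) := Nat.prime_iff_prime_int.mp hℓ
  have hFLT : ((P.a : ℚ) ^ P.p + (P.b : ℚ) ^ P.p = (P.c : ℚ) ^ P.p) := by exact_mod_cast P.hFLT
  have hpow : ∀ z : ℤ, (ℓ : ℤ) ∣ z ^ P.p ↔ (ℓ : ℤ) ∣ z := fun z =>
    ⟨fun h => hqZ.dvd_of_dvd_pow h, fun h => dvd_pow h P.hp0⟩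
  have h2ne : (2 : Qb) ≠ 0 := two_ne_zero
  have h2b : (2 : ℤ) ∣ P.b := (ZMod.intCast_zmod_eq_zero_iff_dvd P.b 2).1 P.hb2
  by_cases hab : (ℓ : ℤ) ∣ P.a * P.b
  · -- multiplicative reduction, node at `x = 0` (this includes `ℓ = 2`)
    obtain ⟨m, hm⟩ := frey_32_dvd P
    have hmQ : ((P.b : ℚ) ^ P.p) = 32 * (m : ℚ) := by exact_mod_cast hm
    have hc : Centre (P.freyCurve⁄Qb) (algebraMap ℚ Qb 0)
        (algebraMap ℚ Qb ((-(P.a ^ P.p) * (2 * m) : ℤ) : ℚ))
        (algebraMap ℚ Qb ((P.b ^ P.p - P.a ^ P.p : ℤ) : ℚ)) := by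
      apply centre_map
      · simp only [FreyPackage.freyCurve, WeierstrassCurve.b₂]; push_cast; ring
      · simp only [FreyPackage.freyCurve, WeierstrassCurve.b₄]; push_cast; rw [hmQ]; ring
      · simp only [FreyPackage.freyCurve, WeierstrassCurve.b₂, WeierstrassCurve.b₄,
          WeierstrassCurve.b₆]; ring
      · simp only [FreyPackage.freyCurve, WeierstrassCurve.b₂, WeierstrassCurve.b₄,
          WeierstrassCurve.b₆, WeierstrassCurve.b₈]; push_cast; rw [hmQ]; ring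
    refine hI.sq_mult A.valuation hc h2ne (by simp) ha1 ha2 ha3 ha4 ha6 (by simp) ?_ ?_ P.hp_odd hQ
    · -- `v κ < 1`
      apply (val_algebraMap_int A hℓ hA _).2.mpr
      by_cases hl2 : (ℓ : ℤ) ∣ 2
      · exact dvd_mul_of_dvd_right (dvd_mul_of_dvd_left hl2 _) _
      · -- `ℓ` odd
        have h1 : (ℓ : ℤ) ∣ P.a ^ P.p * P.b ^ P.p := by
          rw [← mul_pow]; exact (hpow _).mpr hab
        rw [hm] at h1
        have h3 : (ℓ : ℤ) ∣ 2 ^ 5 * (P.a ^ P.p * m) := by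
          have e : (2 : ℤ) ^ 5 * (P.a ^ P.p * m) = P.a ^ P.p * (32 * m) := by ring
          rw [e]; exact h1
        rcases hqZ.dvd_or_dvd h3 with h | h
        · exact absurd (hqZ.dvd_of_dvd_pow h) hl2
        · have e : -(P.a ^ P.p) * (2 * m) = (P.a ^ P.p * m) * (-2) := by ring
          rw [e]; exact dvd_mul_of_dvd_left h _
    · -- `v β = 1`
      apply val_algebraMap_int_eq_one A hℓ hA
      intro h
      rcases hqZ.dvd_or_dvd hab with h' | h'
      · have h1 : (ℓ : ℤ) ∣ P.b ^ P.p := by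
          have := dvd_add h ((hpow _).mpr h')
          simpa using this
        exact not_dvd_two_of_gcd P.hgcdab hℓ h' ((hpow _).mp h1)
      · have h1 : (ℓ : ℤ) ∣ P.a ^ P.p := by
          have := dvd_sub ((hpow _).mpr h') h
          simpa using this
        exact not_dvd_two_of_gcd P.hgcdab hℓ ((hpow _).mp h1) h'
  · have ha' : ¬ (ℓ : ℤ) ∣ P.a := fun h => hab (dvd_mul_of_dvd_left h _)
    have hb' : ¬ (ℓ : ℤ) ∣ P.b := fun h => hab (dvd_mul_of_dvd_right h _)
    have hq_2 : ¬ (ℓ : ℤ) ∣ 2 := fun h => hb' (h.trans h2b)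
    have hq_4 : ¬ (ℓ : ℤ) ∣ 4 := by
      intro h
      have : (ℓ : ℤ) ∣ 2 * 2 := by norm_num; exact h
      rcases hqZ.dvd_or_dvd this with h | h <;> exact hq_2 h
    have hq_16 : ¬ (ℓ : ℤ) ∣ 16 := by
      intro h
      have : (ℓ : ℤ) ∣ 4 * 4 := by norm_num; exact h
      rcases hqZ.dvd_or_dvd this with h | h <;> exact hq_4 h
    by_cases hcd : (ℓ : ℤ) ∣ P.c
    · -- multiplicative reduction, node at `x = a ^ p / 4`
      have hc : Centre (P.freyCurve⁄Qb) (algebraMap ℚ Qb (((P.a ^ P.p : ℤ) : ℚ) / ((4 : ℤ) : ℚ)))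
          (algebraMap ℚ Qb ((((P.a * P.c) ^ P.p : ℤ) : ℚ) / ((16 : ℤ) : ℚ)))
          (algebraMap ℚ Qb ((P.a ^ P.p + P.c ^ P.p : ℤ) : ℚ)) := by
        apply centre_map
        · simp only [FreyPackage.freyCurve, WeierstrassCurve.b₂]; push_cast
          linear_combination (-1 : ℚ) * hFLT
        · simp only [FreyPackage.freyCurve, WeierstrassCurve.b₂, WeierstrassCurve.b₄]; push_cast
          rw [mul_pow]
          linear_combination (-(P.a : ℚ) ^ P.p / 8) * hFLT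
        · simp only [FreyPackage.freyCurve, WeierstrassCurve.b₂, WeierstrassCurve.b₄,
            WeierstrassCurve.b₆]; push_cast
          ring
        · simp only [FreyPackage.freyCurve, WeierstrassCurve.b₂, WeierstrassCurve.b₄,
            WeierstrassCurve.b₆, WeierstrassCurve.b₈]; push_cast
          rw [mul_pow, ← hFLT]
          ring
      refine hI.sq_mult A.valuation hc h2ne (σ.commutes _) ha1 ha2 ha3 ha4 ha6 ?_ ?_ ?_
        P.hp_odd hQ
      · rw [val_algebraMap_div A hℓ hA hq_4]; exact (val_algebraMap_int A hℓ hA _).1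
      · rw [val_algebraMap_div A hℓ hA hq_16]
        exact (val_algebraMap_int A hℓ hA _).2.mpr ((hpow _).mpr (dvd_mul_of_dvd_right hcd _))
      · apply val_algebraMap_int_eq_one A hℓ hA
        intro h
        have h1 : (ℓ : ℤ) ∣ P.a ^ P.p := by
          have := dvd_sub h ((hpow _).mpr hcd)
          simpa using this
        exact ha' ((hpow _).mp h1)
    · -- good reduction
      have hc : Centre (P.freyCurve⁄Qb) (algebraMap ℚ Qb 0)
          (algebraMap ℚ Qb (((-(P.a * P.b) ^ P.p : ℤ) : ℚ) / ((16 : ℤ) : ℚ)))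
          (algebraMap ℚ Qb ((P.b ^ P.p - P.a ^ P.p : ℤ) : ℚ)) := by
        apply centre_map
        · simp only [FreyPackage.freyCurve, WeierstrassCurve.b₂]; push_cast; ring
        · simp only [FreyPackage.freyCurve, WeierstrassCurve.b₄]; push_cast; ring
        · simp only [FreyPackage.freyCurve, WeierstrassCurve.b₂, WeierstrassCurve.b₄,
            WeierstrassCurve.b₆]; ring
        · simp only [FreyPackage.freyCurve, WeierstrassCurve.b₂, WeierstrassCurve.b₄,
            WeierstrassCurve.b₆, WeierstrassCurve.b₈]; push_cast; ring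
      have hR : InE1 A.valuation (galHom P.freyCurve σ Q - Q) := by
        refine hI.sub_good A.valuation hc ha1 ha2 ha3 ha4 ha6 (by simp) ?_ ?_ ?_ P.hp_odd hQ
        · rw [val_algebraMap_div A hℓ hA hq_16]
          apply val_algebraMap_int_eq_one A hℓ hA
          intro h
          exact hab ((hpow _).mp ((dvd_neg).mp h))
        · exact (val_algebraMap_int A hℓ hA _).1
        · have e : (algebraMap ℚ Qb ((P.b ^ P.p - P.a ^ P.p : ℤ) : ℚ)) ^ 2 -
              64 * algebraMap ℚ Qb (((-(P.a * P.b) ^ P.p : ℤ) : ℚ) / ((16 : ℤ) : ℚ)) =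
              algebraMap ℚ Qb (((P.c ^ P.p) ^ 2 : ℤ) : ℚ) := by
            rw [← map_pow, ← map_ofNat (algebraMap ℚ Qb) 64, ← map_mul, ← map_sub]
            congr 1
            push_cast
            rw [← hFLT, mul_pow]
            ring
          rw [e]
          apply val_algebraMap_int_eq_one A hℓ hA
          intro h
          exact hcd ((hpow _).mp (hqZ.dvd_of_dvd_pow h))
      exact inE1_sub A.valuation hb2 hb4 hb6 hb8 (hI.inE1 A.valuation hR) hR

end Fermat.Agent.S13.Loc
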