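/-
S13, task LinAlg: the linear algebra of `(f-1)² V ⊆ D`.
-/
import Mathlib

set_option autoImplicit false

namespace Fermat.Agent.S13.Loc

variable {F V : Type*} [Field F] [AddCommGroup V] [Module F V]

lemma exists_smul_of_finrank_le_one {M : Type*} [AddCommGroup M] [Module F M]
    [FiniteDimensional F M] (h : Module.finrank F M ≤ 1) {x y : M} (hx0 : x ≠ 0) :
    ∃ c : F, y = c • x := by
  obtain ⟨v, hv⟩ := finrank_le_one_iff.mp h
  obtain ⟨a, ha⟩ := hv x
  obtain ⟨b, hb⟩ := hv y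
  have ha0 : a ≠ 0 := by
    rintro rfl
    exact hx0 (by rw [← ha, zero_smul])
  refine ⟨b / a, ?_⟩
  rw [← ha, ← hb, smul_smul, div_mul_cancel₀ _ ha0]

lemma finrank_le_one_of_ne_top [FiniteDimensional F V] (hV : Module.finrank F V ≤ 2)
    (N : Submodule F V) (hN1 : N ≠ ⊤) : Module.finrank F N ≤ 1 := by
  have := Submodule.finrank_lt hN1
  omega

/-- `N` is a line (finrank `V ≤ 2`, `N ≠ ⊤`): `f x = c x` on `N`, `(c-1)² x ∈ N ⊓ D = 0`. -/
theorem LA_sub [FiniteDimensional F V] (hV : Module.finrank F V ≤ 2) (N D : Submodule F V)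
    (hN1 : N ≠ ⊤) (f : V →ₗ[F] V) (hfN : ∀ x ∈ N, f x ∈ N)
    (hf : ∀ x, f (f x - x) - (f x - x) ∈ D) (hND : N ⊓ D = ⊥) : ∀ x ∈ N, f x = x := by
  intro x hx
  by_cases hx0 : x = 0
  · rw [hx0, map_zero]
  have h1 := finrank_le_one_of_ne_top hV N hN1
  obtain ⟨c, hc⟩ := exists_smul_of_finrank_le_one (F := F) (M := N) h1
    (x := ⟨x, hx⟩) (y := ⟨f x, hfN x hx⟩) (fun h => hx0 (congrArg Subtype.val h))
  have hc' : f x = c • x := congrArg Subtype.val hc
  have h2 : f (f x - x) - (f x - x) = ((c - 1) * (c - 1)) • x := by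
    rw [map_sub, hc', map_smul, hc']
    module
  have h3 : ((c - 1) * (c - 1)) • x ∈ N ⊓ D :=
    ⟨N.smul_mem _ hx, h2 ▸ hf x⟩
  rw [hND, Submodule.mem_bot, smul_eq_zero] at h3
  have h4 : c = 1 := by
    rcases h3 with h3 | h3
    · rcases mul_self_eq_zero.mp h3 with h5
      exact sub_eq_zero.mp h5
    · exact absurd h3 hx0
  rw [hc', h4, one_smul]

/-- `V/N` is a line (finrank `V ≤ 2`, `N ≠ ⊥`). -/
theorem LA_quot [FiniteDimensional F V] (hV : Module.finrank F V ≤ 2) (N D : Submodule F V)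
    (hN0 : N ≠ ⊥) (f : V →ₗ[F] V) (hfN : ∀ x ∈ N, f x ∈ N)
    (hf : ∀ x, f (f x - x) - (f x - x) ∈ D) (hDN : D ≤ N) : ∀ x, f x - x ∈ N := by
  intro x
  by_cases hx : x ∈ N
  · exact N.sub_mem (hfN x hx) hx
  have h1 : Module.finrank F (V ⧸ N) ≤ 1 := by
    have h2 := Submodule.finrank_quotient_add_finrank N
    have h3 : 0 < Module.finrank F N := by
      rw [Module.finrank_pos_iff]
      exact (Submodule.nontrivial_iff_ne_bot).mpr hN0
    omega
  have hx0 : N.mkQ x ≠ 0 := by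
    rw [Submodule.mkQ_apply, Ne, Submodule.Quotient.mk_eq_zero]
    exact hx
  obtain ⟨c, hc⟩ := exists_smul_of_finrank_le_one (F := F) (M := V ⧸ N) h1
    (x := N.mkQ x) (y := N.mkQ (f x)) hx0
  have hn : f x - c • x ∈ N := by
    rw [← Submodule.Quotient.mk_eq_zero, Submodule.Quotient.mk_sub, Submodule.Quotient.mk_smul]
    rw [Submodule.mkQ_apply, Submodule.mkQ_apply] at hc
    rw [hc, sub_self]
  set n := f x - c • x with hndef
  have hfx : f x = c • x + n := by rw [hndef]; abel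
  have h2 : f (f x - x) - (f x - x) = ((c - 1) * (c - 1)) • x + ((c - 1) • n + (f n - n)) := by
    rw [map_sub, hfx, map_add, map_smul, hfx]
    module
  have h3 : ((c - 1) * (c - 1)) • x ∈ N := by
    have h4 := hDN (hf x)
    rw [h2] at h4
    exact (N.add_mem_iff_left (N.add_mem (N.smul_mem _ hn) (N.sub_mem (hfN n hn) hn))).mp h4
  have h4 : c = 1 := by
    by_contra hc1
    have h5 : (c - 1) * (c - 1) ≠ 0 := mul_ne_zero (sub_ne_zero.mpr hc1) (sub_ne_zero.mpr hc1)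
    exact hx ((N.smul_mem_iff h5).mp h3)
  rw [hfx, h4, one_smul, add_sub_cancel_left]
  exact hn

/-- `D ≠ ⊤`, finrank `V ≤ 2` : `N ⊓ D = ⊥` or `D ≤ N`. -/
theorem LA_dichotomy [FiniteDimensional F V] (hV : Module.finrank F V ≤ 2) (N D : Submodule F V)
    (hD1 : D ≠ ⊤) : N ⊓ D = ⊥ ∨ D ≤ N := by
  by_cases h : N ⊓ D = ⊥
  · exact Or.inl h
  right
  obtain ⟨x, ⟨hxN, hxD⟩, hx0⟩ := (Submodule.ne_bot_iff _).mp h
  have h1 := finrank_le_one_of_ne_top hV D hD1
  intro y hy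
  obtain ⟨c, hc⟩ := exists_smul_of_finrank_le_one (F := F) (M := D) h1
    (x := ⟨x, hxD⟩) (y := ⟨y, hy⟩) (fun h => hx0 (congrArg Subtype.val h))
  have hc' : y = c • x := congrArg Subtype.val hc
  rw [hc']
  exact N.smul_mem _ hxN

end Fermat.Agent.S13.Loc
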