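/-
S13, task T2gen: the valuation combinatorics `S05.T2abs` without `v 2 = 1` and for general `κ`.
(Copy the proof of `Fermat.Agent.S05.T2abs`: `h2`/`h4` are only used through `v 4 ≤ 1`, and `hκ : v κ = ν ^ p`
only at the very end; stop at `hdp : d ^ p = n ^ 2`.)
-/
import Fermat.Agent.S05.T2abs

set_option autoImplicit false

namespace Fermat.Agent.S13.Loc

open Fermat.Agent.S05

open Fermat.Agent.S05.T2aux in
theorem T2gen {K : Type*} [Field K] {Γ₀ : Type*} [LinearOrderedCommGroupWithZero Γ₀]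
    (v : Valuation K Γ₀) (p : ℕ) [Fact p.Prime] (hp2 : p ≠ 2)
    (ξ : ZMod p → K) (κ β : K)
    (hκ0 : κ ≠ 0) (hκ1 : v κ < 1) (hβ : v β = 1)
    (hint : ∀ g, g ≠ 0 → v (ξ g) ≤ 1)
    (hneg : ∀ g, ξ (-g) = ξ g)
    (hinj : ∀ g h, g ≠ 0 → h ≠ 0 → g + h ≠ 0 → g - h ≠ 0 → ξ g ≠ ξ h)
    (hadd : ∀ g h, g ≠ 0 → h ≠ 0 → g + h ≠ 0 → g - h ≠ 0 →
       ξ (g + h) * ξ (g - h) * (ξ g - ξ h) ^ 2 = (ξ g * ξ h - κ) ^ 2)
    (hdbl : ∀ g, g ≠ 0 →
       ξ (g + g) * (ξ g * (4 * ξ g ^ 2 + β * ξ g + 4 * κ)) = (ξ g ^ 2 - κ) ^ 2) :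
    (∀ g, g ≠ 0 → v (ξ g) = 1) ∨ (∃ g, g ≠ 0 ∧ v (ξ g) < 1 ∧ v (ξ g) ^ p = v κ ^ 2) := by
  classical
  have hp : p.Prime := Fact.out
  have hp3 : 3 ≤ p := by
    have := hp.two_le
    omega
  have hκ0 : v κ ≠ 0 := (v.ne_zero_iff).mpr hκ0
  have h4 : v (4 : K) ≤ 1 := by
    have h2 : v (2 : K) ≤ 1 := by
      have : (2 : K) = 1 + 1 := by norm_num
      rw [this]
      exact (v.map_add _ _).trans (by simp)
    have : (4 : K) = 2 * 2 := by norm_num
    rw [this, map_mul]
    exact mul_le_one₀ h2 zero_le h2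
  have h4mul : ∀ x : K, v (4 * x) ≤ v x := by
    intro x
    rw [map_mul]
    calc v 4 * v x ≤ 1 * v x := by gcongr
      _ = v x := one_mul _
  -- multiples of a nonzero element
  have hcast : ∀ k : ℕ, 1 ≤ k → k ≤ p - 1 → (k : ZMod p) ≠ 0 := by
    intro k hk1 hk2 h0
    rw [ZMod.natCast_eq_zero_iff] at h0
    have := Nat.le_of_dvd (by omega) h0
    omega
  have hmul : ∀ g : ZMod p, g ≠ 0 → ∀ k : ℕ, 1 ≤ k → k ≤ p - 1 → (k : ZMod p) * g ≠ 0 :=
    fun g hg k hk1 hk2 => mul_ne_zero (hcast k hk1 hk2) hg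
  have hrep : ∀ g1 g : ZMod p, g1 ≠ 0 → g ≠ 0 →
      ∃ k : ℕ, 1 ≤ k ∧ k ≤ p - 1 ∧ g = (k : ZMod p) * g1 := by
    intro g1 g hg1 hg
    refine ⟨(g / g1).val, ?_, ?_, ?_⟩
    · have : (g / g1).val ≠ 0 := by
        rw [Ne, ZMod.val_eq_zero]
        exact div_ne_zero hg hg1
      omega
    · have := ZMod.val_lt (g / g1)
      omega
    · rw [ZMod.natCast_zmod_val, div_mul_cancel₀ _ hg1]
  -- the recursion along multiples
  have hrec : ∀ g : ZMod p, g ≠ 0 → ∀ k : ℕ, 1 ≤ k → k + 2 ≤ p - 1 →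
      ξ (((k + 2 : ℕ) : ZMod p) * g) * ξ ((k : ZMod p) * g) *
        (ξ (((k + 1 : ℕ) : ZMod p) * g) - ξ g) ^ 2 = (ξ (((k + 1 : ℕ) : ZMod p) * g) * ξ g - κ) ^ 2 := by
    intro g hg k hk1 hk2
    have e1 : ((k + 1 : ℕ) : ZMod p) * g + g = ((k + 2 : ℕ) : ZMod p) * g := by push_cast; ring
    have e2 : ((k + 1 : ℕ) : ZMod p) * g - g = (k : ZMod p) * g := by push_cast; ring
    have := hadd (((k + 1 : ℕ) : ZMod p) * g) g (hmul g hg _ (by omega) (by omega)) hg
      (by rw [e1]; exact hmul g hg _ (by omega) (by omega))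
      (by rw [e2]; exact hmul g hg _ (by omega) (by omega))
    rwa [e1, e2] at this
  have hrecne : ∀ g : ZMod p, g ≠ 0 → ∀ k : ℕ, 1 ≤ k → k + 2 ≤ p - 1 →
      ξ (((k + 1 : ℕ) : ZMod p) * g) ≠ ξ g := by
    intro g hg k hk1 hk2
    have e1 : ((k + 1 : ℕ) : ZMod p) * g + g = ((k + 2 : ℕ) : ZMod p) * g := by push_cast; ring
    have e2 : ((k + 1 : ℕ) : ZMod p) * g - g = (k : ZMod p) * g := by push_cast; ring
    exact hinj (((k + 1 : ℕ) : ZMod p) * g) g (hmul g hg _ (by omega) (by omega)) hg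
      (by rw [e1]; exact hmul g hg _ (by omega) (by omega))
      (by rw [e2]; exact hmul g hg _ (by omega) (by omega))
  have hdbl' : ∀ g : ZMod p, g ≠ 0 →
      ξ (((2 : ℕ) : ZMod p) * g) * (ξ g * (4 * ξ g ^ 2 + β * ξ g + 4 * κ)) = (ξ g ^ 2 - κ) ^ 2 := by
    intro g hg
    have e : ((2 : ℕ) : ZMod p) * g = g + g := by push_cast; ring
    rw [e]; exact hdbl g hg
  have hone : ∀ g : ZMod p, ((1 : ℕ) : ZMod p) * g = g := by intro g; push_cast; ring
  have hquad_le : ∀ x : K, v x ≤ 1 → v (4 * x ^ 2 + β * x + 4 * κ) ≤ 1 := by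
    intro x hx
    refine (v.map_add _ _).trans (max_le ((v.map_add _ _).trans (max_le ?_ ?_)) ?_)
    · refine (h4mul _).trans ?_
      rw [map_pow]; exact pow_le_one₀ zero_le hx
    · rw [map_mul, hβ, one_mul]; exact hx
    · exact (h4mul _).trans hκ1.le
  by_cases h1 : ∃ g0, g0 ≠ 0 ∧ v (ξ g0) = 1
  · -- Step 1 : one unit value forces all unit values
    obtain ⟨g0, hg0, hv0⟩ := h1
    left
    intro g hg
    have hx2 : v (ξ (((2 : ℕ) : ZMod p) * g0)) = 1 := by
      have h := congrArg v (hdbl' g0 hg0)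
      have hR : v ((ξ g0 ^ 2 - κ) ^ 2) = 1 := by
        rw [map_pow, v.map_sub_eq_of_lt_left (by rw [map_pow, hv0, one_pow]; exact hκ1), map_pow, hv0,
          one_pow, one_pow]
      rw [hR, map_mul] at h
      refine eq_one_of_mul_eq_one (hint _ (hmul g0 hg0 2 (by omega) (by omega))) ?_ h
      rw [map_mul, hv0, one_mul]
      exact hquad_le _ hv0.le
    have key : ∀ k : ℕ, 1 ≤ k → k + 1 ≤ p - 1 →
        v (ξ ((k : ZMod p) * g0)) = 1 ∧ v (ξ (((k + 1 : ℕ) : ZMod p) * g0)) = 1 := by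
      intro k hk
      induction k, hk using Nat.le_induction with
      | base => intro _; exact ⟨by rw [hone]; exact hv0, hx2⟩
      | succ k hk ih =>
        intro hk2
        obtain ⟨ih1, ih2⟩ := ih (by omega)
        refine ⟨ih2, ?_⟩
        have h := congrArg v (hrec g0 hg0 k hk (by omega))
        have hR : v ((ξ (((k + 1 : ℕ) : ZMod p) * g0) * ξ g0 - κ) ^ 2) = 1 := by
          rw [map_pow, v.map_sub_eq_of_lt_left (by rw [map_mul, ih2, hv0, one_mul]; exact hκ1),
            map_mul, ih2, hv0, one_mul, one_pow]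
        rw [hR, map_mul, map_mul, ih1, mul_one] at h
        refine eq_one_of_mul_eq_one (hint _ (hmul g0 hg0 _ (by omega) (by omega))) ?_ h
        rw [map_pow]
        refine pow_le_one₀ zero_le ((v.map_sub _ _).trans (max_le ih2.le hv0.le))
    obtain ⟨k, hk1, hk2, rfl⟩ := hrep g0 g hg0 hg
    rcases Nat.lt_or_ge k (p - 1) with hlt | hge
    · exact (key k hk1 (by omega)).1
    · have hk : k = (p - 2) + 1 := by omega
      rw [hk]
      exact (key (p - 2) (by omega) (by omega)).2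
  · -- Steps 2-5 : all values are < 1
    push Not at h1
    have hlt : ∀ g, g ≠ 0 → v (ξ g) < 1 := fun g hg => lt_of_le_of_ne (hint g hg) (h1 g hg)
    have hκpos : 0 < v κ := pos_of_ne hκ0
    have hgt : ∀ g, g ≠ 0 → v κ < v (ξ g) := by
      intro g hg
      by_contra hcon
      have hcon' : v (ξ g) ≤ v κ := not_lt.mp hcon
      have h := congrArg v (hdbl' g hg)
      have hx2 : v (ξ g ^ 2) < v κ := by
        rw [map_pow, sq]
        calc v (ξ g) * v (ξ g) ≤ v κ * v (ξ g) := by gcongr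
          _ < v κ * 1 := by
              have := hlt g hg
              gcongr
          _ = v κ := mul_one _
      have hR : v ((ξ g ^ 2 - κ) ^ 2) = v κ ^ 2 := by
        rw [map_pow, v.map_sub_eq_of_lt_right hx2]
      have hQ : v (4 * ξ g ^ 2 + β * ξ g + 4 * κ) ≤ v κ := by
        refine (v.map_add _ _).trans (max_le ((v.map_add _ _).trans (max_le ?_ ?_)) ?_)
        · exact (h4mul _).trans hx2.le
        · rw [map_mul, hβ, one_mul]; exact hcon'
        · exact h4mul _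
      rw [hR, map_mul, map_mul] at h
      have h5 : 1 * v κ ^ 2 ≤ v (ξ (((2 : ℕ) : ZMod p) * g)) * v κ ^ 2 := by
        calc 1 * v κ ^ 2 = v κ ^ 2 := one_mul _
          _ = v (ξ (((2 : ℕ) : ZMod p) * g)) *
                (v (ξ g) * v (4 * ξ g ^ 2 + β * ξ g + 4 * κ)) := h.symm
          _ ≤ v (ξ (((2 : ℕ) : ZMod p) * g)) * (v κ * v κ) := by gcongr
          _ = _ := by rw [sq]
      have h6 : 1 ≤ v (ξ (((2 : ℕ) : ZMod p) * g)) :=
        le_of_mul_le_mul_right h5 (pos_of_ne (pow_ne_zero 2 hκ0))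
      exact absurd h6 (not_le.mpr (hlt _ (hmul g hg 2 (by omega) (by omega))))
    obtain ⟨g1, hg1mem, hmax⟩ := Finset.exists_max_image
      (Finset.univ.filter (fun g : ZMod p => g ≠ 0)) (fun g => v (ξ g))
      ⟨1, by simp⟩
    have hg1 : g1 ≠ 0 := by simpa using hg1mem
    have hmax' : ∀ g, g ≠ 0 → v (ξ g) ≤ v (ξ g1) := fun g hg => hmax g (by simpa using hg)
    obtain ⟨d, hd⟩ : ∃ d, d = v (ξ g1) := ⟨_, rfl⟩
    obtain ⟨n, hn⟩ : ∃ n, n = v κ := ⟨_, rfl⟩
    have hd1 : d < 1 := hd ▸ hlt g1 hg1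
    have hnd : n < d := by rw [hd, hn]; exact hgt g1 hg1
    have hn0 : n ≠ 0 := hn ▸ hκ0
    have hnpos : 0 < n := pos_of_ne hn0
    have hdpos : 0 < d := lt_trans hnpos hnd
    have hd0 : d ≠ 0 := hdpos.ne'
    have hC1 : (v (ξ (((1 : ℕ) : ZMod p) * g1)) = d ^ 1 ∧ n < d ^ 1) ∨
        (v (ξ (((1 : ℕ) : ZMod p) * g1)) * d ^ 1 = n ^ 2 ∧ d ^ 1 < n) := by
      left
      rw [hone, pow_one]
      exact ⟨hd.symm, hnd⟩
    have hC2 : (v (ξ (((2 : ℕ) : ZMod p) * g1)) = d ^ 2 ∧ n < d ^ 2) ∨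
        (v (ξ (((2 : ℕ) : ZMod p) * g1)) * d ^ 2 = n ^ 2 ∧ d ^ 2 < n) := by
      have h := congrArg v (hdbl' g1 hg1)
      have hdd : d ^ 2 < d := by
        calc d ^ 2 = d * d := sq d
          _ < d * 1 := by gcongr
          _ = d := mul_one d
      have hQ : v (4 * ξ g1 ^ 2 + β * ξ g1 + 4 * κ) = d := by
        have e1 : v (4 * ξ g1 ^ 2) ≤ d ^ 2 := by
          refine (h4mul _).trans ?_
          rw [map_pow, hd]
        have e2 : v (β * ξ g1) = d := by rw [map_mul, hβ, one_mul, hd]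
        have e3 : v (4 * κ) ≤ n := by
          refine (h4mul _).trans ?_
          rw [hn]
        have e4 : v (4 * ξ g1 ^ 2 + β * ξ g1) = d := by
          rw [v.map_add_eq_of_lt_right (by rw [e2]; exact lt_of_le_of_lt e1 hdd), e2]
        rw [v.map_add_eq_of_lt_left (by rw [e4]; exact lt_of_le_of_lt e3 hnd), e4]
      rw [map_mul, map_mul, hQ, ← hd, map_pow] at h
      have hxx : v (ξ g1 ^ 2) = d ^ 2 := by rw [map_pow, hd]
      have hdd0 : d * d ≠ 0 := mul_ne_zero hd0 hd0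
      rcases lt_trichotomy (d ^ 2) n with hl | he | hg
      · right
        refine ⟨?_, hl⟩
        rw [v.map_sub_eq_of_lt_right (by rw [hxx, ← hn]; exact hl), ← hn] at h
        rw [sq d]; exact h
      · exfalso
        have hr : v (ξ g1 ^ 2 - κ) ≤ n := by
          refine (v.map_sub _ _).trans (max_le ?_ ?_)
          · rw [hxx, he]
          · rw [hn]
        have h7 : v (ξ (((2 : ℕ) : ZMod p) * g1)) * (d * d) ≤ n * (d * d) := by
          rw [h, sq]
          calc v (ξ g1 ^ 2 - κ) * v (ξ g1 ^ 2 - κ) ≤ n * n := by gcongr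
            _ = n * (d * d) := by rw [← sq d, he]
        have h8 := le_of_mul_le_mul_right h7 (pos_of_ne hdd0)
        have h9 := hgt _ (hmul g1 hg1 2 (by omega) (by omega))
        rw [← hn] at h9
        exact absurd h8 (not_le.mpr h9)
      · left
        refine ⟨?_, hg⟩
        rw [v.map_sub_eq_of_lt_left (by rw [hxx, ← hn]; exact hg), hxx] at h
        have : v (ξ (((2 : ℕ) : ZMod p) * g1)) * (d * d) = d ^ 2 * (d * d) := by
          rw [h, sq (d ^ 2), sq d]
        exact mul_right_cancel₀ hdd0 this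
    have hd2 : d * d ≠ n := by
      rw [← sq]
      rcases hC2 with ⟨-, h⟩ | ⟨-, h⟩
      · exact h.ne'
      · exact h.ne
    have key : ∀ k : ℕ, 1 ≤ k → k + 1 ≤ p - 1 →
        ((v (ξ ((k : ZMod p) * g1)) = d ^ k ∧ n < d ^ k) ∨
          (v (ξ ((k : ZMod p) * g1)) * d ^ k = n ^ 2 ∧ d ^ k < n)) ∧
        ((v (ξ (((k + 1 : ℕ) : ZMod p) * g1)) = d ^ (k + 1) ∧ n < d ^ (k + 1)) ∨
          (v (ξ (((k + 1 : ℕ) : ZMod p) * g1)) * d ^ (k + 1) = n ^ 2 ∧ d ^ (k + 1) < n)) := by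
      intro k hk
      induction k, hk using Nat.le_induction with
      | base => intro _; exact ⟨hC1, hC2⟩
      | succ k hk ih =>
        intro hk2
        obtain ⟨ih1, ih2⟩ := ih (by omega)
        refine ⟨ih2, ?_⟩
        have hne0 := hmul g1 hg1 k (by omega) (by omega)
        have hne1 := hmul g1 hg1 (k + 1) (by omega) (by omega)
        have hne2 := hmul g1 hg1 (k + 2) (by omega) (by omega)
        have h := congrArg v (hrec g1 hg1 k hk (by omega))
        rw [map_mul, map_mul, map_pow, map_pow] at h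
        have hres := stepC d n (d ^ k) (v (ξ ((k : ZMod p) * g1)))
          (v (ξ (((k + 1 : ℕ) : ZMod p) * g1))) (v (ξ (((k + 2 : ℕ) : ZMod p) * g1)))
          (v (ξ (((k + 1 : ℕ) : ZMod p) * g1) - ξ g1))
          (v (ξ (((k + 1 : ℕ) : ZMod p) * g1) * ξ g1 - κ))
          hd0 hd1 hn0 (pow_ne_zero k hd0) (pow_le_of_le_one hdpos.le hd1.le (by omega)) hd2
          (ne_of_gt (lt_trans hκpos (hgt _ hne0)))
          (by rw [hn]; exact hgt _ hne2) (hlt _ hne2) (by rw [hd]; exact hmax' _ hne1)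
          (by
            intro hlt'
            rw [hd] at hlt' ⊢
            exact v.map_sub_eq_of_lt_right hlt')
          (by
            rw [hd]
            exact (v.map_sub _ _).trans (max_le (hmax' _ hne1) le_rfl))
          ((v.ne_zero_iff).mpr (sub_ne_zero.mpr (hrecne g1 hg1 k hk (by omega))))
          (by
            intro hne
            rw [sub_eq_add_neg, v.map_add_of_distinct_val (by
              rw [map_mul, Valuation.map_neg, ← hd, ← hn]; exact hne), map_mul, Valuation.map_neg,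
              ← hd, ← hn])
          (by
            have := v.map_sub (ξ (((k + 1 : ℕ) : ZMod p) * g1) * ξ g1) κ
            rwa [map_mul, ← hd, ← hn] at this)
          h ih1 (by rw [← pow_succ]; exact ih2)
        rw [← pow_succ, ← pow_succ] at hres
        exact hres
    have hCall : ∀ k : ℕ, 1 ≤ k → k ≤ p - 1 →
        ((v (ξ ((k : ZMod p) * g1)) = d ^ k ∧ n < d ^ k) ∨
          (v (ξ ((k : ZMod p) * g1)) * d ^ k = n ^ 2 ∧ d ^ k < n)) := by
      intro k hk1 hk2
      rcases Nat.lt_or_ge k (p - 1) with hlt' | hge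
      · exact (key k hk1 (by omega)).1
      · have hk : k = (p - 2) + 1 := by omega
        rw [hk]
        exact (key (p - 2) (by omega) (by omega)).2
    -- the last multiple is `-g1`
    have hlast : v (ξ (((p - 1 : ℕ) : ZMod p) * g1)) = d := by
      have e : ((p - 1 : ℕ) : ZMod p) * g1 = -g1 := by
        rw [Nat.cast_sub (by omega), ZMod.natCast_self]
        push_cast; ring
      rw [e, hneg, hd]
    have hdp : d ^ p = n ^ 2 := by
      have hpp : p = (p - 1) + 1 := by omega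
      rcases hCall (p - 1) (by omega) le_rfl with ⟨h, -⟩ | ⟨h, -⟩
      · exfalso
        rw [hlast] at h
        have : d ^ (p - 1) < d ^ 1 := pow_lt_pow_right_of_lt_one₀ hdpos hd1 (by omega)
        rw [pow_one, ← h] at this
        exact lt_irrefl _ this
      · rw [hlast] at h
        rw [hpp, pow_succ, mul_comm]; exact h
    right
    exact ⟨g1, hg1, hlt g1 hg1, by rw [← hd, ← hn]; exact hdp⟩

end Fermat.Agent.S13.Loc
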