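/-
S13, task Rational: the Frey curve has no Galois-fixed point of order `p`  (2-adic argument).
-/
import Fermat.Agent.S13.LocT2
import Fermat.Agent.S13.Minkowski
import Fermat.Agent.S05.Frey

set_option autoImplicit false
set_option linter.unusedSectionVars false

namespace Fermat.Agent.S13.Loc

open WeierstrassCurve WeierstrassCurve.Affine WeierstrassCurve.Affine.Point Fermat.Agent.S05
open FreyPackage

attribute [local instance 5000] AlgebraicClosure.instAlgebra

namespace Rational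

section val2

variable {K : Type*} [Field K] [Algebra ℚ K] (A : ValuationSubring K) (hA : A.LiesOverPrime 2)

include hA

theorem val_two_lt_one : A.valuation (2 : K) < 1 := by
  have := (val_int A Nat.prime_two hA 2).2.mpr (by norm_num)
  simpa using this

omit hA in
theorem val_two_ne_zero : A.valuation (2 : K) ≠ 0 := by
  have : CharZero K := algebraRat.charZero K
  exact (A.valuation.ne_zero_iff).mpr two_ne_zero

theorem val_odd {n : ℤ} (hn : ¬ (2 : ℤ) ∣ n) : A.valuation (n : K) = 1 := by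
  obtain ⟨h1, h2⟩ := val_int A Nat.prime_two hA n
  exact le_antisymm h1 (not_lt.mp fun h => hn (by simpa using h2.mp h))

theorem val_even {n : ℤ} (hn : (2 : ℤ) ∣ n) : A.valuation (n : K) < 1 :=
  (val_int A Nat.prime_two hA n).2.mpr (by simpa using hn)

theorem dvd_of_val_lt {n : ℤ} (hn : A.valuation (n : K) < 1) : (2 : ℤ) ∣ n := by
  simpa using (val_int A Nat.prime_two hA n).2.mp hn

/-- the value of a nonzero integer is a power of the value of `2` -/
theorem val_int_eq_pow {n : ℤ} (hn : n ≠ 0) :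
    ∃ k : ℕ, A.valuation (n : K) = A.valuation (2 : K) ^ k := by
  have hfin : FiniteMultiplicity (2 : ℤ) n := Int.finiteMultiplicity_iff.mpr ⟨by norm_num, hn⟩
  obtain ⟨c, hc, hc2⟩ := hfin.exists_eq_pow_mul_and_not_dvd
  refine ⟨multiplicity (2 : ℤ) n, ?_⟩
  conv_lhs => rw [hc]
  push_cast
  rw [map_mul, map_pow, val_odd A hA hc2, mul_one]

/-- the value of a nonzero rational is an integral power of the value of `2` -/
theorem val_rat_eq_zpow {r : ℚ} (hr : r ≠ 0) :
    ∃ m : ℤ, A.valuation (algebraMap ℚ K r) = A.valuation (2 : K) ^ m := by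
  obtain ⟨i, hi⟩ := val_int_eq_pow A hA (Rat.num_ne_zero.mpr hr)
  obtain ⟨j, hj⟩ := val_int_eq_pow A hA (n := (r.den : ℤ)) (by exact_mod_cast r.den_ne_zero)
  refine ⟨(i : ℤ) - j, ?_⟩
  have h1 : algebraMap ℚ K r = (r.num : K) / ((r.den : ℤ) : K) := by
    conv_lhs => rw [← Rat.num_div_den r]
    simp
  rw [h1, map_div₀, hi, hj, zpow_sub₀ (val_two_ne_zero A), zpow_natCast, zpow_natCast]

/-- two rational `2`-adic units are congruent modulo the maximal ideal -/
theorem val_sub_one_lt {r : ℚ} (hr : A.valuation (algebraMap ℚ K r) = 1) :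
    A.valuation (algebraMap ℚ K r - 1) < 1 := by
  have : CharZero K := algebraRat.charZero K
  have hden0 : ((r.den : ℤ) : K) ≠ 0 := by exact_mod_cast r.den_ne_zero
  have h1 : algebraMap ℚ K r = (r.num : K) / ((r.den : ℤ) : K) := by
    conv_lhs => rw [← Rat.num_div_den r]
    simp
  rw [h1, map_div₀, div_eq_one_iff_eq ((A.valuation.ne_zero_iff).mpr hden0)] at hr
  have hden : ¬ (2 : ℤ) ∣ (r.den : ℤ) := by
    intro h
    have h2 := val_even A hA h
    rw [← hr] at h2
    have h3 := dvd_of_val_lt A hA h2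
    have h4 : (2 : ℕ) ∣ r.num.natAbs := by
      have := Int.natAbs_dvd_natAbs.mpr h3
      simpa using this
    have h5 : (2 : ℕ) ∣ r.den := by exact_mod_cast h
    have := Nat.dvd_gcd h4 h5
    rw [r.reduced] at this
    norm_num at this
  have hnum : ¬ (2 : ℤ) ∣ r.num := by
    intro h
    have h2 := val_even A hA h
    rw [hr, val_odd A hA hden] at h2
    exact lt_irrefl _ h2
  have h6 : (r.num : K) / ((r.den : ℤ) : K) - 1 = ((r.num - r.den : ℤ) : K) / ((r.den : ℤ) : K) := by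
    push_cast
    field_simp
  rw [h1, h6, map_div₀, val_odd A hA hden, div_one]
  apply val_even A hA
  omega

theorem val_sub_lt {r s : ℚ} (hr : A.valuation (algebraMap ℚ K r) = 1)
    (hs : A.valuation (algebraMap ℚ K s) = 1) :
    A.valuation (algebraMap ℚ K r - algebraMap ℚ K s) < 1 := by
  have h : algebraMap ℚ K r - algebraMap ℚ K s =
      (algebraMap ℚ K r - 1) - (algebraMap ℚ K s - 1) := by ring
  rw [h]
  exact (A.valuation.map_sub _ _).trans_lt (max_lt (val_sub_one_lt A hA hr) (val_sub_one_lt A hA hs))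

end val2

theorem mem_rat_of_fixed (x : AlgebraicClosure ℚ)
    (h : ∀ σ : AlgebraicClosure ℚ ≃ₐ[ℚ] AlgebraicClosure ℚ, σ x = x) :
    ∃ q : ℚ, algebraMap ℚ (AlgebraicClosure ℚ) q = x :=
  (InfiniteGalois.mem_range_algebraMap_iff_fixed (k := ℚ) (K := AlgebraicClosure ℚ) x).2 h

end Rational

open Rational in
/-- MATH. Take `A` over `2`, `v = A.valuation`, `e = 0`, `κ = a₄ = -(ab)^p/16`, `β = b₂ = b^p - a^p` (odd).
All `k • Q` are Galois-fixed, so `x(kQ) ∈ ℚ`; `v (x(kQ)) ≤ 1` by `S05.T1`.  Apply `T2gen`.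
* unit case: `x(Q), x(2Q), x(3Q)` are rational 2-adic units, so `v (x₂ - x₁) < 1`,
  contradicting `x₃ x₁ (x₂-x₁)² = (x₂x₁-κ)²` (a unit).
* node case: `d = v (x(gQ)) = (v 2)^m`, `v κ = (v 2)^(p j - 4)`, `d^p = (v κ)²` gives `p ∣ 8`. -/
theorem no_rational_torsion (P : FreyPackage)
    (Q : (P.freyCurve⁄(AlgebraicClosure ℚ)).Point) (hQ : P.p • Q = 0) (hQ0 : Q ≠ 0)
    (hfix : ∀ σ : AlgebraicClosure ℚ ≃ₐ[ℚ] AlgebraicClosure ℚ, σ • Q = Q) : False := by
  obtain ⟨A, hA⟩ := exists_valuationSubring_liesOver 2 Nat.prime_two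
  have : Fact P.p.Prime := ⟨P.pp⟩
  have hp5 := P.hp5
  have hp2 : P.p ≠ 2 := by omega
  set t := A.valuation (2 : AlgebraicClosure ℚ) with ht
  have ht1 : t < 1 := val_two_lt_one A hA
  have ht0 : t ≠ 0 := val_two_ne_zero A
  -- parity
  have hb_even : (2 : ℤ) ∣ P.b := (ZMod.intCast_zmod_eq_zero_iff_dvd P.b 2).mp P.hb2
  have ha_odd : ¬ (2 : ℤ) ∣ P.a := fun h =>
    not_dvd_two_of_gcd P.hgcdab Nat.prime_two (by exact_mod_cast h) (by exact_mod_cast hb_even)
  have h2prime : Prime (2 : ℤ) := Int.prime_two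
  -- the constants
  set κ : AlgebraicClosure ℚ :=
    algebraMap ℚ (AlgebraicClosure ℚ) (-((P.a : ℚ) ^ P.p) * ((P.b : ℚ) ^ P.p) / 16) with hκdef
  set β : AlgebraicClosure ℚ :=
    algebraMap ℚ (AlgebraicClosure ℚ) ((P.b : ℚ) ^ P.p - (P.a : ℚ) ^ P.p) with hβdef
  have hb2 : (P.freyCurve⁄(AlgebraicClosure ℚ)).b₂ = β := by
    rw [hβdef, show (P.freyCurve⁄(AlgebraicClosure ℚ)).b₂ =
      algebraMap ℚ (AlgebraicClosure ℚ) P.freyCurve.b₂ from WeierstrassCurve.map_b₂ ..]
    congr 1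
    simp only [FreyPackage.freyCurve, WeierstrassCurve.b₂]; ring
  have hb4 : (P.freyCurve⁄(AlgebraicClosure ℚ)).b₄ = 2 * κ := by
    rw [hκdef, show (P.freyCurve⁄(AlgebraicClosure ℚ)).b₄ =
      algebraMap ℚ (AlgebraicClosure ℚ) P.freyCurve.b₄ from WeierstrassCurve.map_b₄ ..,
      ← map_ofNat (algebraMap ℚ (AlgebraicClosure ℚ)) 2, ← map_mul]
    congr 1
    simp only [FreyPackage.freyCurve, WeierstrassCurve.b₄]; ring
  have hb6 : (P.freyCurve⁄(AlgebraicClosure ℚ)).b₆ = 0 := by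
    rw [show (P.freyCurve⁄(AlgebraicClosure ℚ)).b₆ =
      algebraMap ℚ (AlgebraicClosure ℚ) P.freyCurve.b₆ from WeierstrassCurve.map_b₆ ..,
      ← map_zero (algebraMap ℚ (AlgebraicClosure ℚ))]
    congr 1
    simp only [FreyPackage.freyCurve, WeierstrassCurve.b₆]; ring
  have hb8 : (P.freyCurve⁄(AlgebraicClosure ℚ)).b₈ = -κ ^ 2 := by
    rw [hκdef, show (P.freyCurve⁄(AlgebraicClosure ℚ)).b₈ =
      algebraMap ℚ (AlgebraicClosure ℚ) P.freyCurve.b₈ from WeierstrassCurve.map_b₈ ..,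
      ← map_pow, ← map_neg]
    congr 1
    simp only [FreyPackage.freyCurve, WeierstrassCurve.b₈]; ring
  have hc : Centre (P.freyCurve⁄(AlgebraicClosure ℚ)) 0 κ β :=
    ⟨by rw [hb2]; ring, by rw [hb4]; ring, by rw [hb6]; ring, by rw [hb8]; ring⟩
  -- valuations of the constants
  have hβ : A.valuation β = 1 := by
    have h1 : β = ((P.b ^ P.p - P.a ^ P.p : ℤ) : AlgebraicClosure ℚ) := by
      rw [hβdef]; push_cast; simp
    rw [h1]
    apply val_odd A hA
    intro h
    have h2 : (2 : ℤ) ∣ P.b ^ P.p := dvd_pow hb_even P.hp0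
    have h3 : (2 : ℤ) ∣ P.a ^ P.p := by
      have := dvd_sub h2 h
      simpa using this
    exact ha_odd (h2prime.dvd_of_dvd_pow h3)
  obtain ⟨j, hj⟩ := val_int_eq_pow A hA (mul_ne_zero P.ha0 P.hb0)
  rw [← ht] at hj
  have hj1 : 1 ≤ j := by
    by_contra h
    have h0 : j = 0 := by omega
    rw [h0, pow_zero] at hj
    have := val_even A hA (dvd_mul_of_dvd_right hb_even P.a)
    rw [hj] at this
    exact lt_irrefl _ this
  have hκ16 : κ * 16 = -(((P.a * P.b : ℤ) : AlgebraicClosure ℚ)) ^ P.p := by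
    rw [hκdef]
    push_cast
    simp only [map_intCast, map_ofNat]
    rw [mul_pow]
    field_simp
  have hv16 : A.valuation (16 : AlgebraicClosure ℚ) = t ^ 4 := by
    have : (16 : AlgebraicClosure ℚ) = 2 ^ 4 := by norm_num
    rw [this, map_pow]
  have hκv : A.valuation κ * t ^ 4 = t ^ (P.p * j) := by
    rw [← hv16, ← map_mul, hκ16, Valuation.map_neg, map_pow, hj, ← pow_mul, mul_comm]
  have h5j : 5 ≤ P.p * j := by nlinarith
  have hκv' : A.valuation κ = t ^ (P.p * j - 4) := by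
    apply mul_right_cancel₀ (pow_ne_zero 4 ht0)
    rw [hκv, ← pow_add, Nat.sub_add_cancel (by omega)]
  have hκ1 : A.valuation κ < 1 := by
    rw [hκv']
    exact pow_lt_one₀ zero_le ht1 (by omega)
  have hκ0 : κ ≠ 0 := by
    intro h
    rw [h, _root_.map_zero] at hκv'
    exact pow_ne_zero _ ht0 hκv'.symm
  have hvb2 : A.valuation (P.freyCurve⁄(AlgebraicClosure ℚ)).b₂ ≤ 1 := by rw [hb2, hβ]
  have hvb4 : A.valuation (P.freyCurve⁄(AlgebraicClosure ℚ)).b₄ ≤ 1 := by
    rw [hb4, map_mul]; exact mul_le_one' ht1.le hκ1.le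
  have hvb6 : A.valuation (P.freyCurve⁄(AlgebraicClosure ℚ)).b₆ ≤ 1 := by
    rw [hb6, _root_.map_zero]; exact zero_le
  have hvb8 : A.valuation (P.freyCurve⁄(AlgebraicClosure ℚ)).b₈ ≤ 1 := by
    rw [hb8, Valuation.map_neg, map_pow]; exact pow_le_one₀ zero_le hκ1.le
  have hpv : A.valuation (P.p : AlgebraicClosure ℚ) = 1 := by
    have h1 : ¬ (2 : ℤ) ∣ (P.p : ℤ) := by
      intro h
      have h2 : 2 ∣ P.p := by exact_mod_cast h
      exact hp2 ((Nat.prime_dvd_prime_iff_eq Nat.prime_two P.pp).mp h2).symm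
    have := val_odd A hA h1
    simpa using this
  -- the multiples of `Q`
  set φ := torsHom P.p Q hQ with hφ
  have hne : ∀ g, g ≠ 0 → φ g ≠ 0 := torsHom_ne_zero P.p Q hQ hQ0
  have hxne : ∀ g h, g ≠ 0 → h ≠ 0 → g + h ≠ 0 → g - h ≠ 0 → xc (φ g) ≠ xc (φ h) := by
    intro g h hg hh hgh hgh'
    apply xc_ne_of_ne (hne g hg) (hne h hh)
    · intro h1
      apply hne _ hgh'
      rw [map_sub, h1, sub_self]
    · intro h1
      apply hne _ hgh
      rw [map_add, h1, neg_add_cancel]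
  have hint : ∀ g, A.valuation (xc (φ g)) ≤ 1 := fun g =>
    T1 A.valuation hvb2 hvb4 hvb6 hvb8 P.p hpv _ (torsHom_tors P.p Q hQ g)
  have hadd : ∀ g h, g ≠ 0 → h ≠ 0 → g + h ≠ 0 → g - h ≠ 0 →
      (xc (φ (g + h)) - 0) * (xc (φ (g - h)) - 0) * ((xc (φ g) - 0) - (xc (φ h) - 0)) ^ 2 =
        ((xc (φ g) - 0) * (xc (φ h) - 0) - κ) ^ 2 := by
    intro g h hg hh hgh hgh'
    simp only [map_add, map_sub]
    exact hc.xi_add_mul_sub (hne g hg) (hne h hh) (hxne g h hg hh hgh hgh')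
  have key := T2gen A.valuation P.p hp2 (fun g => xc (φ g) - 0) κ β hκ0 hκ1 hβ
    (fun g _ => by rw [sub_zero]; exact hint g)
    (fun g => by simp only [map_neg, xc_neg])
    (fun g h hg hh hgh hgh' h1 => hxne g h hg hh hgh hgh' (sub_left_injective h1))
    hadd
    (fun g hg => by
      simp only [map_add]
      apply hc.xi_dbl
      rw [← map_add]
      apply hne
      intro h0
      apply hg
      have h3 : (2 : ZMod P.p) * g = 0 := by rw [two_mul]; exact h0
      rcases mul_eq_zero.mp h3 with h4 | h4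
      · exfalso
        have h5 : ((2 : ℕ) : ZMod P.p) = 0 := by exact_mod_cast h4
        rw [ZMod.natCast_eq_zero_iff] at h5
        have := (Nat.prime_dvd_prime_iff_eq P.pp Nat.prime_two).mp h5
        exact hp2 this
      · exact h4)
  simp only [sub_zero] at key hadd
  -- rationality
  have hrat : ∀ g, ∃ r : ℚ, algebraMap ℚ (AlgebraicClosure ℚ) r = xc (φ g) := by
    intro g
    apply mem_rat_of_fixed
    intro σ
    have h1 : φ g = g.val • Q := by
      conv_lhs => rw [← ZMod.natCast_zmod_val g, ← mul_one ((g.val : ℕ) : ZMod P.p),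
        ← nsmul_eq_mul, map_nsmul, hφ, torsHom_one]
    have h2 : Point.map (W' := P.freyCurve) σ.toAlgHom (φ g) = φ g := by
      rw [h1, map_nsmul]
      congr 1
      exact hfix σ
    rw [← xc_map, h2]
  have hcast : ∀ k : ℕ, 1 ≤ k → k < 5 → ((k : ℕ) : ZMod P.p) ≠ 0 := by
    intro k hk1 hk5 h0
    rw [ZMod.natCast_eq_zero_iff] at h0
    have := Nat.le_of_dvd (by omega) h0
    omega
  rcases key with hunit | ⟨g, hg, hlt, hpow⟩
  · -- all `x`-coordinates are units
    have h1ne : (1 : ZMod P.p) ≠ 0 := one_ne_zero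
    have h2ne : (2 : ZMod P.p) ≠ 0 := by simpa using hcast 2 (by norm_num) (by norm_num)
    have h3ne : (2 : ZMod P.p) + 1 ≠ 0 := by
      have := hcast 3 (by norm_num) (by norm_num)
      intro h
      apply this
      rw [← h]
      push_cast
      norm_num
    have h21 : (2 : ZMod P.p) - 1 ≠ 0 := by
      have : (2 : ZMod P.p) - 1 = 1 := by norm_num
      rw [this]
      exact one_ne_zero
    have hv := congrArg A.valuation (hadd 2 1 h2ne h1ne h3ne h21)
    rw [map_mul, map_mul, map_pow, map_pow, hunit _ h3ne, hunit _ h21, one_mul, one_mul] at hv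
    have hR : A.valuation (xc (φ 2) * xc (φ 1) - κ) = 1 := by
      rw [Valuation.map_sub_eq_of_lt_left _ (by
        rw [map_mul, hunit 2 h2ne, hunit 1 h1ne, one_mul]; exact hκ1), map_mul, hunit 2 h2ne,
        hunit 1 h1ne, one_mul]
    obtain ⟨r, hr⟩ := hrat 2
    obtain ⟨s, hs⟩ := hrat 1
    have hL : A.valuation (xc (φ 2) - xc (φ 1)) < 1 := by
      rw [← hr, ← hs]
      exact val_sub_lt A hA (by rw [hr]; exact hunit 2 h2ne) (by rw [hs]; exact hunit 1 h1ne)
    rw [hR, one_pow] at hv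
    have h9 : A.valuation (xc (φ 2) - xc (φ 1)) ^ 2 < 1 := pow_lt_one₀ zero_le hL two_ne_zero
    rw [hv] at h9
    exact lt_irrefl _ h9
  · -- node case: `p ∣ 8`
    obtain ⟨r, hr⟩ := hrat g
    have hr0 : r ≠ 0 := by
      rintro rfl
      rw [_root_.map_zero] at hr
      rw [← hr, _root_.map_zero, zero_pow P.hp0] at hpow
      exact pow_ne_zero 2 ((A.valuation.ne_zero_iff).mpr hκ0) hpow.symm
    obtain ⟨m, hm⟩ := val_rat_eq_zpow A hA hr0
    rw [hr, ← ht] at hm
    rw [hm, hκv', ← zpow_natCast, ← zpow_mul, ← pow_mul, ← zpow_natCast] at hpow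
    have hinj : m * (P.p : ℤ) = (((P.p * j - 4) * 2 : ℕ) : ℤ) :=
      zpow_right_injective₀ (zero_lt_iff.mpr ht0) ht1.ne hpow
    rw [Nat.cast_mul, Nat.cast_sub (by omega)] at hinj
    push_cast at hinj
    have hdvd : (P.p : ℤ) ∣ 8 := ⟨2 * j - m, by linarith⟩
    have hdvd' : P.p ∣ 8 := by exact_mod_cast hdvd
    have h8 : P.p ∣ 2 := P.pp.dvd_of_dvd_pow (show P.p ∣ 2 ^ 3 by norm_num; exact hdvd')
    have := Nat.le_of_dvd (by norm_num) h8
    omega

end Fermat.Agent.S13.Loc
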