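/-
S13: final assembly (modulo the task lemmas).
-/
import Fermat.Agent.S13.LocFrey
import Fermat.Agent.S13.LocRational
import Fermat.Agent.S13.LocLinAlg
import Fermat.Agent.S13.Minkowski
import Fermat.Agent.S13.FiniteLevel
import Fermat.Agent.S13.Torsion

set_option autoImplicit false

namespace Fermat.Agent.S13.Loc

open WeierstrassCurve WeierstrassCurve.Affine WeierstrassCurve.Affine.Point Fermat.Agent.S05
open FreyPackage

variable (P : FreyPackage)

/-- the Galois action on `E[p]` as a linear map -/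
noncomputable def galLin (σ : GQ) : FreyV P →ₗ[ZMod P.p] FreyV P :=
  (DistribSMul.toAddMonoidHom (FreyV P) σ).toZModLinearMap P.p

@[simp] lemma galLin_apply (σ : GQ) (z : FreyV P) : galLin P σ z = σ • z := rfl

/-- `E[p] ∩ E1(A)` as a submodule -/
noncomputable def D1 {ℓ : ℕ} (hℓ : ℓ.Prime) (A : ValuationSubring Qb) (hA : A.LiesOverPrime ℓ) :
    Submodule (ZMod P.p) (FreyV P) :=
  AddSubgroup.toZModSubmodule P.p
    { carrier := {z | InE1 A.valuation (z : (P.freyCurve⁄Qb).Point)}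
      zero_mem' := inE1_zero _
      add_mem' := fun {a b} ha hb => by
        obtain ⟨h2, h4, h6, h8⟩ := frey_integral_b P hℓ A hA
        exact inE1_add _ h2 h4 h6 h8 ha hb
      neg_mem' := fun {a} ha => inE1_neg _ ha }

lemma mem_D1 {ℓ : ℕ} (hℓ : ℓ.Prime) (A : ValuationSubring Qb) (hA : A.LiesOverPrime ℓ)
    (z : FreyV P) : z ∈ D1 P hℓ A hA ↔ InE1 A.valuation (z : (P.freyCurve⁄Qb).Point) :=
  Iff.rfl

lemma nsmul_eq_zero (z : FreyV P) : P.p • (z : (P.freyCurve⁄Qb).Point) = 0 := by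
  have hx := z.2
  rw [Submodule.mem_torsionBy_iff] at hx
  rw [← hx]; exact (natCast_zsmul _ _).symm

lemma sq_mem_D1 {ℓ : ℕ} (hℓ : ℓ.Prime) (A : ValuationSubring Qb) (hA : A.LiesOverPrime ℓ)
    (σ : GQ) (hσ : σ ∈ A.inertiaSubgroupIn ℚ) (z : FreyV P) :
    galLin P σ (galLin P σ z - z) - (galLin P σ z - z) ∈ D1 P hℓ A hA :=
  frey_inertia_sq P hℓ A hA σ hσ z (nsmul_eq_zero P z)

lemma D1_eq_bot {ℓ : ℕ} (hℓ : ℓ.Prime) (hℓp : ℓ ≠ P.p) (A : ValuationSubring Qb)
    (hA : A.LiesOverPrime ℓ) : D1 P hℓ A hA = ⊥ := by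
  rw [eq_bot_iff]
  intro z hz
  rw [mem_D1] at hz
  rw [Submodule.mem_bot]
  rcases hz with hz | hz
  · exact Subtype.ext hz
  · exfalso
    obtain ⟨h2, h4, h6, h8⟩ := frey_integral_b P hℓ A hA
    have hp : A.valuation ((P.p : ℕ) : Qb) = 1 := by
      have h1 := val_int A hℓ hA (P.p : ℤ)
      have h3 : ¬ (ℓ : ℤ) ∣ (P.p : ℤ) := by
        intro h
        have : ℓ ∣ P.p := by exact_mod_cast h
        exact hℓp ((Nat.prime_dvd_prime_iff_eq hℓ P.pp).mp this)
      have h4 : A.valuation (((P.p : ℤ) : Qb)) = 1 :=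
        le_antisymm h1.1 (not_lt.mp (fun h => h3 (h1.2.mp h)))
      simpa using h4
    exact absurd (T1 A.valuation h2 h4 h6 h8 P.p hp _ (nsmul_eq_zero P z)) (not_le.mpr hz)

variable {P}

/-- the subgroup acting trivially on `N` -/
def H1 (N : Submodule (ZMod P.p) (FreyV P)) (_hN : IsGaloisStable ℚ N) : Subgroup GQ where
  carrier := {σ | ∀ x ∈ N, σ • x = x}
  one_mem' := fun x _ => one_smul _ x
  mul_mem' := fun {a b} ha hb x hx => by rw [mul_smul, hb x hx, ha x hx]
  inv_mem' := fun {a} ha x hx => by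
    rw [inv_smul_eq_iff]; exact (ha x hx).symm

/-- the subgroup acting trivially on `V/N` -/
def H2 (N : Submodule (ZMod P.p) (FreyV P)) (hN : IsGaloisStable ℚ N) : Subgroup GQ where
  carrier := {σ | ∀ x, σ • x - x ∈ N}
  one_mem' := fun x => by rw [one_smul, sub_self]; exact N.zero_mem
  mul_mem' := fun {a b} ha hb x => by
    have : (a * b) • x - x = a • (b • x - x) + (a • x - x) := by
      rw [mul_smul, smul_sub]; abel
    rw [this]
    exact N.add_mem (hN a _ (hb x)) (ha x)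
  inv_mem' := fun {a} ha x => by
    have : a⁻¹ • x - x = - (a⁻¹ • (a • x - x)) := by
      rw [smul_sub, inv_smul_smul]; abel
    rw [this]
    exact N.neg_mem (hN _ _ (ha x))

instance H1_normal (N : Submodule (ZMod P.p) (FreyV P)) (hN : IsGaloisStable ℚ N) :
    (H1 N hN).Normal where
  conj_mem := fun a ha g x hx => by
    have h1 : g⁻¹ • x ∈ N := hN _ _ hx
    rw [mul_smul, mul_smul, ha _ h1, smul_inv_smul]

instance H2_normal (N : Submodule (ZMod P.p) (FreyV P)) (hN : IsGaloisStable ℚ N) :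
    (H2 N hN).Normal where
  conj_mem := fun a ha g x => by
    have : (g * a * g⁻¹) • x - x = g • (a • (g⁻¹ • x) - g⁻¹ • x) := by
      rw [mul_smul, mul_smul, smul_sub, smul_inv_smul]
    rw [this]
    exact hN _ _ (ha _)

variable (P)

theorem main
    (hred : ¬ GaloisRepIsIrreducible (K := AlgebraicClosure ℚ) ℚ P.freyCurve P.p) :
    HasGaloisStableCofixedLine (K := AlgebraicClosure ℚ) ℚ P.freyCurve P.p := by
  have hnt : Nontrivial (FreyV P) := freyV_nontrivial P
  have : Fact P.p.Prime := ⟨P.pp⟩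
  have hfin : Finite (FreyV P) := freyV_finite P
  obtain ⟨N, hN, hbot, htop⟩ : ∃ N : Submodule (ZMod P.p) (FreyV P),
      IsGaloisStable ℚ N ∧ N ≠ ⊥ ∧ N ≠ ⊤ := by
    by_contra hcon
    apply hred
    refine ⟨hnt, fun N hN => ?_⟩
    by_contra h
    rw [not_or] at h
    exact hcon ⟨N, hN, h.1, h.2⟩
  have hfd : FiniteDimensional (ZMod P.p) (FreyV P) := Module.Finite.of_finite
  have hrank : Module.finrank (ZMod P.p) (FreyV P) ≤ 2 := by
    have hc := Module.natCard_eq_pow_finrank (K := ZMod P.p) (V := FreyV P)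
    rw [Nat.card_zmod] at hc
    have h2 := freyV_card_le P
    rw [hc] at h2
    exact (Nat.pow_le_pow_iff_right P.pp.one_lt).1 h2
  obtain ⟨F₀, hF₀, hfix⟩ := frey_finite_level P
  obtain ⟨Ap, hAp⟩ := exists_valuationSubring_liesOver P.p P.pp
  have hDtop : D1 P P.pp Ap hAp ≠ ⊤ := by
    obtain ⟨z, hz⟩ := freyV_exists_not_inE1 P Ap hAp N hN hbot htop
    intro h
    have hz' : z ∈ D1 P P.pp Ap hAp := by rw [h]; trivial
    rw [mem_D1] at hz'
    apply hz
    rcases hz' with h0 | h1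
    · exact Or.inl h0
    · right
      intro hmem
      exact absurd ((Ap.valuation_le_one_iff _).mpr hmem) (not_le.mpr h1)
  rcases LA_dichotomy hrank N (D1 P P.pp Ap hAp) hDtop with hcase | hcase
  · -- `H1 = ⊤`, contradiction
    exfalso
    have htopH : H1 N hN = ⊤ := by
      apply subgroup_eq_top_of_inertia (H1 N hN) F₀
      · intro σ hσ x _
        exact hfix σ hσ x
      · intro ℓ hℓ
        by_cases hℓp : ℓ = P.p
        · subst hℓp
          refine ⟨Ap, hAp, fun σ hσ => ?_⟩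
          exact LA_sub hrank N _ htop (galLin P σ) (fun x hx => hN σ x hx)
            (sq_mem_D1 P P.pp Ap hAp σ hσ) hcase
        · obtain ⟨A, hA⟩ := exists_valuationSubring_liesOver ℓ hℓ
          refine ⟨A, hA, fun σ hσ => ?_⟩
          exact LA_sub hrank N _ htop (galLin P σ) (fun x hx => hN σ x hx)
            (sq_mem_D1 P hℓ A hA σ hσ) (by rw [D1_eq_bot P hℓ hℓp A hA, inf_bot_eq])
    obtain ⟨x, hxN, hx0⟩ := (Submodule.ne_bot_iff N).mp hbot
    refine no_rational_torsion P (x : (P.freyCurve⁄Qb).Point) (nsmul_eq_zero P x)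
      (fun h => hx0 (Subtype.ext h)) (fun σ => ?_)
    have : σ ∈ H1 N hN := by rw [htopH]; trivial
    exact congrArg Subtype.val (this x hxN)
  · have htopH : H2 N hN = ⊤ := by
      apply subgroup_eq_top_of_inertia (H2 N hN) F₀
      · intro σ hσ x
        rw [hfix σ hσ x, sub_self]; exact N.zero_mem
      · intro ℓ hℓ
        by_cases hℓp : ℓ = P.p
        · subst hℓp
          refine ⟨Ap, hAp, fun σ hσ => ?_⟩
          exact LA_quot hrank N _ hbot (galLin P σ) (fun x hx => hN σ x hx)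
            (sq_mem_D1 P P.pp Ap hAp σ hσ) hcase
        · obtain ⟨A, hA⟩ := exists_valuationSubring_liesOver ℓ hℓ
          refine ⟨A, hA, fun σ hσ => ?_⟩
          exact LA_quot hrank N _ hbot (galLin P σ) (fun x hx => hN σ x hx)
            (sq_mem_D1 P hℓ A hA σ hσ) (by rw [D1_eq_bot P hℓ hℓp A hA]; exact bot_le)
    refine ⟨N, hN, hbot, htop, fun σ x => ?_⟩
    have : σ ∈ H2 N hN := by rw [htopH]; trivial
    exact this x

end Fermat.Agent.S13.Loc
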