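import Mathlib
import Fermat.Agent.S05.Formulas

/-!
# Multiplication by `n` on `x`-coordinates, without division polynomials

For a Weierstrass curve `W` with `Δ ≠ 0` over an algebraically closed field we construct
polynomials `mulA W n`, `mulB W n` with `x (n • P) = mulA (x P) / mulB (x P)`.
-/

set_option autoImplicit false

namespace Fermat.Agent.S13

open Polynomial WeierstrassCurve WeierstrassCurve.Affine
open Fermat.Agent.S05 (xc yc F0 F1 D2)

section forms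

variable {R : Type*} [CommRing R]

/-- homogeneous numerator of `x(Q+P) x(Q-P)`, `x(Q) = (a : b)`, `x(P) = x`. -/
def SSf (b₄ b₆ b₈ a b x : R) : R :=
  (a * x) ^ 2 - b₄ * (a * x) * b - b₆ * (a + x * b) * b - b₈ * b ^ 2

/-- homogeneous numerator of `x(Q+P) + x(Q-P)`, `x(Q) = (a : b)`, `x(P) = x`. -/
def TTf (b₂ b₄ b₆ a b x : R) : R :=
  2 * (a + x * b) * (a * x) + b₂ * (a * x) * b + b₄ * (a + x * b) * b + b₆ * b ^ 2

end forms

variable {K : Type*} [Field K] {W : Affine K}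

/-- `(a : b)` is the `x`-coordinate of `Q` in `ℙ¹`. -/
def Rep (Q : W.Point) (a b : K) : Prop :=
  (Q = 0 ∧ b = 0 ∧ a ≠ 0) ∨ (Q ≠ 0 ∧ b ≠ 0 ∧ a = xc Q * b)

lemma Rep.ne_zero {Q : W.Point} {a b : K} (h : Rep Q a b) : a ≠ 0 ∨ b ≠ 0 := by
  rcases h with ⟨-, -, h⟩ | ⟨-, h, -⟩
  · exact Or.inl h
  · exact Or.inr h

lemma Rep.smul {Q : W.Point} {a b : K} (h : Rep Q a b) {μ : K} (hμ : μ ≠ 0) :
    Rep Q (μ * a) (μ * b) := by
  rcases h with ⟨h1, h2, h3⟩ | ⟨h1, h2, h3⟩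
  · exact Or.inl ⟨h1, by rw [h2, mul_zero], mul_ne_zero hμ h3⟩
  · exact Or.inr ⟨h1, mul_ne_zero hμ h2, by rw [h3]; ring⟩

lemma Rep.prop {Q : W.Point} {a b c d : K} (h : Rep Q a b) (h' : Rep Q c d) :
    ∃ μ : K, μ ≠ 0 ∧ a = μ * c ∧ b = μ * d := by
  rcases h with ⟨h1, h2, h3⟩ | ⟨h1, h2, h3⟩ <;> rcases h' with ⟨g1, g2, g3⟩ | ⟨g1, g2, g3⟩
  · exact ⟨a / c, div_ne_zero h3 g3, by field_simp, by rw [h2, g2, mul_zero]⟩
  · exact absurd h1 g1
  · exact absurd g1 h1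
  · refine ⟨b / d, div_ne_zero h2 g2, ?_, by field_simp⟩
    rw [h3, g3]; field_simp

lemma Rep.eq_zero_iff {Q : W.Point} {a b : K} (h : Rep Q a b) : Q = 0 ↔ b = 0 := by
  rcases h with ⟨h1, h2, h3⟩ | ⟨h1, h2, h3⟩
  · simp [h1, h2]
  · simp [h1, h2]

lemma Rep.xc_mul {Q : W.Point} {a b : K} (h : Rep Q a b) (hQ : Q ≠ 0) : xc Q * b = a := by
  rcases h with ⟨h1, h2, h3⟩ | ⟨h1, h2, h3⟩
  · exact absurd h1 hQ
  · exact h3.symm

lemma rep_zero : Rep (0 : W.Point) 1 0 := Or.inl ⟨rfl, rfl, one_ne_zero⟩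

lemma rep_self {P : W.Point} (hP : P ≠ 0) : Rep P (xc P) 1 :=
  Or.inr ⟨hP, one_ne_zero, by ring⟩

/-- Bezout identity for the duplication map. -/
lemma bezout_dbl (W : Affine K) (x : K) :
    (-48 * x ^ 2 - 8 * W.b₂ * x + W.b₂ ^ 2 - 32 * W.b₄) * F0 W x x
      + (12 * x ^ 3 - W.b₂ * x ^ 2 - 10 * W.b₄ * x + W.b₂ * W.b₄ - 27 * W.b₆) * D2 W x = W.Δ := by
  simp only [F0, D2, WeierstrassCurve.Δ, WeierstrassCurve.b₂, WeierstrassCurve.b₄,
    WeierstrassCurve.b₆, WeierstrassCurve.b₈]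
  ring

lemma F0_ne_zero_of_D2 (hΔ : W.Δ ≠ 0) {x : K} (h : D2 W x = 0) : F0 W x x ≠ 0 := by
  intro h0
  apply hΔ
  rw [← bezout_dbl W x, h, h0]
  ring

lemma SSf_eq (q b x : K) :
    SSf W.b₄ W.b₆ W.b₈ (q * b) b x = b ^ 2 * F0 W q x := by
  simp only [SSf, F0]; ring

lemma TTf_eq (q b x : K) :
    TTf W.b₂ W.b₄ W.b₆ (q * b) b x = b ^ 2 * F1 W q x := by
  simp only [TTf, F1]; ring

lemma F1_self (x : K) : F1 W x x = D2 W x := by
  simp only [F1, D2]; ring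

variable [DecidableEq K]

/-- auxiliary: representation of `P + P`. -/
lemma rep_dbl (hΔ : W.Δ ≠ 0) {P : W.Point} (hP : P ≠ 0) :
    Rep (P + P) (F0 W (xc P) (xc P)) (D2 W (xc P)) := by
  by_cases h2 : P + P = 0
  · have hy := S05.yc_eq_zero_of_add_self h2
    have hD : D2 W (xc P) = 0 := by rw [← S05.yc_sq P hP, hy]; ring
    exact Or.inl ⟨h2, hD, F0_ne_zero_of_D2 hΔ hD⟩
  · have hy : yc P ≠ 0 := fun h => h2 (S05.add_self_eq_zero_of_yc h)
    have hD : D2 W (xc P) ≠ 0 := by rw [← S05.yc_sq P hP]; exact pow_ne_zero 2 hy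
    exact Or.inr ⟨h2, hD, (S05.xc_add_self h2).symm⟩

/-- The geometric fact: the add/sub map on `x`-coordinates. -/
lemma rep_add_sub (hΔ : W.Δ ≠ 0) {P Q : W.Point} (hP : P ≠ 0) {a b : K} (h : Rep Q a b) :
    ∃ a₁ b₁ a₂ b₂ : K, Rep (Q + P) a₁ b₁ ∧ Rep (Q - P) a₂ b₂ ∧
      SSf W.b₄ W.b₆ W.b₈ a b (xc P) = a₁ * a₂ ∧
      TTf W.b₂ W.b₄ W.b₆ a b (xc P) = a₁ * b₂ + a₂ * b₁ ∧
      (a - xc P * b) ^ 2 = b₁ * b₂ := by
  rcases h with ⟨h1, h2, h3⟩ | ⟨h1, h2, h3⟩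
  · subst h1 h2
    refine ⟨a * xc P, a, a * xc P, a, ?_, ?_, ?_, ?_, ?_⟩
    · rw [zero_add]; exact Or.inr ⟨hP, h3, by ring⟩
    · rw [zero_sub]; exact Or.inr ⟨neg_ne_zero.mpr hP, h3, by rw [S05.xc_neg]; ring⟩
    · simp only [SSf]; ring
    · simp only [TTf]; ring
    · ring
  · subst h3
    by_cases hx : xc Q = xc P
    · rcases S05.eq_or_eq_neg_of_xc_eq h1 hP hx with rfl | rfl
      · refine ⟨b ^ 2 * F0 W (xc Q) (xc Q), b ^ 2 * D2 W (xc Q), 1, 0,
          (rep_dbl hΔ hP).smul (pow_ne_zero 2 h2), ?_, ?_, ?_, ?_⟩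
        · rw [sub_self]; exact rep_zero
        · rw [SSf_eq]; ring
        · rw [TTf_eq, F1_self]; ring
        · ring
      · refine ⟨1, 0, b ^ 2 * F0 W (xc P) (xc P), b ^ 2 * D2 W (xc P), ?_, ?_, ?_, ?_, ?_⟩
        · rw [neg_add_cancel]; exact rep_zero
        · have := (rep_dbl hΔ (neg_ne_zero.mpr hP)).smul (pow_ne_zero 2 h2)
          rw [S05.xc_neg] at this
          rwa [sub_eq_add_neg]
        · rw [S05.xc_neg, SSf_eq]; ring
        · rw [S05.xc_neg, TTf_eq, F1_self]; ring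
        · rw [S05.xc_neg]; ring
    · have hd : xc Q - xc P ≠ 0 := sub_ne_zero.mpr hx
      have hadd : Q + P ≠ 0 := by
        intro h0
        apply hx
        rw [eq_neg_of_add_eq_zero_left h0, S05.xc_neg]
      have hsub : Q - P ≠ 0 := by
        intro h0
        apply hx
        rw [sub_eq_zero.mp h0]
      have e1 := S05.xc_add_add_xc_sub h1 hP hx
      have e2 := S05.xc_add_mul_xc_sub h1 hP hx
      refine ⟨xc (Q + P) * (b * (xc Q - xc P)), b * (xc Q - xc P),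
        xc (Q - P) * (b * (xc Q - xc P)), b * (xc Q - xc P),
        Or.inr ⟨hadd, mul_ne_zero h2 hd, rfl⟩, Or.inr ⟨hsub, mul_ne_zero h2 hd, rfl⟩, ?_, ?_, ?_⟩
      · rw [SSf_eq, ← e2]; ring
      · rw [TTf_eq, ← e1]; ring
      · ring

omit [DecidableEq K] in
/-- every `x` is the `x`-coordinate of a nonzero point -/
lemma exists_point_xc [IsAlgClosed K] (hΔ : W.Δ ≠ 0) (x : K) : ∃ P : W.Point, P ≠ 0 ∧ xc P = x := by
  let p : K[X] := X ^ 2 + C (W.a₁ * x + W.a₃) * X - C (x ^ 3 + W.a₂ * x ^ 2 + W.a₄ * x + W.a₆)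
  have hdeg : p.degree ≠ 0 := by
    have : p.degree = 2 := by
      simp only [p]
      compute_degree!
    rw [this]
    norm_num
  obtain ⟨y, hy⟩ := IsAlgClosed.exists_root p hdeg
  have hns : W.Nonsingular x y := by
    refine (W.equation_iff_nonsingular_of_Δ_ne_zero hΔ).mp ?_
    rw [Affine.equation_iff]
    simp only [p, IsRoot.def, eval_sub, eval_add, eval_pow, eval_X, eval_mul, eval_C] at hy
    linear_combination hy
  exact ⟨Point.some x y hns, Point.some_ne_zero hns, rfl⟩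

section seq

variable (W)

/-- polynomial version of `SSf` -/
noncomputable def polS (A B : K[X]) : K[X] := SSf (C W.b₄) (C W.b₆) (C W.b₈) A B X

/-- polynomial version of `TTf` -/
noncomputable def polT (A B : K[X]) : K[X] := TTf (C W.b₂) (C W.b₄) (C W.b₆) A B X

omit [DecidableEq K] in
lemma eval_polS (A B : K[X]) (x : K) :
    (polS W A B).eval x = SSf W.b₄ W.b₆ W.b₈ (A.eval x) (B.eval x) x := by
  simp [polS, SSf]

omit [DecidableEq K] in
lemma eval_polT (A B : K[X]) (x : K) :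
    (polT W A B).eval x = TTf W.b₂ W.b₄ W.b₆ (A.eval x) (B.eval x) x := by
  simp [polT, TTf]

variable {W}

/-- The induction step. -/
lemma step [IsAlgClosed K] (hΔ : W.Δ ≠ 0) (A0 B0 A1 B1 : K[X]) (n : ℕ) (hA0 : A0 ≠ 0)
    (h0 : ∀ P : W.Point, P ≠ 0 → Rep (n • P) (A0.eval (xc P)) (B0.eval (xc P)))
    (h1 : ∀ P : W.Point, P ≠ 0 → Rep ((n + 1) • P) (A1.eval (xc P)) (B1.eval (xc P)))
    (A2 B2 : K[X]) (hA2 : A2 = polS W A1 B1 / A0) (hB2 : B2 = (polT W A1 B1 - A2 * B0) / A0) :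
    A2 * A0 = polS W A1 B1 ∧ A2 * B0 + B2 * A0 = polT W A1 B1 ∧ B2 * B0 = (A1 - X * B1) ^ 2 ∧
    ∀ P : W.Point, P ≠ 0 → Rep ((n + 2) • P) (A2.eval (xc P)) (B2.eval (xc P)) := by
  have hinf : Infinite K := IsAlgClosed.instInfinite
  -- coprimality
  have hcop : IsCoprime A0 B0 := by
    refine (isCoprime_iff_aeval_ne_zero_of_isAlgClosed (k := K) K A0 B0).mpr ?_
    intro x
    obtain ⟨P, hP, rfl⟩ := exists_point_xc hΔ x
    simpa using (h0 P hP).ne_zero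
  -- the geometric input at each point
  have key : ∀ P : W.Point, P ≠ 0 → ∃ a₁ b₁ : K, Rep ((n + 2) • P) a₁ b₁ ∧
      (polS W A1 B1).eval (xc P) = a₁ * A0.eval (xc P) ∧
      (polT W A1 B1).eval (xc P) = a₁ * B0.eval (xc P) + A0.eval (xc P) * b₁ ∧
      (A1.eval (xc P) - xc P * B1.eval (xc P)) ^ 2 = b₁ * B0.eval (xc P) := by
    intro P hP
    obtain ⟨a₁, b₁, a₂, b₂, r1, r2, e1, e2, e3⟩ := rep_add_sub hΔ hP (h1 P hP)
    have hs : (n + 1) • P - P = n • P := by rw [add_smul, one_smul, add_sub_cancel_right]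
    have ha : (n + 1) • P + P = (n + 2) • P := by
      rw [add_smul, add_smul, one_smul, two_smul, add_assoc]
    rw [hs] at r2
    rw [ha] at r1
    obtain ⟨μ, hμ, rfl, rfl⟩ := r2.prop (h0 P hP)
    refine ⟨μ * a₁, μ * b₁, r1.smul hμ, ?_, ?_, ?_⟩
    · rw [eval_polS, e1]; ring
    · rw [eval_polT, e2]; ring
    · rw [e3]; ring
  -- the root identity
  have hroot : (A1 - X * B1) ^ 2 * A0 ^ 2 - polT W A1 B1 * A0 * B0 + polS W A1 B1 * B0 ^ 2 = 0 := by
    apply Polynomial.funext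
    intro x
    obtain ⟨P, hP, rfl⟩ := exists_point_xc hΔ x
    obtain ⟨a₁, b₁, -, e1, e2, e3⟩ := key P hP
    simp only [eval_add, eval_sub, eval_mul, eval_pow, eval_X, eval_zero, e1, e2, e3]
    ring
  -- exact divisions
  have hd1 : A0 ∣ polS W A1 B1 := by
    have : A0 ∣ polS W A1 B1 * B0 ^ 2 := by
      refine ⟨polT W A1 B1 * B0 - (A1 - X * B1) ^ 2 * A0, ?_⟩
      linear_combination hroot
    exact (hcop.pow_right).dvd_of_dvd_mul_right this
  have i1 : A2 * A0 = polS W A1 B1 := by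
    rw [hA2, mul_comm]; exact EuclideanDomain.mul_div_cancel' hA0 hd1
  have hroot2 : (A1 - X * B1) ^ 2 * A0 = (polT W A1 B1 - A2 * B0) * B0 := by
    apply mul_right_cancel₀ hA0
    rw [← i1] at hroot
    linear_combination hroot
  have hd2 : A0 ∣ polT W A1 B1 - A2 * B0 := by
    have : A0 ∣ (polT W A1 B1 - A2 * B0) * B0 := ⟨(A1 - X * B1) ^ 2, by rw [← hroot2]; ring⟩
    exact hcop.dvd_of_dvd_mul_right this
  have i2' : B2 * A0 = polT W A1 B1 - A2 * B0 := by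
    rw [hB2, mul_comm]; exact EuclideanDomain.mul_div_cancel' hA0 hd2
  have i3 : B2 * B0 = (A1 - X * B1) ^ 2 := by
    apply mul_right_cancel₀ hA0
    rw [hroot2, ← i2']; ring
  refine ⟨i1, by rw [i2']; ring, i3, ?_⟩
  intro P hP
  obtain ⟨a₁, b₁, r, e1, e2, e3⟩ := key P hP
  have j1 := congrArg (eval (xc P)) i1
  have j2 := congrArg (eval (xc P)) i2'
  have j3 := congrArg (eval (xc P)) i3
  simp only [eval_sub, eval_mul, eval_pow, eval_X] at j1 j2 j3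
  rw [e1] at j1
  rw [e2] at j2
  rw [e3] at j3
  set c := A0.eval (xc P)
  set d := B0.eval (xc P)
  set a' := A2.eval (xc P)
  set b' := B2.eval (xc P)
  have k1 : (a' - a₁) * c = 0 := by linear_combination j1
  have k2 : (a' - a₁) * d + (b' - b₁) * c = 0 := by linear_combination j2
  have k3 : (b' - b₁) * d = 0 := by linear_combination j3
  have hab : a' = a₁ ∧ b' = b₁ := by
    rcases (h0 P hP).ne_zero with hc | hd
    · have ha : a' - a₁ = 0 := (mul_eq_zero.mp k1).resolve_right hc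
      rw [ha, zero_mul, zero_add] at k2
      exact ⟨sub_eq_zero.mp ha, sub_eq_zero.mp ((mul_eq_zero.mp k2).resolve_right hc)⟩
    · have hb : b' - b₁ = 0 := (mul_eq_zero.mp k3).resolve_right hd
      rw [hb, zero_mul, add_zero] at k2
      exact ⟨sub_eq_zero.mp ((mul_eq_zero.mp k2).resolve_right hd), sub_eq_zero.mp hb⟩
  rw [hab.1, hab.2]
  exact r

end seq

section degrees

omit [DecidableEq K]

/-- degree invariants of a pair `(A, B)` -/
def Inv (A B : K[X]) (m : ℕ) (β : K) : Prop :=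
  A.Monic ∧ A.natDegree = m ∧ (X * B).natDegree ≤ m ∧ (X * B).coeff m = β

lemma natDegree_le_of_X_mul {B : K[X]} {m : ℕ} (h : (X * B).natDegree ≤ m) : B.natDegree ≤ m := by
  by_cases hB : B = 0
  · simp [hB]
  · rw [natDegree_X_mul hB] at h; omega

lemma step_deg (W : Affine K) (A0 B0 A1 B1 A2 B2 : K[X]) (m0 m1 : ℕ) (β0 β1 : K)
    (h0 : Inv A0 B0 m0 β0) (h1 : Inv A1 B1 m1 β1) (hm : m0 ≤ 2 * m1 + 2)
    (i1 : A2 * A0 = polS W A1 B1) (i2 : A2 * B0 + B2 * A0 = polT W A1 B1) :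
    Inv A2 B2 (2 * m1 + 2 - m0) (2 * (1 + β1) - β0) := by
  obtain ⟨hA0, dA0, dB0, cB0⟩ := h0
  obtain ⟨hA1, dA1, dB1, cB1⟩ := h1
  have dB1' := natDegree_le_of_X_mul dB1
  have dA1' : A1.natDegree ≤ m1 := dA1.le
  have cA1 : A1.coeff m1 = 1 := by rw [← dA1]; exact hA1.coeff_natDegree
  have cA0 : A0.coeff m0 = 1 := by rw [← dA0]; exact hA0.coeff_natDegree
  set Y1 := X * B1 with hY1
  have dAX : (A1 * X).natDegree ≤ m1 + 1 := natDegree_mul_le_of_le dA1' natDegree_X_le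
  have cAX : (A1 * X).coeff (m1 + 1) = 1 := by rw [coeff_mul_X, cA1]
  have dAY : (A1 + Y1).natDegree ≤ m1 := natDegree_add_le_of_degree_le dA1' dB1
  -- the polynomial `S`
  have hS : polS W A1 B1 = (A1 * X) ^ 2 -
      (C W.b₄ * (A1 * Y1) + C W.b₆ * ((A1 + Y1) * B1) + C W.b₈ * B1 ^ 2) := by
    simp only [polS, SSf, hY1]; ring
  have dr : (C W.b₄ * (A1 * Y1) + C W.b₆ * ((A1 + Y1) * B1) + C W.b₈ * B1 ^ 2).natDegree
      ≤ 2 * m1 := by
    refine natDegree_add_le_of_degree_le (natDegree_add_le_of_degree_le ?_ ?_) ?_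
    · exact (natDegree_C_mul_le _ _).trans
        ((natDegree_mul_le_of_le dA1' dB1).trans (by omega))
    · exact (natDegree_C_mul_le _ _).trans
        ((natDegree_mul_le_of_le dAY dB1').trans (by omega))
    · exact (natDegree_C_mul_le _ _).trans (natDegree_pow_le_of_le 2 dB1')
  have dS : (polS W A1 B1).natDegree ≤ 2 * m1 + 2 := by
    rw [hS]
    refine (natDegree_sub_le _ _).trans (max_le ((natDegree_pow_le_of_le 2 dAX).trans (by omega))
      (dr.trans (by omega)))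
  have cS : (polS W A1 B1).coeff (2 * m1 + 2) = 1 := by
    rw [hS, coeff_sub, coeff_eq_zero_of_natDegree_lt (lt_of_le_of_lt dr (by omega)), sub_zero]
    have : 2 * m1 + 2 = 2 * (m1 + 1) := by ring
    rw [this, coeff_pow_of_natDegree_le dAX, cAX, one_pow]
  have mS : (polS W A1 B1).Monic := monic_of_natDegree_le_of_coeff_eq_one _ dS cS
  have nS : (polS W A1 B1).natDegree = 2 * m1 + 2 :=
    natDegree_eq_of_le_of_coeff_ne_zero dS (by rw [cS]; exact one_ne_zero)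
  have hA2 : A2.Monic := hA0.of_mul_monic_right (by rw [i1]; exact mS)
  have dA2 : A2.natDegree = 2 * m1 + 2 - m0 := by
    have := hA2.natDegree_mul hA0
    rw [i1, nS, dA0] at this
    omega
  have cA2 : A2.coeff (2 * m1 + 2 - m0) = 1 := by rw [← dA2]; exact hA2.coeff_natDegree
  -- the polynomial `T`
  have hT : polT W A1 B1 = C 2 * ((A1 + Y1) * (A1 * X)) +
      (C W.b₂ * (A1 * Y1) + C W.b₄ * ((A1 + Y1) * B1) + C W.b₆ * B1 ^ 2) := by
    simp only [polT, TTf, hY1, map_ofNat]; ring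
  have dr' : (C W.b₂ * (A1 * Y1) + C W.b₄ * ((A1 + Y1) * B1) + C W.b₆ * B1 ^ 2).natDegree
      ≤ 2 * m1 := by
    refine natDegree_add_le_of_degree_le (natDegree_add_le_of_degree_le ?_ ?_) ?_
    · exact (natDegree_C_mul_le _ _).trans
        ((natDegree_mul_le_of_le dA1' dB1).trans (by omega))
    · exact (natDegree_C_mul_le _ _).trans
        ((natDegree_mul_le_of_le dAY dB1').trans (by omega))
    · exact (natDegree_C_mul_le _ _).trans (natDegree_pow_le_of_le 2 dB1')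
  have dT : (polT W A1 B1).natDegree ≤ 2 * m1 + 1 := by
    rw [hT]
    refine natDegree_add_le_of_degree_le ?_ (dr'.trans (by omega))
    exact (natDegree_C_mul_le _ _).trans ((natDegree_mul_le_of_le dAY dAX).trans (by omega))
  have cT : (polT W A1 B1).coeff (2 * m1 + 1) = 2 * (1 + β1) := by
    rw [hT, coeff_add, coeff_eq_zero_of_natDegree_lt (lt_of_le_of_lt dr' (by omega)), add_zero,
      coeff_C_mul]
    have : 2 * m1 + 1 = m1 + (m1 + 1) := by ring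
    rw [this, coeff_mul_add_eq_of_natDegree_le dAY dAX, cAX, coeff_add, cA1, cB1, mul_one]
  -- the key identity
  have key : (X * B2) * A0 = X * polT W A1 B1 - A2 * (X * B0) := by
    rw [← i2]; ring
  have hsum : 2 * m1 + 2 - m0 + m0 = 2 * m1 + 2 := by omega
  have dR : (X * polT W A1 B1 - A2 * (X * B0)).natDegree ≤ 2 * m1 + 2 := by
    refine (natDegree_sub_le _ _).trans (max_le ?_ ?_)
    · exact (natDegree_mul_le_of_le natDegree_X_le dT).trans (by omega)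
    · exact (natDegree_mul_le_of_le dA2.le dB0).trans (by omega)
  have dB2 : (X * B2).natDegree ≤ 2 * m1 + 2 - m0 := by
    by_cases hz : X * B2 = 0
    · rw [hz]; simp
    · have := natDegree_mul hz hA0.ne_zero
      rw [key, dA0] at this
      omega
  refine ⟨hA2, dA2, dB2, ?_⟩
  have c1 := coeff_mul_add_eq_of_natDegree_le dB2 dA0.le
  rw [key, hsum, cA0, mul_one, coeff_sub] at c1
  have c2 := coeff_mul_add_eq_of_natDegree_le dA2.le dB0
  rw [hsum, cA2, cB0, one_mul] at c2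
  rw [← c1, c2]
  have : 2 * m1 + 2 = (2 * m1 + 1) + 1 := by ring
  rw [this, coeff_X_mul, cT]

end degrees

section final

variable (W)

/-- the sequence of pairs `((A_n, B_n), (A_{n+1}, B_{n+1}))` -/
noncomputable def mulSeq : ℕ → (K[X] × K[X]) × (K[X] × K[X])
  | 0 => ((1, 0), (X, 1))
  | n + 1 =>
    ((mulSeq n).2, (polS W (mulSeq n).2.1 (mulSeq n).2.2 / (mulSeq n).1.1,
      (polT W (mulSeq n).2.1 (mulSeq n).2.2 -
        polS W (mulSeq n).2.1 (mulSeq n).2.2 / (mulSeq n).1.1 * (mulSeq n).1.2) / (mulSeq n).1.1))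

/-- numerator of `x(nP)` -/
noncomputable def mulA (n : ℕ) : K[X] := (mulSeq W n).1.1

/-- denominator of `x(nP)` -/
noncomputable def mulB (n : ℕ) : K[X] := (mulSeq W n).1.2

omit [DecidableEq K] in
@[simp] lemma mulA_zero : mulA W 0 = 1 := rfl
omit [DecidableEq K] in
@[simp] lemma mulB_zero : mulB W 0 = 0 := rfl
omit [DecidableEq K] in
@[simp] lemma mulA_one : mulA W 1 = X := rfl
omit [DecidableEq K] in
@[simp] lemma mulB_one : mulB W 1 = 1 := rfl

omit [DecidableEq K] in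
lemma mulA_add_two (n : ℕ) :
    mulA W (n + 2) = polS W (mulA W (n + 1)) (mulB W (n + 1)) / mulA W n := rfl

omit [DecidableEq K] in
lemma mulB_add_two (n : ℕ) :
    mulB W (n + 2) =
      (polT W (mulA W (n + 1)) (mulB W (n + 1)) - mulA W (n + 2) * mulB W n) / mulA W n := rfl

variable {W}

/-- all properties, by induction -/
theorem mul_main [IsAlgClosed K] (hΔ : W.Δ ≠ 0) (n : ℕ) :
    Inv (mulA W n) (mulB W n) (n ^ 2) ((n : K) ^ 2) ∧
    Inv (mulA W (n + 1)) (mulB W (n + 1)) ((n + 1) ^ 2) (((n + 1 : ℕ) : K) ^ 2) ∧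
    (∀ P : W.Point, P ≠ 0 → Rep (n • P) ((mulA W n).eval (xc P)) ((mulB W n).eval (xc P))) ∧
    (∀ P : W.Point, P ≠ 0 →
      Rep ((n + 1) • P) ((mulA W (n + 1)).eval (xc P)) ((mulB W (n + 1)).eval (xc P))) := by
  induction n with
  | zero =>
    refine ⟨⟨by simp, by simp, by simp, by simp⟩, ⟨by simp, by simp, by simp, by simp⟩,
      ?_, ?_⟩
    · intro P _
      simpa using rep_zero
    · intro P hP
      simpa using rep_self hP
  | succ n ih =>
    obtain ⟨v0, v1, r0, r1⟩ := ih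
    obtain ⟨i1, i2, -, r2⟩ := step hΔ _ _ _ _ n v0.1.ne_zero r0 r1 _ _
      (mulA_add_two W n) (mulB_add_two W n)
    refine ⟨v1, ?_, r1, r2⟩
    have := step_deg W _ _ _ _ _ _ _ _ _ _ v0 v1 (by nlinarith) i1 i2
    have e1 : 2 * (n + 1) ^ 2 + 2 - n ^ 2 = (n + 1 + 1) ^ 2 := by
      have : 2 * (n + 1) ^ 2 + 2 = (n + 1 + 1) ^ 2 + n ^ 2 := by ring
      omega
    have e2 : 2 * (1 + ((n + 1 : ℕ) : K) ^ 2) - (n : K) ^ 2 = ((n + 1 + 1 : ℕ) : K) ^ 2 := by
      push_cast; ring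
    rwa [e1, e2] at this

theorem mul_ids [IsAlgClosed K] (hΔ : W.Δ ≠ 0) (n : ℕ) :
    mulA W (n + 2) * mulA W n = polS W (mulA W (n + 1)) (mulB W (n + 1)) ∧
    mulA W (n + 2) * mulB W n + mulB W (n + 2) * mulA W n =
      polT W (mulA W (n + 1)) (mulB W (n + 1)) ∧
    mulB W (n + 2) * mulB W n = (mulA W (n + 1) - X * mulB W (n + 1)) ^ 2 := by
  obtain ⟨v0, v1, r0, r1⟩ := mul_main hΔ n
  obtain ⟨i1, i2, i3, -⟩ := step hΔ _ _ _ _ n v0.1.ne_zero r0 r1 _ _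
      (mulA_add_two W n) (mulB_add_two W n)
  exact ⟨i1, i2, i3⟩

theorem rep_nsmul [IsAlgClosed K] (hΔ : W.Δ ≠ 0) (n : ℕ) {P : W.Point} (hP : P ≠ 0) :
    Rep (n • P) ((mulA W n).eval (xc P)) ((mulB W n).eval (xc P)) :=
  (mul_main hΔ n).2.2.1 P hP

theorem nsmul_eq_zero_iff [IsAlgClosed K] (hΔ : W.Δ ≠ 0) (n : ℕ) {P : W.Point} (hP : P ≠ 0) :
    n • P = 0 ↔ (mulB W n).eval (xc P) = 0 :=
  (rep_nsmul hΔ n hP).eq_zero_iff

theorem xc_nsmul [IsAlgClosed K] (hΔ : W.Δ ≠ 0) (n : ℕ) {P : W.Point} (hP : P ≠ 0)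
    (hn : n • P ≠ 0) : xc (n • P) * (mulB W n).eval (xc P) = (mulA W n).eval (xc P) :=
  (rep_nsmul hΔ n hP).xc_mul hn

theorem mulA_monic [IsAlgClosed K] (hΔ : W.Δ ≠ 0) (n : ℕ) : (mulA W n).Monic :=
  (mul_main hΔ n).1.1

theorem natDegree_mulA [IsAlgClosed K] (hΔ : W.Δ ≠ 0) (n : ℕ) : (mulA W n).natDegree = n ^ 2 :=
  (mul_main hΔ n).1.2.1

theorem isCoprime_mulA_mulB [IsAlgClosed K] (hΔ : W.Δ ≠ 0) (n : ℕ) :
    IsCoprime (mulA W n) (mulB W n) := by
  refine (isCoprime_iff_aeval_ne_zero_of_isAlgClosed (k := K) K _ _).mpr ?_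
  intro x
  obtain ⟨P, hP, rfl⟩ := exists_point_xc hΔ x
  simpa using (rep_nsmul hΔ n hP).ne_zero

/-- degree and leading coefficient of `mulB` when `n ≠ 0` in `K`. -/
theorem mulB_deg [IsAlgClosed K] (hΔ : W.Δ ≠ 0) (n : ℕ) (hn : (n : K) ≠ 0) :
    (mulB W n).natDegree = n ^ 2 - 1 ∧ (mulB W n).leadingCoeff = (n : K) ^ 2 := by
  obtain ⟨-, -, d, c⟩ := (mul_main hΔ n).1
  have hn0 : n ≠ 0 := by rintro rfl; simp at hn
  have hpos : 0 < n ^ 2 := by positivity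
  obtain ⟨m, hm⟩ : ∃ m, n ^ 2 = m + 1 := ⟨n ^ 2 - 1, by omega⟩
  rw [hm] at d c
  rw [coeff_X_mul] at c
  have hB : mulB W n ≠ 0 := by
    intro h
    rw [h, coeff_zero] at c
    exact pow_ne_zero 2 hn c.symm
  rw [natDegree_X_mul hB] at d
  have hd : (mulB W n).natDegree = m :=
    natDegree_eq_of_le_of_coeff_ne_zero (by omega) (by rw [c]; exact pow_ne_zero 2 hn)
  refine ⟨by omega, ?_⟩
  rw [leadingCoeff, hd, c]

end final

section psi

theorem mulB_ne_zero [IsAlgClosed K] (hΔ : W.Δ ≠ 0) {n : ℕ} (hn : n ≠ 0) : mulB W n ≠ 0 := by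
  intro h
  have hc := isCoprime_mulA_mulB hΔ n
  rw [h, isCoprime_zero_right] at hc
  have := natDegree_eq_zero_of_isUnit hc
  rw [natDegree_mulA hΔ] at this
  exact hn (by simpa using this)

/-- `mulB` at odd index is a square. -/
theorem mulB_odd_sq [IsAlgClosed K] (hΔ : W.Δ ≠ 0) (k : ℕ) :
    ∃ ψ : K[X], mulB W (2 * k + 1) = ψ ^ 2 := by
  induction k with
  | zero => exact ⟨1, by simp⟩
  | succ k ih =>
    obtain ⟨ψ, hψ⟩ := ih
    have i3 := (mul_ids hΔ (2 * k + 1)).2.2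
    have hψ0 : ψ ≠ 0 := by
      rintro rfl
      exact mulB_ne_zero hΔ (n := 2 * k + 1) (by omega) (by rw [hψ]; simp)
    rw [hψ] at i3
    have hdvd : ψ ^ 2 ∣ (mulA W (2 * k + 1 + 1) - X * mulB W (2 * k + 1 + 1)) ^ 2 :=
      ⟨_, by rw [← i3]; ring⟩
    obtain ⟨D, hD⟩ := (IsIntegrallyClosed.pow_dvd_pow_iff two_ne_zero).mp hdvd
    refine ⟨D, ?_⟩
    have h2 : 2 * (k + 1) + 1 = 2 * k + 1 + 2 := by ring
    rw [h2]
    apply mul_right_cancel₀ (pow_ne_zero 2 hψ0)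
    rw [i3, hD]; ring

/-- values at a `2`-torsion abscissa -/
theorem mul_eval_two_torsion [IsAlgClosed K] (hΔ : W.Δ ≠ 0) {e : K} (he : D2 W e = 0) (k : ℕ) :
    (mulA W (2 * k)).eval e = F0 W e e ^ (k ^ 2) ∧
    (mulB W (2 * k + 1)).eval e = F0 W e e ^ (k ^ 2 + k) := by
  obtain ⟨T, hT, rfl⟩ := exists_point_xc hΔ e
  have hg : F0 W (xc T) (xc T) ≠ 0 := F0_ne_zero_of_D2 hΔ he
  have hy : yc T = 0 := by
    have := S05.yc_sq T hT
    rw [he] at this
    exact pow_eq_zero_iff two_ne_zero |>.mp this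
  have h2T : T + T = 0 := S05.add_self_eq_zero_of_yc hy
  have heven : ∀ j : ℕ, (2 * j) • T = 0 := by
    intro j
    rw [mul_comm, mul_smul, two_smul, h2T, smul_zero]
  have hodd : ∀ j : ℕ, (2 * j + 1) • T = T := by
    intro j
    rw [add_smul, heven, one_smul, zero_add]
  have hb : ∀ j : ℕ, (mulB W (2 * j)).eval (xc T) = 0 := fun j =>
    (nsmul_eq_zero_iff hΔ (2 * j) hT).mp (heven j)
  have ha : ∀ j : ℕ, (mulA W (2 * j + 1)).eval (xc T) = xc T * (mulB W (2 * j + 1)).eval (xc T) := by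
    intro j
    have := xc_nsmul hΔ (2 * j + 1) hT (by rw [hodd]; exact hT)
    rw [hodd] at this
    exact this.symm
  induction k with
  | zero => simp
  | succ k ih =>
    obtain ⟨ih1, ih2⟩ := ih
    have i1 := congrArg (eval (xc T)) (mul_ids hΔ (2 * k)).1
    rw [eval_mul, eval_polS, ha, SSf_eq, ih1, ih2] at i1
    have e1 : (mulA W (2 * (k + 1))).eval (xc T) = F0 W (xc T) (xc T) ^ ((k + 1) ^ 2) := by
      have h2 : 2 * (k + 1) = 2 * k + 2 := by ring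
      rw [h2]
      apply mul_right_cancel₀ (pow_ne_zero (k ^ 2) hg)
      rw [i1, ← pow_mul, ← pow_succ, ← pow_add]
      congr 1
      ring
    refine ⟨e1, ?_⟩
    have i3 := congrArg (eval (xc T)) (mul_ids hΔ (2 * k + 1)).2.2
    have h3 : 2 * k + 1 + 1 = 2 * (k + 1) := by ring
    rw [eval_mul, eval_pow, eval_sub, eval_mul, eval_X, h3, hb, e1, ih2, mul_zero, sub_zero] at i3
    have h2 : 2 * (k + 1) + 1 = 2 * k + 1 + 2 := by ring
    rw [h2]
    apply mul_right_cancel₀ (pow_ne_zero (k ^ 2 + k) hg)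
    rw [i3, ← pow_mul, ← pow_add]
    congr 1
    ring

/-- **Main export**: the "odd division polynomial". -/
theorem exists_psi [IsAlgClosed K] (hΔ : W.Δ ≠ 0) (n : ℕ) (hn : Odd n) (hnK : (n : K) ≠ 0) :
    ∃ ψ : K[X], ψ.natDegree = (n ^ 2 - 1) / 2 ∧ ψ.leadingCoeff ^ 2 = (n : K) ^ 2 ∧
      (∀ P : W.Point, P ≠ 0 → (n • P = 0 ↔ ψ.eval (xc P) = 0)) ∧
      (∀ e : K, D2 W e = 0 → (ψ.eval e) ^ 2 = F0 W e e ^ ((n ^ 2 - 1) / 4)) := by
  obtain ⟨k, rfl⟩ := hn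
  obtain ⟨ψ, hψ⟩ := mulB_odd_sq hΔ k
  obtain ⟨hd, hl⟩ := mulB_deg hΔ (2 * k + 1) hnK
  refine ⟨ψ, ?_, ?_, ?_, ?_⟩
  · rw [hψ, natDegree_pow] at hd
    omega
  · rw [← leadingCoeff_pow, ← hψ, hl]
  · intro P hP
    rw [nsmul_eq_zero_iff hΔ _ hP, hψ, eval_pow]
    exact pow_eq_zero_iff two_ne_zero
  · intro e he
    rw [← eval_pow, ← hψ, (mul_eval_two_torsion hΔ he k).2]
    congr 1
    have : (2 * k + 1) ^ 2 - 1 = 4 * (k ^ 2 + k) := by
      have : (2 * k + 1) ^ 2 = 4 * (k ^ 2 + k) + 1 := by ring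
      omega
    omega

end psi

end Fermat.Agent.S13
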