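import Mathlib
import Fermat.Agent.S05.Formulas

/-!
# S13 / Ladder: division-free "x-only ladder" division polynomials

For a Weierstrass curve `W` over a field `K` with `Δ ≠ 0` we define by binary recursion pairs
of polynomials `(A_n, B_n)` with `x(nP) = A_n(x(P)) / B_n(x(P))`, never both zero,
`nP = 0 ↔ B_n(x(P)) = 0`.
-/

set_option autoImplicit false

namespace Fermat.Agent.S13.Ladder

open WeierstrassCurve WeierstrassCurve.Affine Polynomial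
open Fermat.Agent.S05

section Generic

variable {R : Type*} [CommRing R]

/-- homogeneous numerator of the duplication map -/
def dA (c4 c6 c8 a b : R) : R :=
  a ^ 4 - c4 * (a ^ 2 * b ^ 2) - 2 * (c6 * (a * b ^ 3)) - c8 * b ^ 4
/-- homogeneous denominator of the duplication map -/
def dB (c2 c4 c6 a b : R) : R :=
  b * (4 * a ^ 3 + c2 * (a ^ 2 * b) + 2 * (c4 * (a * b ^ 2)) + c6 * b ^ 3)
/-- homogeneous difference of x-coordinates -/
def oD (a₁ b₁ a₂ b₂ : R) : R := a₁ * b₂ - a₂ * b₁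
/-- homogeneous numerator of `x(P+Q) + x(P-Q)` -/
def oF (c2 c4 c6 a₁ b₁ a₂ b₂ : R) : R :=
  2 * ((a₁ * b₂ + a₂ * b₁) * (a₁ * a₂)) + c2 * ((a₁ * a₂) * (b₁ * b₂))
    + c4 * ((a₁ * b₂ + a₂ * b₁) * (b₁ * b₂)) + c6 * (b₁ * b₂) ^ 2

end Generic

variable {K : Type*} [Field K]

/-- The ladder polynomials `(A_n, B_n)`. -/
noncomputable def lad (W : Affine K) : ℕ → K[X] × K[X]
  | 0 => (1, 0)
  | 1 => (X, 1)
  | (n + 2) =>
    if h : n % 2 = 0 then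
      (dA (C W.b₄) (C W.b₆) (C W.b₈) (lad W (n / 2 + 1)).1 (lad W (n / 2 + 1)).2,
        dB (C W.b₂) (C W.b₄) (C W.b₆) (lad W (n / 2 + 1)).1 (lad W (n / 2 + 1)).2)
    else
      (oF (C W.b₂) (C W.b₄) (C W.b₆) (lad W (n / 2 + 2)).1 (lad W (n / 2 + 2)).2
          (lad W (n / 2 + 1)).1 (lad W (n / 2 + 1)).2
          - X * (oD (lad W (n / 2 + 2)).1 (lad W (n / 2 + 2)).2
          (lad W (n / 2 + 1)).1 (lad W (n / 2 + 1)).2) ^ 2,
        (oD (lad W (n / 2 + 2)).1 (lad W (n / 2 + 2)).2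
          (lad W (n / 2 + 1)).1 (lad W (n / 2 + 1)).2) ^ 2)
  termination_by n => n
  decreasing_by all_goals omega

variable (W : Affine K)

lemma lad_zero : lad W 0 = (1, 0) := by rw [lad]
lemma lad_one : lad W 1 = (X, 1) := by rw [lad]

lemma lad_two_mul (m : ℕ) (hm : 1 ≤ m) : lad W (2 * m) =
    (dA (C W.b₄) (C W.b₆) (C W.b₈) (lad W m).1 (lad W m).2,
        dB (C W.b₂) (C W.b₄) (C W.b₆) (lad W m).1 (lad W m).2) := by
  obtain ⟨k, rfl⟩ : ∃ k, m = k + 1 := ⟨m - 1, by omega⟩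
  have e : 2 * (k + 1) = 2 * k + 2 := by ring
  rw [e, lad]
  have h1 : (2 * k) % 2 = 0 := by omega
  have h2 : (2 * k) / 2 = k := by omega
  simp only [h1, h2, dite_true]

lemma lad_two_mul_add_one (m : ℕ) (hm : 1 ≤ m) : lad W (2 * m + 1) =
    (oF (C W.b₂) (C W.b₄) (C W.b₆) (lad W (m + 1)).1 (lad W (m + 1)).2 (lad W m).1 (lad W m).2
          - X * (oD (lad W (m + 1)).1 (lad W (m + 1)).2 (lad W m).1 (lad W m).2) ^ 2,
        (oD (lad W (m + 1)).1 (lad W (m + 1)).2 (lad W m).1 (lad W m).2) ^ 2) := by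
  obtain ⟨k, rfl⟩ : ∃ k, m = k + 1 := ⟨m - 1, by omega⟩
  have e : 2 * (k + 1) + 1 = (2 * k + 1) + 2 := by ring
  rw [e, lad]
  have h1 : ¬ (2 * k + 1) % 2 = 0 := by omega
  have h2 : (2 * k + 1) / 2 = k := by omega
  simp only [h1, h2, dite_false]


/-! ### Correctness -/

section Correct

variable {W}

/-- `(a : b)` represents the x-coordinate of `Q` projectively. -/
def Rep (Q : W.Point) (a b : K) : Prop :=
  (Q = 0 ∧ b = 0 ∧ a ≠ 0) ∨ (Q ≠ 0 ∧ b ≠ 0 ∧ xc Q * b = a)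

lemma Rep.eq_zero_iff {Q : W.Point} {a b : K} (h : Rep Q a b) : Q = 0 ↔ b = 0 := by
  rcases h with ⟨h1, h2, -⟩ | ⟨h1, h2, -⟩
  · simp [h1, h2]
  · simp [h1, h2]

lemma Rep.xc_mul {Q : W.Point} {a b : K} (h : Rep Q a b) (hQ : Q ≠ 0) : xc Q * b = a := by
  rcases h with ⟨h1, -, -⟩ | ⟨-, -, h3⟩
  · exact absurd h1 hQ
  · exact h3

lemma Rep.ne_zero {Q : W.Point} {a b : K} (h : Rep Q a b) : a ≠ 0 ∨ b ≠ 0 := by
  rcases h with ⟨-, -, h3⟩ | ⟨-, h2, -⟩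
  · exact Or.inl h3
  · exact Or.inr h2

lemma bezout' (W : Affine K) (x : K) :
    (-48 * x ^ 2 - 8 * W.b₂ * x + W.b₂ ^ 2 - 32 * W.b₄) * F0 W x x
      + (12 * x ^ 3 - W.b₂ * x ^ 2 - 10 * W.b₄ * x + W.b₂ * W.b₄ - 27 * W.b₆) * D2 W x = W.Δ := by
  simp only [F0, D2, WeierstrassCurve.Δ, WeierstrassCurve.b₂, WeierstrassCurve.b₄,
    WeierstrassCurve.b₆, WeierstrassCurve.b₈]
  ring

lemma eval_dA (c4 c6 c8 x : K) (A B : K[X]) :
    (dA (C c4) (C c6) (C c8) A B).eval x = dA c4 c6 c8 (A.eval x) (B.eval x) := by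
  simp [dA]

lemma eval_dB (c2 c4 c6 x : K) (A B : K[X]) :
    (dB (C c2) (C c4) (C c6) A B).eval x = dB c2 c4 c6 (A.eval x) (B.eval x) := by
  simp [dB]

lemma eval_oD (x : K) (A₁ B₁ A₂ B₂ : K[X]) :
    (oD A₁ B₁ A₂ B₂).eval x = oD (A₁.eval x) (B₁.eval x) (A₂.eval x) (B₂.eval x) := by
  simp [oD]

lemma eval_oF (c2 c4 c6 x : K) (A₁ B₁ A₂ B₂ : K[X]) :
    (oF (C c2) (C c4) (C c6) A₁ B₁ A₂ B₂).eval x =
      oF c2 c4 c6 (A₁.eval x) (B₁.eval x) (A₂.eval x) (B₂.eval x) := by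
  simp [oF]

variable [DecidableEq K]

lemma rep_dbl (hΔ : W.Δ ≠ 0) {Q : W.Point} {a b : K} (h : Rep Q a b) :
    Rep (Q + Q) (dA W.b₄ W.b₆ W.b₈ a b) (dB W.b₂ W.b₄ W.b₆ a b) := by
  rcases h with ⟨rfl, rfl, h3⟩ | ⟨h1, h2, h3⟩
  · left
    refine ⟨by simp, by simp [dB], ?_⟩
    simpa [dA] using h3
  · have eA : dA W.b₄ W.b₆ W.b₈ a b = b ^ 4 * F0 W (xc Q) (xc Q) := by
      rw [← h3]; simp only [dA, F0]; ring
    have eB : dB W.b₂ W.b₄ W.b₆ a b = b ^ 4 * D2 W (xc Q) := by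
      rw [← h3]; simp only [dB, D2]; ring
    have hsq := yc_sq Q h1
    by_cases h2Q : Q + Q = 0
    · left
      have hy := yc_eq_zero_of_add_self h2Q
      have hD : D2 W (xc Q) = 0 := by rw [← hsq, hy]; ring
      refine ⟨h2Q, by rw [eB, hD, mul_zero], ?_⟩
      rw [eA]
      refine mul_ne_zero (pow_ne_zero _ h2) ?_
      intro hF
      apply hΔ
      rw [← bezout' W (xc Q), hF, hD]; ring
    · right
      have hy : yc Q ≠ 0 := fun hy => h2Q (add_self_eq_zero_of_yc hy)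
      have hD : D2 W (xc Q) ≠ 0 := by rw [← hsq]; exact pow_ne_zero _ hy
      refine ⟨h2Q, by rw [eB]; exact mul_ne_zero (pow_ne_zero _ h2) hD, ?_⟩
      rw [eA, eB, ← xc_add_self h2Q]; ring

lemma rep_odd {P Q₁ Q₂ : W.Point} (hP : P ≠ 0) (hd : Q₁ - Q₂ = P) {a₁ b₁ a₂ b₂ : K}
    (h₁ : Rep Q₁ a₁ b₁) (h₂ : Rep Q₂ a₂ b₂) :
    Rep (Q₁ + Q₂) (oF W.b₂ W.b₄ W.b₆ a₁ b₁ a₂ b₂ - xc P * (oD a₁ b₁ a₂ b₂) ^ 2)
      ((oD a₁ b₁ a₂ b₂) ^ 2) := by
  rcases h₁ with ⟨rfl, rfl, h13⟩ | ⟨h11, h12, h13⟩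
  · -- Q₁ = 0, so Q₂ = -P
    have hQ₂ : Q₂ = -P := by rw [← hd]; simp
    subst hQ₂
    have hne : (-P : W.Point) ≠ 0 := neg_ne_zero.mpr hP
    have h23 := h₂.xc_mul hne
    have h22 : b₂ ≠ 0 := fun h => hne (h₂.eq_zero_iff.mpr h)
    rw [xc_neg] at h23
    right
    refine ⟨by simpa using hP, ?_, ?_⟩
    · simp only [oD]; exact pow_ne_zero _ (by simpa using mul_ne_zero h13 h22)
    · rw [zero_add, xc_neg, ← h23]; simp only [oD, oF]; ring
  rcases h₂ with ⟨rfl, rfl, h23⟩ | ⟨h21, h22, h23⟩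
  · have hQ₁ : Q₁ = P := by rw [← hd]; simp
    subst hQ₁
    right
    refine ⟨by simpa using hP, ?_, ?_⟩
    · simp only [oD]; exact pow_ne_zero _ (by simpa using mul_ne_zero h23 h12)
    · rw [add_zero, ← h13]; simp only [oD, oF]; ring
  · have eD : oD a₁ b₁ a₂ b₂ = b₁ * b₂ * (xc Q₁ - xc Q₂) := by
      rw [← h13, ← h23]; simp only [oD]; ring
    have eF : oF W.b₂ W.b₄ W.b₆ a₁ b₁ a₂ b₂ = (b₁ * b₂) ^ 2 * F1 W (xc Q₁) (xc Q₂) := by
      rw [← h13, ← h23]; simp only [oF, F1]; ring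
    have hbb : b₁ * b₂ ≠ 0 := mul_ne_zero h12 h22
    by_cases hx : xc Q₁ = xc Q₂
    · left
      have hne : Q₁ ≠ Q₂ := fun h => hP (by rw [← hd, h, sub_self])
      have hneg : Q₁ = -Q₂ := (eq_or_eq_neg_of_xc_eq h11 h21 hx).resolve_left hne
      refine ⟨by rw [hneg]; simp, by rw [eD, hx]; simp, ?_⟩
      rw [eD, eF, hx, sub_self, mul_zero]
      have hF : F1 W (xc Q₂) (xc Q₂) = D2 W (xc Q₂) := by simp only [F1, D2]; ring
      rw [hF, ← yc_sq Q₂ h21]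
      have hy : yc Q₂ ≠ 0 := by
        intro hy
        have := add_self_eq_zero_of_yc hy
        apply hne
        rw [hneg]
        exact (eq_neg_of_add_eq_zero_left this).symm
      simpa using ⟨⟨h12, h22⟩, hy⟩
    · right
      have hsum : Q₁ + Q₂ ≠ 0 := by
        intro h
        apply hx
        rw [eq_neg_of_add_eq_zero_left h, xc_neg]
      refine ⟨hsum, ?_, ?_⟩
      · rw [eD]; exact pow_ne_zero _ (mul_ne_zero hbb (sub_ne_zero.mpr hx))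
      · have := xc_add_add_xc_sub h11 h21 hx
        rw [hd] at this
        rw [eD, eF, ← this]; ring

/-- **Correctness of the ladder.** -/
theorem rep_lad (hΔ : W.Δ ≠ 0) {P : W.Point} (hP : P ≠ 0) (n : ℕ) :
    Rep (n • P) ((lad W n).1.eval (xc P)) ((lad W n).2.eval (xc P)) := by
  induction n using Nat.strong_induction_on with
  | _ n ih =>
    rcases Nat.lt_or_ge n 2 with hn | hn
    · interval_cases n
      · left; simp [lad_zero]
      · right; simp [lad_one, hP]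
    · rcases Nat.even_or_odd' n with ⟨m, rfl | rfl⟩
      · have hm : 1 ≤ m := by omega
        rw [lad_two_mul W m hm, two_mul, add_smul]
        simp only [eval_dA, eval_dB]
        exact rep_dbl hΔ (ih m (by omega))
      · have hm : 1 ≤ m := by omega
        have e : (2 * m + 1) • P = (m + 1) • P + m • P := by
          rw [← add_smul]; congr 1; ring
        rw [lad_two_mul_add_one W m hm, e]
        simp only [eval_sub, eval_mul, eval_X, eval_pow, eval_oD, eval_oF]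
        refine rep_odd hP ?_ (ih (m + 1) (by omega)) (ih m (by omega))
        rw [add_smul, one_smul]; abel

end Correct


/-! ### Degrees and top coefficients -/

section Degree

/-- `f` has degree `≤ d` and the coefficient of `X ^ d` is `c`. -/
def Top (f : K[X]) (d : ℕ) (c : K) : Prop := f.natDegree ≤ d ∧ f.coeff d = c

variable {f g : K[X]} {d e : ℕ} {c c' : K}

lemma Top.mul (hf : Top f d c) (hg : Top g e c') : Top (f * g) (d + e) (c * c') :=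
  ⟨natDegree_mul_le_of_le hf.1 hg.1, by
    rw [coeff_mul_add_eq_of_natDegree_le hf.1 hg.1, hf.2, hg.2]⟩

lemma Top.add (hf : Top f d c) (hg : Top g d c') : Top (f + g) d (c + c') :=
  ⟨natDegree_add_le_of_degree_le hf.1 hg.1, by rw [coeff_add, hf.2, hg.2]⟩

lemma Top.sub (hf : Top f d c) (hg : Top g d c') : Top (f - g) d (c - c') :=
  ⟨(natDegree_sub_le_of_le hf.1 hg.1).trans (by simp), by rw [coeff_sub, hf.2, hg.2]⟩

lemma Top.C_mul (a : K) (hf : Top f d c) : Top (C a * f) d (a * c) :=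
  ⟨(natDegree_C_mul_le a f).trans hf.1, by rw [coeff_C_mul, hf.2]⟩

lemma Top.pow (hf : Top f d c) (k : ℕ) : Top (f ^ k) (k * d) (c ^ k) :=
  ⟨natDegree_pow_le_of_le k hf.1, by rw [coeff_pow_of_natDegree_le hf.1, hf.2]⟩

lemma Top.weaken (hf : Top f d c) (h : d < e) : Top f e 0 :=
  ⟨hf.1.trans h.le, coeff_eq_zero_of_natDegree_lt (hf.1.trans_lt h)⟩

lemma Top.congr (hf : Top f d c) (hd : d = e) (hc : c = c') : Top f e c' := by
  subst hd; subst hc; exact hf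

lemma top_X : Top (X : K[X]) 1 1 := ⟨natDegree_X_le, coeff_X_one⟩

lemma top_one : Top (1 : K[X]) 0 1 := ⟨by simp, by simp⟩

lemma Top.two_mul (hf : Top f d c) : Top (2 * f) d (2 * c) := by
  have e : (2 : K[X]) = C 2 := (map_ofNat C 2).symm
  rw [e]; exact hf.C_mul 2

lemma Top.four_mul (hf : Top f d c) : Top (4 * f) d (4 * c) := by
  have e : (4 : K[X]) = C 4 := (map_ofNat C 4).symm
  rw [e]; exact hf.C_mul 4


/-- the "odd division polynomial": `divD W m` vanishes exactly at the x-coordinates of the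
nonzero `(2m+1)`-torsion points. -/
noncomputable def divD (W : Affine K) (m : ℕ) : K[X] :=
  oD (lad W (m + 1)).1 (lad W (m + 1)).2 (lad W m).1 (lad W m).2

lemma lad_two_mul_add_one_snd (m : ℕ) (hm : 1 ≤ m) : (lad W (2 * m + 1)).2 = divD W m ^ 2 := by
  rw [lad_two_mul_add_one W m hm]; rfl

private lemma top_dbl {A B : K[X]} {m : ℕ} (hm : 1 ≤ m) (c2 c4 c6 c8 : K)
    (hA : Top A (m ^ 2) 1) (hB : Top B (m ^ 2 - 1) ((m : K) ^ 2)) :
    Top (dA (C c4) (C c6) (C c8) A B) ((2 * m) ^ 2) 1 ∧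
      Top (dB (C c2) (C c4) (C c6) A B) ((2 * m) ^ 2 - 1) (((2 * m : ℕ) : K) ^ 2) := by
  have h1 : 1 ≤ m ^ 2 := Nat.one_le_pow _ _ hm
  have hB' : Top B (m ^ 2) 0 := hB.weaken (by omega)
  constructor
  · have t1 : Top (A ^ 4) ((2 * m) ^ 2) 1 := (hA.pow 4).congr (by ring) (by simp)
    have t2 : Top (C c4 * (A ^ 2 * B ^ 2)) ((2 * m) ^ 2) 0 :=
      (((hA.pow 2).mul (hB'.pow 2)).C_mul _).congr (by ring) (by simp)
    have t3 : Top (2 * (C c6 * (A * B ^ 3))) ((2 * m) ^ 2) 0 :=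
      ((hA.mul (hB'.pow 3)).C_mul _).two_mul.congr (by ring) (by simp)
    have t4 : Top (C c8 * B ^ 4) ((2 * m) ^ 2) 0 :=
      ((hB'.pow 4).C_mul _).congr (by ring) (by simp)
    exact (((t1.sub t2).sub t3).sub t4).congr rfl (by simp)
  · have s1 : Top (4 * A ^ 3) (3 * m ^ 2) 4 := (hA.pow 3).four_mul.congr rfl (by simp)
    have s2 : Top (C c2 * (A ^ 2 * B)) (3 * m ^ 2) 0 :=
      (((hA.pow 2).mul hB').C_mul _).congr (by ring) (by simp)
    have s3 : Top (2 * (C c4 * (A * B ^ 2))) (3 * m ^ 2) 0 :=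
      ((hA.mul (hB'.pow 2)).C_mul _).two_mul.congr (by ring) (by simp)
    have s4 : Top (C c6 * B ^ 3) (3 * m ^ 2) 0 :=
      ((hB'.pow 3).C_mul _).congr (by ring) (by simp)
    refine (hB.mul (((s1.add s2).add s3).add s4)).congr ?_ (by push_cast; ring)
    have e : (2 * m) ^ 2 = 4 * m ^ 2 := by ring
    rw [e]; omega

private lemma top_oD {A₁ B₁ A₂ B₂ : K[X]} {m : ℕ} (hm : 1 ≤ m)
    (hA₁ : Top A₁ ((m + 1) ^ 2) 1) (hB₁ : Top B₁ ((m + 1) ^ 2 - 1) (((m + 1 : ℕ) : K) ^ 2))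
    (hA₂ : Top A₂ (m ^ 2) 1) (hB₂ : Top B₂ (m ^ 2 - 1) ((m : K) ^ 2)) :
    Top (A₁ * B₂) (2 * m ^ 2 + 2 * m) ((m : K) ^ 2) ∧
    Top (A₂ * B₁) (2 * m ^ 2 + 2 * m) (((m + 1 : ℕ) : K) ^ 2) := by
  have h1 : 1 ≤ m ^ 2 := Nat.one_le_pow _ _ hm
  have e : (m + 1) ^ 2 = m ^ 2 + 2 * m + 1 := by ring
  constructor
  · exact (hA₁.mul hB₂).congr (by rw [e]; omega) (by simp)
  · exact (hA₂.mul hB₁).congr (by rw [e]; omega) (by simp)

private lemma top_odd {A₁ B₁ A₂ B₂ : K[X]} {m : ℕ} (hm : 1 ≤ m) (c2 c4 c6 : K)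
    (hA₁ : Top A₁ ((m + 1) ^ 2) 1) (hB₁ : Top B₁ ((m + 1) ^ 2 - 1) (((m + 1 : ℕ) : K) ^ 2))
    (hA₂ : Top A₂ (m ^ 2) 1) (hB₂ : Top B₂ (m ^ 2 - 1) ((m : K) ^ 2)) :
    Top (oD A₁ B₁ A₂ B₂) (2 * m ^ 2 + 2 * m) (-((2 * m + 1 : ℕ) : K)) ∧
    Top (oF (C c2) (C c4) (C c6) A₁ B₁ A₂ B₂ - X * (oD A₁ B₁ A₂ B₂) ^ 2) ((2 * m + 1) ^ 2) 1 ∧
      Top ((oD A₁ B₁ A₂ B₂) ^ 2) ((2 * m + 1) ^ 2 - 1) (((2 * m + 1 : ℕ) : K) ^ 2) := by
  have h1 : 1 ≤ m ^ 2 := Nat.one_le_pow _ _ hm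
  have e : (m + 1) ^ 2 = m ^ 2 + 2 * m + 1 := by ring
  have e2 : (2 * m + 1) ^ 2 = 2 * (2 * m ^ 2 + 2 * m) + 1 := by ring
  obtain ⟨u1, u2⟩ := top_oD hm hA₁ hB₁ hA₂ hB₂
  have hD : Top (oD A₁ B₁ A₂ B₂) (2 * m ^ 2 + 2 * m) (-((2 * m + 1 : ℕ) : K)) :=
    (u1.sub u2).congr rfl (by push_cast; ring)
  have hD2 := hD.pow 2
  refine ⟨hD, ?_, hD2.congr (by rw [e2]; omega) (by ring)⟩
  have hB₁' : Top B₁ ((m + 1) ^ 2) 0 := hB₁.weaken (by rw [e]; omega)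
  have w1 : Top (A₁ * A₂) (2 * m ^ 2 + 2 * m + 1) 1 :=
    (hA₁.mul hA₂).congr (by rw [e]; omega) (by simp)
  have w2 : Top (B₁ * B₂) (2 * m ^ 2 + 2 * m) 0 :=
    (hB₁'.mul hB₂).congr (by rw [e]; omega) (by simp)
  have t1 : Top (2 * ((A₁ * B₂ + A₂ * B₁) * (A₁ * A₂))) ((2 * m + 1) ^ 2)
      (2 * ((m : K) ^ 2 + ((m + 1 : ℕ) : K) ^ 2)) :=
    ((u1.add u2).mul w1).two_mul.congr (by rw [e2]; omega) (by simp)
  have t2 : Top (C c2 * ((A₁ * A₂) * (B₁ * B₂))) ((2 * m + 1) ^ 2) 0 :=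
    ((w1.mul w2).C_mul _).congr (by rw [e2]; omega) (by simp)
  have t3 : Top (C c4 * ((A₁ * B₂ + A₂ * B₁) * (B₁ * B₂))) ((2 * m + 1) ^ 2) 0 :=
    (((u1.add u2).mul w2).C_mul _).weaken (by rw [e2]; omega)
  have t4 : Top (C c6 * (B₁ * B₂) ^ 2) ((2 * m + 1) ^ 2) 0 :=
    ((w2.pow 2).C_mul _).weaken (by rw [e2]; omega)
  have t5 : Top (X * (oD A₁ B₁ A₂ B₂) ^ 2) ((2 * m + 1) ^ 2) (((2 * m + 1 : ℕ) : K) ^ 2) :=
    (top_X.mul hD2).congr (by rw [e2]; omega) (by ring)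
  exact ((((t1.add t2).add t3).add t4).sub t5).congr rfl (by push_cast; ring)

/-- degrees and top coefficients of the ladder polynomials -/
theorem top_lad (n : ℕ) (hn : 1 ≤ n) :
    Top (lad W n).1 (n ^ 2) 1 ∧ Top (lad W n).2 (n ^ 2 - 1) ((n : K) ^ 2) := by
  induction n using Nat.strong_induction_on with
  | _ n ih =>
    rcases Nat.lt_or_ge n 2 with hn2 | hn2
    · obtain rfl : n = 1 := by omega
      rw [lad_one]
      exact ⟨top_X.congr (by norm_num) rfl, top_one.congr (by norm_num) (by simp)⟩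
    · rcases Nat.even_or_odd' n with ⟨m, rfl | rfl⟩
      · have hm : 1 ≤ m := by omega
        rw [lad_two_mul W m hm]
        obtain ⟨hA, hB⟩ := ih m (by omega) hm
        exact top_dbl hm _ _ _ _ hA hB
      · have hm : 1 ≤ m := by omega
        rw [lad_two_mul_add_one W m hm]
        obtain ⟨hA₁, hB₁⟩ := ih (m + 1) (by omega) (by omega)
        obtain ⟨hA₂, hB₂⟩ := ih m (by omega) hm
        exact (top_odd hm _ _ _ hA₁ hB₁ hA₂ hB₂).2

theorem top_divD (m : ℕ) (hm : 1 ≤ m) :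
    Top (divD W m) (2 * m ^ 2 + 2 * m) (-((2 * m + 1 : ℕ) : K)) := by
  obtain ⟨hA₁, hB₁⟩ := top_lad W (m + 1) (by omega)
  obtain ⟨hA₂, hB₂⟩ := top_lad W m hm
  exact (top_odd hm 0 0 0 hA₁ hB₁ hA₂ hB₂).1

end Degree


/-! ### Coefficients lie in any subring containing the `bᵢ` -/

section Coeffs

variable {R : Type*} [CommRing R] (T : Subring R)

lemma dA_mem {c4 c6 c8 a b : R} (h4 : c4 ∈ T) (h6 : c6 ∈ T) (h8 : c8 ∈ T) (ha : a ∈ T)
    (hb : b ∈ T) : dA c4 c6 c8 a b ∈ T := by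
  have h2 : (2 : R) ∈ T := ofNat_mem T 2
  exact T.sub_mem (T.sub_mem (T.sub_mem (T.pow_mem ha 4)
    (T.mul_mem h4 (T.mul_mem (T.pow_mem ha 2) (T.pow_mem hb 2))))
    (T.mul_mem h2 (T.mul_mem h6 (T.mul_mem ha (T.pow_mem hb 3)))))
    (T.mul_mem h8 (T.pow_mem hb 4))

lemma dB_mem {c2 c4 c6 a b : R} (h2' : c2 ∈ T) (h4 : c4 ∈ T) (h6 : c6 ∈ T) (ha : a ∈ T)
    (hb : b ∈ T) : dB c2 c4 c6 a b ∈ T := by
  have h2 : (2 : R) ∈ T := ofNat_mem T 2
  have h4' : (4 : R) ∈ T := ofNat_mem T 4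
  exact T.mul_mem hb (T.add_mem (T.add_mem (T.add_mem (T.mul_mem h4' (T.pow_mem ha 3))
    (T.mul_mem h2' (T.mul_mem (T.pow_mem ha 2) hb)))
    (T.mul_mem h2 (T.mul_mem h4 (T.mul_mem ha (T.pow_mem hb 2)))))
    (T.mul_mem h6 (T.pow_mem hb 3)))

lemma oD_mem {a₁ b₁ a₂ b₂ : R} (ha₁ : a₁ ∈ T) (hb₁ : b₁ ∈ T) (ha₂ : a₂ ∈ T) (hb₂ : b₂ ∈ T) :
    oD a₁ b₁ a₂ b₂ ∈ T :=
  T.sub_mem (T.mul_mem ha₁ hb₂) (T.mul_mem ha₂ hb₁)

lemma oF_mem {c2 c4 c6 a₁ b₁ a₂ b₂ : R} (h2' : c2 ∈ T) (h4 : c4 ∈ T) (h6 : c6 ∈ T)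
    (ha₁ : a₁ ∈ T) (hb₁ : b₁ ∈ T) (ha₂ : a₂ ∈ T) (hb₂ : b₂ ∈ T) :
    oF c2 c4 c6 a₁ b₁ a₂ b₂ ∈ T := by
  have h2 : (2 : R) ∈ T := ofNat_mem T 2
  have hs : a₁ * b₂ + a₂ * b₁ ∈ T := T.add_mem (T.mul_mem ha₁ hb₂) (T.mul_mem ha₂ hb₁)
  have haa : a₁ * a₂ ∈ T := T.mul_mem ha₁ ha₂
  have hbb : b₁ * b₂ ∈ T := T.mul_mem hb₁ hb₂
  exact T.add_mem (T.add_mem (T.add_mem (T.mul_mem h2 (T.mul_mem hs haa))
    (T.mul_mem h2' (T.mul_mem haa hbb))) (T.mul_mem h4 (T.mul_mem hs hbb)))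
    (T.mul_mem h6 (T.pow_mem hbb 2))

end Coeffs

section Coeffs2

variable (S : Subring K)

lemma C_mem_liftsRing {c : K} (hc : c ∈ S) : C c ∈ liftsRing S.subtype := by
  rw [← lifts_iff_liftsRing]
  exact C'_mem_lifts ⟨⟨c, hc⟩, rfl⟩

lemma X_mem_liftsRing : (X : K[X]) ∈ liftsRing S.subtype := by
  rw [← lifts_iff_liftsRing]
  exact X_mem_lifts _

lemma coeff_mem_of_mem_liftsRing {f : K[X]} (hf : f ∈ liftsRing S.subtype) (i : ℕ) :
    f.coeff i ∈ S := by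
  rw [← lifts_iff_liftsRing, lifts_iff_coeff_lifts] at hf
  obtain ⟨y, hy⟩ := hf i
  rw [← hy]; exact y.2

theorem lad_mem_liftsRing (h2 : W.b₂ ∈ S) (h4 : W.b₄ ∈ S) (h6 : W.b₆ ∈ S) (h8 : W.b₈ ∈ S)
    (n : ℕ) : (lad W n).1 ∈ liftsRing S.subtype ∧ (lad W n).2 ∈ liftsRing S.subtype := by
  have H2 := C_mem_liftsRing S h2
  have H4 := C_mem_liftsRing S h4
  have H6 := C_mem_liftsRing S h6
  have H8 := C_mem_liftsRing S h8
  induction n using Nat.strong_induction_on with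
  | _ n ih =>
    rcases Nat.lt_or_ge n 2 with hn | hn
    · interval_cases n
      · rw [lad_zero]; exact ⟨Subring.one_mem _, Subring.zero_mem _⟩
      · rw [lad_one]; exact ⟨X_mem_liftsRing S, Subring.one_mem _⟩
    · rcases Nat.even_or_odd' n with ⟨m, rfl | rfl⟩
      · have hm : 1 ≤ m := by omega
        rw [lad_two_mul W m hm]
        obtain ⟨hA, hB⟩ := ih m (by omega)
        exact ⟨dA_mem _ H4 H6 H8 hA hB, dB_mem _ H2 H4 H6 hA hB⟩
      · have hm : 1 ≤ m := by omega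
        rw [lad_two_mul_add_one W m hm]
        obtain ⟨hA₁, hB₁⟩ := ih (m + 1) (by omega)
        obtain ⟨hA₂, hB₂⟩ := ih m (by omega)
        have hD := oD_mem _ hA₁ hB₁ hA₂ hB₂
        exact ⟨Subring.sub_mem _ (oF_mem _ H2 H4 H6 hA₁ hB₁ hA₂ hB₂)
          (Subring.mul_mem _ (X_mem_liftsRing S) (Subring.pow_mem _ hD 2)),
          Subring.pow_mem _ hD 2⟩

/-- all coefficients of `A_n` lie in any subring containing the `bᵢ` -/
theorem coeff_lad_fst_mem (h2 : W.b₂ ∈ S) (h4 : W.b₄ ∈ S) (h6 : W.b₆ ∈ S) (h8 : W.b₈ ∈ S)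
    (n i : ℕ) : (lad W n).1.coeff i ∈ S :=
  coeff_mem_of_mem_liftsRing S (lad_mem_liftsRing W S h2 h4 h6 h8 n).1 i

/-- all coefficients of `B_n` lie in any subring containing the `bᵢ` -/
theorem coeff_lad_snd_mem (h2 : W.b₂ ∈ S) (h4 : W.b₄ ∈ S) (h6 : W.b₆ ∈ S) (h8 : W.b₈ ∈ S)
    (n i : ℕ) : (lad W n).2.coeff i ∈ S :=
  coeff_mem_of_mem_liftsRing S (lad_mem_liftsRing W S h2 h4 h6 h8 n).2 i

/-- all coefficients of `divD W m` lie in any subring containing the `bᵢ` -/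
theorem coeff_divD_mem (h2 : W.b₂ ∈ S) (h4 : W.b₄ ∈ S) (h6 : W.b₆ ∈ S) (h8 : W.b₈ ∈ S)
    (m i : ℕ) : (divD W m).coeff i ∈ S :=
  coeff_mem_of_mem_liftsRing S
    (oD_mem _ (lad_mem_liftsRing W S h2 h4 h6 h8 (m + 1)).1
      (lad_mem_liftsRing W S h2 h4 h6 h8 (m + 1)).2
      (lad_mem_liftsRing W S h2 h4 h6 h8 m).1 (lad_mem_liftsRing W S h2 h4 h6 h8 m).2) i

end Coeffs2

/-! ### Torsion points -/

section Torsion

variable {W} [DecidableEq K]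

theorem divD_eval_eq_zero_iff (hΔ : W.Δ ≠ 0) {m : ℕ} (hm : 1 ≤ m) {P : W.Point} (hP : P ≠ 0) :
    (divD W m).eval (xc P) = 0 ↔ (2 * m + 1) • P = 0 := by
  have h := (rep_lad hΔ hP (2 * m + 1)).eq_zero_iff
  rw [lad_two_mul_add_one_snd W m hm, eval_pow] at h
  rw [h]
  exact (pow_eq_zero_iff (two_ne_zero)).symm

theorem divD_ne_zero {m : ℕ} (hm : 1 ≤ m) (hp : ((2 * m + 1 : ℕ) : K) ≠ 0) : divD W m ≠ 0 := by
  intro h
  have := (top_divD W m hm).2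
  rw [h, coeff_zero] at this
  exact hp (neg_eq_zero.mp this.symm)

theorem natDegree_divD {m : ℕ} (hm : 1 ≤ m) (hp : ((2 * m + 1 : ℕ) : K) ≠ 0) :
    (divD W m).natDegree = 2 * m ^ 2 + 2 * m := by
  obtain ⟨h1, h2⟩ := top_divD W m hm
  refine le_antisymm h1 (le_natDegree_of_ne_zero ?_)
  rw [h2]; exact neg_ne_zero.mpr hp

theorem leadingCoeff_divD {m : ℕ} (hm : 1 ≤ m) (hp : ((2 * m + 1 : ℕ) : K) ≠ 0) :
    (divD W m).leadingCoeff = -((2 * m + 1 : ℕ) : K) := by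
  rw [leadingCoeff, natDegree_divD hm hp]; exact (top_divD W m hm).2

/-- every `x` is the x-coordinate of a point -/
theorem exists_point_xc [IsAlgClosed K] (hΔ : W.Δ ≠ 0) (x : K) :
    ∃ P : W.Point, P ≠ 0 ∧ xc P = x := by
  let p : Polynomial K := X ^ 2 + C (W.a₁ * x + W.a₃) * X
    - C (x ^ 3 + W.a₂ * x ^ 2 + W.a₄ * x + W.a₆)
  have hdeg : p.degree ≠ 0 := by
    have : p.degree = 2 := by
      simp only [p]
      compute_degree!
    rw [this]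
    norm_num
  obtain ⟨y, hy⟩ := IsAlgClosed.exists_root p hdeg
  have hns : W.Nonsingular x y := by
    refine (W.equation_iff_nonsingular_of_Δ_ne_zero hΔ).mp ?_
    rw [Affine.equation_iff]
    simp only [p, IsRoot.def, eval_sub, eval_add, eval_pow, eval_X, eval_mul, eval_C] at hy
    linear_combination hy
  exact ⟨Point.some x y hns, Point.some_ne_zero _, rfl⟩

/-- existence of a nonzero `(2m+1)`-torsion point over an algebraically closed field -/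
theorem exists_torsion_point [IsAlgClosed K] (hΔ : W.Δ ≠ 0) {m : ℕ} (hm : 1 ≤ m)
    (hp : ((2 * m + 1 : ℕ) : K) ≠ 0) : ∃ P : W.Point, P ≠ 0 ∧ (2 * m + 1) • P = 0 := by
  have hdeg : (divD W m).degree ≠ 0 := by
    rw [degree_eq_natDegree (divD_ne_zero hm hp), natDegree_divD hm hp]
    have : 0 < 2 * m ^ 2 + 2 * m := by positivity
    exact_mod_cast this.ne'
  obtain ⟨x, hx⟩ := IsAlgClosed.exists_root _ hdeg
  obtain ⟨P, hP, rfl⟩ := exists_point_xc hΔ x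
  exact ⟨P, hP, (divD_eval_eq_zero_iff hΔ hm hP).mp hx⟩

/-- the `(2m+1)`-torsion is contained in an explicit finite set of size `≤ (2m+1)²` -/
theorem exists_finset_torsion (hΔ : W.Δ ≠ 0) {m : ℕ} (hm : 1 ≤ m)
    (hp : ((2 * m + 1 : ℕ) : K) ≠ 0) :
    ∃ s : Finset W.Point, s.card ≤ (2 * m + 1) ^ 2 ∧ ∀ P : W.Point, (2 * m + 1) • P = 0 → P ∈ s := by
  classical
  let Q : K → W.Point := fun r =>
    if h : ∃ P : W.Point, P ≠ 0 ∧ xc P = r then h.choose else 0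
  let Rts := (divD W m).roots.toFinset
  have hR : Rts.card ≤ 2 * m ^ 2 + 2 * m := by
    calc Rts.card ≤ Multiset.card (divD W m).roots := Multiset.toFinset_card_le _
      _ ≤ (divD W m).natDegree := card_roots' _
      _ = _ := natDegree_divD hm hp
  refine ⟨insert 0 (Rts.image Q ∪ Rts.image (fun r => - Q r)), ?_, ?_⟩
  · calc _ ≤ (Rts.image Q ∪ Rts.image (fun r => - Q r)).card + 1 := Finset.card_insert_le _ _
      _ ≤ ((Rts.image Q).card + (Rts.image (fun r => - Q r)).card) + 1 := by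
          gcongr; exact Finset.card_union_le _ _
      _ ≤ (Rts.card + Rts.card) + 1 := by
          gcongr <;> exact Finset.card_image_le
      _ ≤ (2 * m + 1) ^ 2 := by nlinarith
  · intro P hP
    by_cases h0 : P = 0
    · simp [h0]
    · have hroot : xc P ∈ Rts := by
        simp only [Rts, Multiset.mem_toFinset]
        exact (mem_roots (divD_ne_zero hm hp)).mpr ((divD_eval_eq_zero_iff hΔ hm h0).mpr hP)
      have hex : ∃ P' : W.Point, P' ≠ 0 ∧ xc P' = xc P := ⟨P, h0, rfl⟩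
      have hQ : Q (xc P) = hex.choose := dif_pos hex
      obtain ⟨hQ0, hQx⟩ := hex.choose_spec
      rw [← hQ] at hQ0 hQx
      rw [Finset.mem_insert, Finset.mem_union, Finset.mem_image, Finset.mem_image]
      right
      rcases eq_or_eq_neg_of_xc_eq h0 hQ0 hQx.symm with h | h
      · exact Or.inl ⟨_, hroot, h.symm⟩
      · exact Or.inr ⟨_, hroot, h.symm⟩

end Torsion

end Fermat.Agent.S13.Ladder
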