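import Fermat.Agent.S13.Defs
import Fermat.Agent.S05

set_option autoImplicit false

namespace Fermat.Agent.S13

open WeierstrassCurve WeierstrassCurve.Affine WeierstrassCurve.Affine.Point

/-- From S05 (only an instance conversion). -/
theorem frey_unramified (P : FreyPackage) {q : ℕ} (hq : q.Prime) (hq2 : q ≠ 2) (hqp : q ≠ P.p)
    (A : ValuationSubring Qb) (hA : A.LiesOverPrime q) (σ : GQ)
    (hσ : σ ∈ A.inertiaSubgroupIn ℚ) (z : FreyV P) : σ • z = z :=
  Fermat.Agent.S05.result P hq hq2 hqp A hA σ hσ z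

end Fermat.Agent.S13
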